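import Fermat.Agent.FiniteFlat.GalOrder
import Mathlib.RingTheory.Adjoin.Basic
import Mathlib.RingTheory.TensorProduct.Finite
import Mathlib.RingTheory.Noetherian.Basic
import Mathlib.Algebra.Polynomial.Roots

/-!
# Closure properties of Galois orders

Galois orders restrict to stable subgroups, descend to quotients and multiply.
-/

set_option autoImplicit false

noncomputable section

open Polynomial
open Fermat.Agent.Arith

namespace Fermat.Agent.FiniteFlat

namespace GalOrder

variable {l : ℕ} {M : Type} [AddCommGroup M] [DistribMulAction GQ M]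
  {M' : Type} [AddCommGroup M'] [DistribMulAction GQ M']

/-- Precomposition. -/
def precomp (l : ℕ) {X Y : Type} (π : X → Y) : (Y → QBar) →ₐ[Zl l] (X → QBar) :=
  AlgHom.pi (R := Zl l) (A := fun _ : X => QBar) fun x => Pi.evalAlgHom (Zl l) (fun _ : Y => QBar) (π x)

@[simp]
theorem precomp_apply (l : ℕ) {X Y : Type} (π : X → Y) (f : Y → QBar) (x : X) :
    precomp l π f x = f (π x) := rfl

variable (O : GalOrder l M)

theorem finite_map_precomp {X : Type} (π : X → M) :
    Module.Finite (Zl l) (O.H.map (precomp l π)) := by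
  refine Module.Finite.of_surjective (M := O.H)
    (((precomp l π).comp O.H.val).codRestrict (O.H.map (precomp l π))
      fun g => ⟨g, g.2, rfl⟩).toLinearMap ?_
  rintro ⟨f, g, hg, rfl⟩
  exact ⟨⟨g, hg⟩, rfl⟩

/-- Restriction along an equivariant injection. -/
def restrict (i : M' →+ M) (hi : Function.Injective i) (hσ : ∀ (σ : GQ) m, i (σ • m) = σ • i m) :
    GalOrder l M' where
  H := O.H.map (precomp l i)
  equivariant := by
    rintro f ⟨g, hg, rfl⟩ σ m
    exact (congrArg g (hσ σ m)).trans (O.equivariant g hg σ (i m))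
  finite := O.finite_map_precomp i
  separates m m' h := hi (O.separates _ _ fun g hg => h _ ⟨g, hg, rfl⟩)
  comul := by
    rintro f ⟨g, hg, rfl⟩
    obtain ⟨n, a, b, ha, hb, h⟩ := O.comul g hg
    exact ⟨n, fun j => precomp l i (a j), fun j => precomp l i (b j), fun j => ⟨a j, ha j, rfl⟩,
      fun j => ⟨b j, hb j, rfl⟩, fun x y => (congrArg g (map_add i x y)).trans (h _ _)⟩
  neg := by
    rintro f ⟨g, hg, rfl⟩
    exact ⟨_, O.neg g hg, funext fun x => congrArg g (map_neg i x).symm⟩

variable [Finite M]

include O in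
/-- An equivariant function becomes an element of the order after scaling. -/
theorem exists_smul_mem {g : M → QBar} (hg : ∀ (σ : GQ) m, g (σ • m) = σ (g m)) :
    ∃ c : Zl l, c ≠ 0 ∧ c • g ∈ O.H := by
  classical
  have hsp : g ∈ Submodule.span QBar
      (Set.range fun i => ((O.basis i : O.H) : M → QBar)) := by
    have hle : (O.H : Set (M → QBar)) ⊆ Submodule.span QBar
        (Set.range fun i => ((O.basis i : O.H) : M → QBar)) := fun f hf => by
      have := congrArg (fun g : O.H => (g : M → QBar)) (O.basis.sum_repr ⟨f, hf⟩)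
      simp only [AddSubmonoidClass.coe_finsetSum, SetLike.val_smul] at this
      rw [SetLike.mem_coe, ← this]
      exact Submodule.sum_mem _ fun i _ => Submodule.smul_of_tower_mem _ _
        (Submodule.subset_span (Set.mem_range_self i))
    exact (Submodule.span_le.mpr hle) (O.span_eq_top ▸ Submodule.mem_top)
  obtain ⟨c, rfl⟩ := (Submodule.mem_span_range_iff_exists_fun QBar).mp hsp
  have hfix : ∀ i (σ : GQ), σ (c i) = c i := fun i σ => by
    refine sub_eq_zero.mp (O.eq_zero_of_sum_mul_eq_zero Finset.univ _ O.basis.linearIndependent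
      (fun j => σ (c j) - c j) (fun m => ?_) i (Finset.mem_univ i))
    have := hg σ (σ⁻¹ • m)
    rw [smul_inv_smul] at this
    simp only [Finset.sum_apply, Pi.smul_apply, smul_eq_mul, map_sum, map_mul] at this
    simp only [sub_mul, Finset.sum_sub_distrib, sub_eq_zero]
    refine Eq.trans (Finset.sum_congr rfl fun j _ => ?_) this.symm
    rw [← O.equivariant _ (O.basis j).2, smul_inv_smul]
  choose q hq using fun i => exists_rat_of_fixed (hfix i)
  obtain ⟨N, hN⟩ := IsLocalization.exist_integer_multiples (nonZeroDivisors (Zl l)) Finset.univ q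
  choose a ha using fun i => hN i (Finset.mem_univ i)
  refine ⟨N, nonZeroDivisors.coe_ne_zero N, ?_⟩
  have heq : (N : Zl l) • ∑ i, c i • ((O.basis i : O.H) : M → QBar) =
      ((∑ i, a i • O.basis i : O.H) : M → QBar) := by
    funext m
    simp only [Pi.smul_apply, Finset.sum_apply, AddSubmonoidClass.coe_finsetSum,
      SetLike.val_smul, smul_eq_mul, zl_smul, Finset.mul_sum]
    refine Finset.sum_congr rfl fun i _ => ?_
    have := ha i
    rw [Subring.smul_def, smul_eq_mul] at this
    rw [show (a i : ℚ) = ((N : Zl l) : ℚ) * q i from this, Rat.cast_mul, hq]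
    ring
  rw [heq]
  exact (∑ i, a i • O.basis i : O.H).2

include O in
/-- Equivariant functions separate the fibres of an equivariant homomorphism. -/
theorem exists_separating (π : M →+ M') (hσ : ∀ (σ : GQ) m, π (σ • m) = σ • π m) {m₁ m₂ : M}
    (hne : π m₁ ≠ π m₂) :
    ∃ g : M → QBar, (∀ (σ : GQ) m, g (σ • m) = σ (g m)) ∧
      (∀ m m', π m = π m' → g m = g m') ∧ g m₁ ≠ g m₂ := by
  classical
  have := Fintype.ofFinite M
  -- an injective element of the order
  obtain ⟨f, hf, hfi⟩ : ∃ f ∈ O.H, Function.Injective f := by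
    obtain ⟨n, ⟨e⟩⟩ : ∃ n, Nonempty (Fin n ≃ Module.Free.ChooseBasisIndex (Zl l) O.H) :=
      ⟨_, ⟨(Fintype.equivFin _).symm⟩⟩
    let b : Fin n → O.H := fun i => O.basis (e i)
    let P : M × M → QBar[X] := fun mm =>
      ∑ i : Fin n, C ((b i : M → QBar) mm.1 - (b i : M → QBar) mm.2) * X ^ (i : ℕ)
    have hP : ∀ mm : M × M, mm.1 ≠ mm.2 → P mm ≠ 0 := by
      intro mm hmm h0
      apply hmm
      refine O.separates _ _ fun f hf => ?_
      have hs := congrArg (fun g : O.H => (g : M → QBar)) (O.basis.sum_repr ⟨f, hf⟩)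
      simp only [AddSubmonoidClass.coe_finsetSum, SetLike.val_smul] at hs
      rw [← hs]
      simp only [Finset.sum_apply, Pi.smul_apply]
      refine Finset.sum_congr rfl fun j _ => ?_
      have h1 := congrArg (fun p : QBar[X] => p.coeff (e.symm j : ℕ)) h0
      simp only [P, finsetSum_coeff, coeff_C_mul, coeff_X_pow, Fin.val_inj, mul_ite, mul_one,
        mul_zero, Finset.sum_ite_eq, Finset.mem_univ, if_true, coeff_zero, sub_eq_zero, b,
        Equiv.apply_symm_apply] at h1
      rw [h1]
    have hbad : (⋃ mm ∈ {mm : M × M | mm.1 ≠ mm.2}, {t : ℕ | (P mm).IsRoot (t : QBar)}).Finite :=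
      (Set.toFinite _).biUnion fun mm hmm =>
        (finite_setOfPred_isRoot (hP mm hmm)).preimage Nat.cast_injective.injOn
    obtain ⟨t, ht⟩ := hbad.infinite_compl.nonempty
    refine ⟨((∑ i : Fin n, (t ^ (i : ℕ)) • b i : O.H) : M → QBar), Subtype.coe_prop _,
      fun m m' hmm => ?_⟩
    by_contra hne
    refine ht (Set.mem_biUnion (x := (m, m')) hne ?_)
    simp only [Set.mem_ofPred_eq, IsRoot, P, eval_finsetSum, eval_mul, eval_C, eval_pow, eval_X,
      sub_mul, Finset.sum_sub_distrib, sub_eq_zero]
    simpa [AddSubmonoidClass.coe_finsetSum, Finset.sum_apply, mul_comm] using hmm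
  -- the fibre polynomials
  let F : M → QBar[X] := fun m =>
    ∏ m' ∈ Finset.univ.filter (fun m' => π m' = π m), (X - C (f m'))
  have hF : F m₁ ≠ F m₂ := by
    intro h
    have := congrArg (Polynomial.eval (f m₁)) h
    simp only [F, eval_prod, eval_sub, eval_X, eval_C] at this
    rw [Finset.prod_eq_zero (i := m₁) (by simp) (sub_self _), eq_comm, Finset.prod_eq_zero_iff]
      at this
    obtain ⟨m', hm', he⟩ := this
    rw [Finset.mem_filter] at hm'
    exact hne ((congrArg π (hfi (sub_eq_zero.mp he))).trans hm'.2)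
  obtain ⟨t, ht⟩ : ∃ t : ℤ, (F m₁).eval (t : QBar) ≠ (F m₂).eval (t : QBar) := by
    by_contra! hall
    exact hF (eq_of_infinite_eval_eq _ _ ((Set.infinite_range_of_injective Int.cast_injective).mono
      (by rintro _ ⟨t, rfl⟩; exact hall t)))
  refine ⟨fun m => (F m).eval (t : QBar), fun σ m => ?_, fun m m' h => ?_, ht⟩
  · simp only [F, eval_prod, eval_sub, eval_X, eval_C, map_prod, map_sub, map_intCast]
    refine Finset.prod_nbij' (fun x => σ⁻¹ • x) (fun x => σ • x) ?_ ?_
      (fun x _ => smul_inv_smul σ x) (fun x _ => inv_smul_smul σ x) (fun x _ => ?_)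
    · intro x hx
      simp only [Finset.mem_filter, Finset.mem_univ, true_and] at hx ⊢
      rw [hσ, hx, hσ, inv_smul_smul]
    · intro x hx
      simp only [Finset.mem_filter, Finset.mem_univ, true_and] at hx ⊢
      rw [hσ, hx, hσ]
    · rw [← O.equivariant f hf, smul_inv_smul]
  · simp only [F, h]

omit [Finite M] in
/-- Expansion of the translate in terms of a given basis in the first variable. -/
theorem exists_comul_basis {ι : Type} [Fintype ι] (v : ι → O.H)
    (f : M → QBar) (n : ℕ) (a b : Fin n → (M → QBar))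
    (ha : ∀ i, ∃ c : ι → Zl l, a i = ∑ j, c j • (v j : M → QBar)) (hb : ∀ i, b i ∈ O.H)
    (h : ∀ x y, f (x + y) = ∑ i, a i x * b i y) :
    ∃ b' : ι → O.H, ∀ x y, f (x + y) = ∑ j, (v j : M → QBar) x * (b' j : M → QBar) y := by
  choose c hc using ha
  refine ⟨fun j => ∑ i, c i j • (⟨b i, hb i⟩ : O.H), fun x y => ?_⟩
  rw [h x y]
  simp only [hc, Finset.sum_apply, Pi.smul_apply, AddSubmonoidClass.coe_finsetSum,
    SetLike.val_smul, zl_smul, Finset.sum_mul, Finset.mul_sum]
  rw [Finset.sum_comm]
  exact Finset.sum_congr rfl fun j _ => Finset.sum_congr rfl fun i _ => by ring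

/-- Descent along an equivariant surjection. -/
def quotient (π : M →+ M') (hπ : Function.Surjective π)
    (hσ : ∀ (σ : GQ) m, π (σ • m) = σ • π m) : GalOrder l M' where
  H := O.H.comap (precomp l π)
  equivariant f hf σ m := by
    obtain ⟨m, rfl⟩ := hπ m
    rw [← hσ]
    exact O.equivariant _ hf σ m
  finite := by
    have : IsNoetherian (Zl l) O.H := isNoetherian_of_isNoetherianRing_of_finite (Zl l) O.H
    let i : O.H.comap (precomp l π) →ₐ[Zl l] O.H :=
      ((precomp l π).comp (O.H.comap (precomp l π)).val).codRestrict _ fun f => f.2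
    exact Module.Finite.of_injective i.toLinearMap fun f g h => Subtype.ext (funext fun m => by
      obtain ⟨m, rfl⟩ := hπ m
      exact congrFun (congrArg Subtype.val h) m)
  separates m m' h := by
    obtain ⟨m, rfl⟩ := hπ m
    obtain ⟨m', rfl⟩ := hπ m'
    by_contra hne
    obtain ⟨g, hg, hgi, hgne⟩ := O.exists_separating π hσ hne
    obtain ⟨c, hc, hcg⟩ := O.exists_smul_mem hg
    let g' : M' → QBar := fun x => (c • g) (hπ x).choose
    have hg' : precomp l π g' = c • g := funext fun x => by
      simp only [precomp_apply, g', Pi.smul_apply]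
      exact congrArg (c • ·) (hgi _ _ (hπ (π x)).choose_spec)
    have := h g' (show precomp l π g' ∈ O.H from hg'.symm ▸ hcg)
    rw [← precomp_apply l π g', ← precomp_apply l π g', hg', Pi.smul_apply, Pi.smul_apply,
      zl_smul, zl_smul] at this
    exact hgne (mul_left_cancel₀ (fun h0 => hc (Subtype.ext (by exact_mod_cast h0))) this)
  comul f hf := by
    classical
    obtain ⟨n, a, b, ha, hb, h⟩ := O.comul (precomp l π f) hf
    -- in the second variable, invariance under the kernel
    obtain ⟨b₁, hb₁⟩ := O.exists_comul_basis O.basis (precomp l π f) n a b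
      (fun i => ⟨fun j => O.basis.repr ⟨a i, ha i⟩ j, by
        have := congrArg (fun g : O.H => (g : M → QBar)) (O.basis.sum_repr ⟨a i, ha i⟩)
        simp only [AddSubmonoidClass.coe_finsetSum, SetLike.val_smul] at this
        exact this.symm⟩) hb h
    have hb₁i : ∀ j y y', π y = π y' → (b₁ j : M → QBar) y = (b₁ j : M → QBar) y' := by
      intro j y y' hy
      refine sub_eq_zero.mp (O.eq_zero_of_sum_mul_eq_zero Finset.univ _ O.basis.linearIndependent
        (fun k => (b₁ k : M → QBar) y - (b₁ k : M → QBar) y') (fun x => ?_) j (Finset.mem_univ j))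
      simp only [sub_mul, Finset.sum_sub_distrib]
      have h1 := hb₁ x y
      have h2 := hb₁ x y'
      simp only [precomp_apply, map_add, hy] at h1 h2
      rw [h1] at h2
      refine Eq.trans ?_ (sub_eq_zero.mpr h2)
      congr 1 <;> exact Finset.sum_congr rfl fun k _ => mul_comm _ _
    -- swap the variables
    let v : O.H.comap (precomp l π) →ₐ[Zl l] O.H :=
      ((precomp l π).comp (O.H.comap (precomp l π)).val).codRestrict _ fun f => f.2
    have hv : Function.Injective v := fun f g h => Subtype.ext (funext fun m => by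
      obtain ⟨m, rfl⟩ := hπ m
      exact congrFun (congrArg Subtype.val h) m)
    have : IsNoetherian (Zl l) O.H := isNoetherian_of_isNoetherianRing_of_finite (Zl l) O.H
    have : Module.Finite (Zl l) (O.H.comap (precomp l π)) :=
      Module.Finite.of_injective v.toLinearMap hv
    have : Module.IsTorsionFree (Zl l) (O.H.comap (precomp l π)) :=
      Function.Injective.moduleIsTorsionFree (R := Zl l) v hv (fun c x => map_smul v c x)
    let B := Module.Free.chooseBasis (Zl l) (O.H.comap (precomp l π))
    have hbpre : ∀ j, ∃ g : O.H.comap (precomp l π), v g = b₁ j := fun j => by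
      refine ⟨⟨fun x => (b₁ j : M → QBar) (hπ x).choose, ?_⟩, ?_⟩
      · show precomp l π _ ∈ O.H
        have : precomp l π (fun x => (b₁ j : M → QBar) (hπ x).choose) = (b₁ j : M → QBar) :=
          funext fun x => hb₁i j _ _ (hπ (π x)).choose_spec
        rw [this]
        exact (b₁ j).2
      · exact Subtype.ext (funext fun x => hb₁i j _ _ (hπ (π x)).choose_spec)
    choose g hg using hbpre
    -- expand in the second variable in the basis of the quotient order
    have hB : LinearIndependent (Zl l) fun i => v (B i) :=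
      B.linearIndependent.map' v.toLinearMap (LinearMap.ker_eq_bot.mpr hv)
    let a₂ : _ → O.H := fun i => ∑ j, B.repr (g j) i • O.basis j
    have h₂ : ∀ x y, f (π x + π y) =
        ∑ i, (v (B i) : M → QBar) y * (a₂ i : M → QBar) x := fun x y => by
      have h1 := hb₁ x y
      simp only [precomp_apply, map_add] at h1
      rw [h1]
      have hg' : ∀ j, (b₁ j : M → QBar) y = ∑ i, B.repr (g j) i • (v (B i) : M → QBar) y :=
        fun j => by
        have := congrArg (fun g => ((v g : O.H) : M → QBar) y) (B.sum_repr (g j))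
        simp only [map_sum, map_smul, AddSubmonoidClass.coe_finsetSum, Finset.sum_apply,
          SetLike.val_smul, Pi.smul_apply] at this
        rw [← hg j]
        exact this.symm
      simp only [hg', a₂, AddSubmonoidClass.coe_finsetSum, SetLike.val_smul, Finset.sum_apply,
        Pi.smul_apply, zl_smul, Finset.mul_sum]
      rw [Finset.sum_comm]
      exact Finset.sum_congr rfl fun i _ => Finset.sum_congr rfl fun j _ => by ring
    have ha₂ : ∀ i x x', π x = π x' → (a₂ i : M → QBar) x = (a₂ i : M → QBar) x' := by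
      intro i x x' hx
      refine sub_eq_zero.mp (O.eq_zero_of_sum_mul_eq_zero Finset.univ _ hB
        (fun k => (a₂ k : M → QBar) x - (a₂ k : M → QBar) x') (fun y => ?_) i (Finset.mem_univ i))
      have h1 := h₂ x y
      rw [hx, h₂ x' y] at h1
      simp only [sub_mul, Finset.sum_sub_distrib]
      refine Eq.trans ?_ (sub_eq_zero.mpr h1.symm)
      congr 1 <;> exact Finset.sum_congr rfl fun k _ => mul_comm _ _
    let e := Fintype.equivFin (Module.Free.ChooseBasisIndex (Zl l) (O.H.comap (precomp l π)))
    refine ⟨_, fun i x => (a₂ (e.symm i) : M → QBar) (hπ x).choose,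
      fun i => ((B (e.symm i) : O.H.comap (precomp l π)) : M' → QBar), fun i => ?_,
      fun i => (B (e.symm i)).2, fun x y => ?_⟩
    · show precomp l π _ ∈ O.H
      have : precomp l π (fun x => (a₂ (e.symm i) : M → QBar) (hπ x).choose)
          = (a₂ (e.symm i) : M → QBar) :=
        funext fun x => ha₂ _ _ _ (hπ (π x)).choose_spec
      rw [this]
      exact (a₂ (e.symm i)).2
    · obtain ⟨x, rfl⟩ := hπ x
      obtain ⟨y, rfl⟩ := hπ y
      rw [h₂, ← e.symm.sum_comp]
      exact Finset.sum_congr rfl fun i _ => by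
        dsimp only
        rw [mul_comm, ha₂ (e.symm i) x (hπ (π x)).choose (hπ (π x)).choose_spec.symm]
        rfl
  neg f hf := by
    show precomp l π _ ∈ O.H
    have := O.neg _ hf
    rwa [show precomp l π (fun x => f (-x)) = fun x => precomp l π f (-x) from
      funext fun x => by simp]

omit [Finite M] in
/-- The product of two Galois orders. -/
def prod (O' : GalOrder l M') : GalOrder l (M × M') where
  H := O.H.map (precomp l Prod.fst) ⊔ O'.H.map (precomp l Prod.snd)
  equivariant f hf := by
    let S : Subalgebra (Zl l) (M × M' → QBar) :=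
      { carrier := {f | ∀ (σ : GQ) m, f (σ • m) = σ (f m)}
        mul_mem' := fun hf hg σ m => by simp [hf σ m, hg σ m]
        add_mem' := fun hf hg σ m => by simp [hf σ m, hg σ m]
        algebraMap_mem' := fun c σ m => by
          rw [Pi.algebraMap_apply, Pi.algebraMap_apply,
            IsScalarTower.algebraMap_apply (Zl l) ℚ QBar, AlgEquiv.commutes] }
    refine (sup_le ?_ ?_ : _ ≤ S) hf
    · rintro _ ⟨g, hg, rfl⟩ σ m; exact O.equivariant g hg σ m.1
    · rintro _ ⟨g, hg, rfl⟩ σ m; exact O'.equivariant g hg σ m.2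
  finite := by
    have : Module.Finite (Zl l) (O.H.map (precomp l (Prod.fst : M × M' → M))) :=
      O.finite_map_precomp _
    have : Module.Finite (Zl l) (O'.H.map (precomp l (Prod.snd : M × M' → M'))) :=
      O'.finite_map_precomp _
    exact Subalgebra.finite_sup _ _
  separates m m' h := Prod.ext
    (O.separates _ _ fun g hg => h _ (SetLike.le_def.mp le_sup_left ⟨g, hg, rfl⟩))
    (O'.separates _ _ fun g hg => h _ (SetLike.le_def.mp le_sup_right ⟨g, hg, rfl⟩))
  comul f hf := by
    set H := O.H.map (precomp l Prod.fst) ⊔ O'.H.map (precomp l Prod.snd)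
    let S : Subalgebra (Zl l) (M × M' → QBar) :=
      { carrier := {f | ∃ (n : ℕ) (a b : Fin n → (M × M' → QBar)),
          (∀ i, a i ∈ H) ∧ (∀ i, b i ∈ H) ∧ ∀ x y, f (x + y) = ∑ i, a i x * b i y}
        mul_mem' := by
          rintro f g ⟨n, a, b, ha, hb, h⟩ ⟨n', a', b', ha', hb', h'⟩
          refine ⟨n * n', fun i => a (finProdFinEquiv.symm i).1 * a' (finProdFinEquiv.symm i).2,
            fun i => b (finProdFinEquiv.symm i).1 * b' (finProdFinEquiv.symm i).2,
            fun i => H.mul_mem (ha _) (ha' _), fun i => H.mul_mem (hb _) (hb' _), fun x y => ?_⟩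
          rw [Pi.mul_apply, h, h', Finset.sum_mul_sum, ← finProdFinEquiv.sum_comp,
            ← Finset.univ_product_univ, Finset.sum_product]
          simp only [Equiv.symm_apply_apply, Pi.mul_apply]
          exact Finset.sum_congr rfl fun i _ => Finset.sum_congr rfl fun j _ => by ring
        add_mem' := by
          rintro f g ⟨n, a, b, ha, hb, h⟩ ⟨n', a', b', ha', hb', h'⟩
          refine ⟨n + n', Fin.addCases a a', Fin.addCases b b', fun i => ?_, fun i => ?_,
            fun x y => ?_⟩
          · exact Fin.addCases (fun i => by simpa using ha i) (fun i => by simpa using ha' i) i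
          · exact Fin.addCases (fun i => by simpa using hb i) (fun i => by simpa using hb' i) i
          · rw [Pi.add_apply, h, h', Fin.sum_univ_add]
            simp
        algebraMap_mem' := fun c => ⟨1, fun _ => algebraMap _ _ c, fun _ => 1,
          fun _ => H.algebraMap_mem c, fun _ => H.one_mem, fun x y => by simp⟩ }
    refine (sup_le ?_ ?_ : _ ≤ S) hf
    · rintro _ ⟨g, hg, rfl⟩
      obtain ⟨n, a, b, ha, hb, h⟩ := O.comul g hg
      exact ⟨n, fun i => precomp l Prod.fst (a i), fun i => precomp l Prod.fst (b i),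
        fun i => SetLike.le_def.mp le_sup_left ⟨a i, ha i, rfl⟩,
        fun i => SetLike.le_def.mp le_sup_left ⟨b i, hb i, rfl⟩, fun x y => h x.1 y.1⟩
    · rintro _ ⟨g, hg, rfl⟩
      obtain ⟨n, a, b, ha, hb, h⟩ := O'.comul g hg
      exact ⟨n, fun i => precomp l Prod.snd (a i), fun i => precomp l Prod.snd (b i),
        fun i => SetLike.le_def.mp le_sup_right ⟨a i, ha i, rfl⟩,
        fun i => SetLike.le_def.mp le_sup_right ⟨b i, hb i, rfl⟩, fun x y => h x.2 y.2⟩
  neg f hf := by
    set H := O.H.map (precomp l Prod.fst) ⊔ O'.H.map (precomp l Prod.snd)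
    refine (sup_le ?_ ?_ : H ≤ H.comap (precomp l fun x : M × M' => -x)) hf
    · rintro _ ⟨g, hg, rfl⟩
      exact (le_sup_left : O.H.map (precomp l Prod.fst) ≤ H) ⟨_, O.neg g hg, rfl⟩
    · rintro _ ⟨g, hg, rfl⟩
      exact (le_sup_right : O'.H.map (precomp l Prod.snd) ≤ H) ⟨_, O'.neg g hg, rfl⟩

end GalOrder

end Fermat.Agent.FiniteFlat
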