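import Fermat.Agent.Arith.Places
import Fermat.Prelude.Def_GaloisRep_Flat
import Mathlib.RingTheory.IntegralClosure.IsIntegralClosure.Basic
import Mathlib.RingTheory.Localization.FractionRing
import Mathlib.RingTheory.PrincipalIdealDomain
import Mathlib.LinearAlgebra.FreeModule.PID
import Mathlib.LinearAlgebra.Dimension.Finite
import Mathlib.LinearAlgebra.TensorProduct.Basis
import Mathlib.FieldTheory.Galois.Infinite

/-!
# Orders of equivariant functions on a finite Galois module

A `GalOrder ℓ M` is a `ℤ_(ℓ)`-subalgebra of the functions `M → ℚ̄` consisting of equivariant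
functions, finite over `ℤ_(ℓ)`, separating points and compatible with the group law.
-/

set_option autoImplicit false

noncomputable section

open scoped TensorProduct
open Fermat.Agent.Arith

namespace Fermat.Agent.FiniteFlat

/-- The ring `ℤ_(ℓ)`. -/
abbrev Zl (l : ℕ) : Subring ℚ := GaloisRep.ratLocalizedAt l

section ZlRing

variable (l : ℕ)

theorem exists_natCast_mul_eq (x : Zl l) :
    ∃ d : ℕ, IsUnit (d : Zl l) ∧ ∃ n : ℤ, x * (d : Zl l) = (n : Zl l) := by
  have hx : (x : ℚ).den.Coprime l := x.2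
  refine ⟨(x : ℚ).den, ?_, (x : ℚ).num, Subtype.ext ?_⟩
  · have hmem : ((x : ℚ).den : ℚ)⁻¹ ∈ Zl l := by
      show ((((x : ℚ).den : ℚ))⁻¹).den.Coprime l
      rw [Rat.inv_natCast_den]
      simpa using hx
    exact IsUnit.of_mul_eq_one (⟨_, hmem⟩ : Zl l) (Subtype.ext (by simp))
  · simp

instance isPrincipalIdealRing_zl : IsPrincipalIdealRing (Zl l) := by
  refine ⟨fun I => ?_⟩
  have hI : I = (I.comap (Int.castRingHom (Zl l))).map (Int.castRingHom (Zl l)) := by
    refine le_antisymm (fun x hx => ?_) Ideal.map_comap_le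
    obtain ⟨d, hd, n, hn⟩ := exists_natCast_mul_eq l x
    have : (n : Zl l) ∈ I := hn ▸ I.mul_mem_right _ hx
    rw [← Ideal.mul_unit_mem_iff_mem _ hd, hn]
    exact Ideal.mem_map_of_mem _ (show n ∈ I.comap (Int.castRingHom (Zl l)) from this)
  obtain ⟨a, ha⟩ := (IsPrincipalIdealRing.principal (I.comap (Int.castRingHom (Zl l)))).1
  exact ⟨⟨(a : Zl l), by rw [hI, ha, Ideal.submodule_span_eq, Ideal.map_span]; simp⟩⟩

instance isFractionRing_zl : IsFractionRing (Zl l) ℚ := by
  refine IsFractionRing.of_field (Zl l) ℚ fun q => ?_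
  have hint : ∀ m : ℤ, (m : ℚ) ∈ Zl l := fun m => intCast_mem _ m
  exact ⟨⟨(q.num : ℚ), hint _⟩, ⟨((q.den : ℕ) : ℚ), natCast_mem _ _⟩, (Rat.num_div_den q).symm⟩

theorem mem_zl_of_isIntegral {x : ℚ} (hx : IsIntegral (Zl l) x) : x ∈ Zl l := by
  obtain ⟨y, hy⟩ := (IsIntegrallyClosed.isIntegral_iff (R := Zl l) (K := ℚ)).mp hx
  exact hy ▸ y.2

end ZlRing

theorem exists_rat_of_fixed {x : QBar} (h : ∀ σ : GQ, σ x = x) : ∃ q : ℚ, (q : QBar) = x := by
  obtain ⟨q, hq⟩ := (InfiniteGalois.mem_range_algebraMap_iff_fixed x).mpr h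
  exact ⟨q, by rw [← hq, eq_ratCast]⟩

theorem zl_smul {l : ℕ} (c : Zl l) (x : QBar) : c • x = ((c : ℚ) : QBar) * x := by
  rw [Algebra.smul_def, IsScalarTower.algebraMap_apply (Zl l) ℚ QBar, eq_ratCast]
  rfl

variable (l : ℕ) (M : Type) [AddCommGroup M] [DistribMulAction GQ M]

/-- A `ℤ_(ℓ)`-order in the equivariant functions on `M`, compatible with the group law. -/
structure GalOrder where
  /-- the order -/
  H : Subalgebra (Zl l) (M → QBar)
  equivariant : ∀ f ∈ H, ∀ (σ : GQ) (m : M), f (σ • m) = σ (f m)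
  finite : Module.Finite (Zl l) H
  separates : ∀ m m', (∀ f ∈ H, f m = f m') → m = m'
  comul : ∀ f ∈ H, ∃ (n : ℕ) (a b : Fin n → (M → QBar)),
    (∀ i, a i ∈ H) ∧ (∀ i, b i ∈ H) ∧ ∀ x y, f (x + y) = ∑ i, a i x * b i y
  neg : ∀ f ∈ H, (fun x => f (-x)) ∈ H

variable {l M}

namespace GalOrder

variable (O : GalOrder l M)

instance : Module.Finite (Zl l) O.H := O.finite

instance : Module.IsTorsionFree (Zl l) O.H := by
  refine Module.IsTorsionFree.of_smul_eq_zero fun c f h => ?_
  by_cases hc : c = 0
  · exact Or.inl hc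
  · refine Or.inr (Subtype.ext (funext fun m => ?_))
    have hm := congrArg (fun g : O.H => (g : M → QBar) m) h
    simp only [SetLike.val_smul, Pi.smul_apply, zl_smul, ZeroMemClass.coe_zero, Pi.zero_apply] at hm
    rcases mul_eq_zero.mp hm with h0 | h0
    · exact absurd (Subtype.ext (by exact_mod_cast h0)) hc
    · simpa using h0

instance : Module.Free (Zl l) O.H := inferInstance

instance : Module.Flat (Zl l) O.H := inferInstance

theorem exists_zl_of_equivariant_zero {f : M → QBar} (hf : f ∈ O.H) :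
    ∃ c : Zl l, ((c : ℚ) : QBar) = f 0 := by
  obtain ⟨q, hq⟩ := exists_rat_of_fixed (x := f 0) fun σ => by
    rw [← O.equivariant f hf σ 0, smul_zero]
  refine ⟨⟨q, mem_zl_of_isIntegral l ?_⟩, hq⟩
  have h1 : IsIntegral (Zl l) (⟨f, hf⟩ : O.H) := Algebra.IsIntegral.isIntegral _
  have h2 := h1.map ((Pi.evalAlgHom (Zl l) (fun _ : M => QBar) 0).comp O.H.val)
  have h3 : ((Pi.evalAlgHom (Zl l) (fun _ : M => QBar) 0).comp O.H.val) ⟨f, hf⟩
      = algebraMap ℚ QBar q := by rw [eq_ratCast, hq]; rfl
  rw [h3] at h2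
  exact (isIntegral_algHom_iff (IsScalarTower.toAlgHom (Zl l) ℚ QBar)
    (algebraMap ℚ QBar).injective).mp h2

/-! ### Linear independence over `ℚ̄` -/

/-- A basis of the order. -/
def basis : Module.Basis (Module.Free.ChooseBasisIndex (Zl l) O.H) (Zl l) O.H :=
  Module.Free.chooseBasis _ _

/-- `ℤ_(ℓ)`-independent elements of the order are independent over `ℚ̄`. -/
theorem eq_zero_of_sum_mul_eq_zero {ι : Type*} (s : Finset ι) (v : ι → O.H)
    (hv : LinearIndependent (Zl l) v) (c : ι → QBar)
    (h : ∀ m, ∑ i ∈ s, c i * (v i : M → QBar) m = 0) : ∀ i ∈ s, c i = 0 := by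
  classical
  induction s using Finset.strongInduction generalizing c with
  | H s ih =>
    by_contra! hne
    obtain ⟨j, hj, hcj⟩ := hne
    set d : ι → QBar := fun i => c i * (c j)⁻¹ with hd
    have hdj : d j = 1 := mul_inv_cancel₀ hcj
    have hd0 : ∀ m, ∑ i ∈ s, d i * (v i : M → QBar) m = 0 := fun m => by
      simp only [hd, mul_right_comm _ (c j)⁻¹, ← Finset.sum_mul, h m, zero_mul]
    have hfix : ∀ i ∈ s, ∀ σ : GQ, σ (d i) = d i := by
      intro i hi σ
      rcases eq_or_ne i j with rfl | hij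
      · rw [hdj, map_one]
      have hsub : ∀ m, ∑ k ∈ s.erase j, (σ (d k) - d k) * (v k : M → QBar) m = 0 := by
        intro m
        rw [Finset.sum_erase _ (by rw [hdj, map_one, sub_self, zero_mul])]
        simp only [sub_mul, Finset.sum_sub_distrib, hd0 m, sub_zero]
        have := congrArg σ (hd0 (σ⁻¹ • m))
        simp only [map_sum, map_mul, map_zero] at this
        refine Eq.trans (Finset.sum_congr rfl fun k _ => ?_) this
        rw [← O.equivariant _ (v k).2, smul_inv_smul]
      exact sub_eq_zero.mp (ih _ (Finset.erase_ssubset hj) (fun k => σ (d k) - d k) hsub i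
        (Finset.mem_erase.mpr ⟨hij, hi⟩))
    choose q hq using fun i : s => exists_rat_of_fixed (hfix i.1 i.2)
    obtain ⟨N, hN⟩ := IsLocalization.exist_integer_multiples (nonZeroDivisors (Zl l))
      (Finset.univ : Finset s) q
    choose a ha using fun i : s => hN i (Finset.mem_univ i)
    have hrel : ∑ i : s, a i • v i = 0 := by
      refine Subtype.ext (funext fun m => ?_)
      simp only [AddSubmonoidClass.coe_finsetSum, Finset.sum_apply, SetLike.val_smul,
        Pi.smul_apply, zl_smul]
      have e : ∀ i : s, ((a i : ℚ) : QBar) = ((N : Zl l) : ℚ) * d i := fun i => by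
        have := ha i
        rw [Subring.smul_def, smul_eq_mul] at this
        rw [show (a i : ℚ) = ((N : Zl l) : ℚ) * q i from this, Rat.cast_mul, hq]
      simp only [e, mul_assoc, ← Finset.mul_sum, Finset.univ_eq_attach]
      rw [Finset.sum_attach s fun i => d i * (v i : M → QBar) m, hd0, mul_zero]
      rfl
    have hj0 := Fintype.linearIndependent_iff.mp (hv.comp _ Subtype.val_injective) a hrel ⟨j, hj⟩
    have h1 := ha ⟨j, hj⟩
    rw [hj0, map_zero, Subring.smul_def, smul_eq_mul] at h1
    rcases mul_eq_zero.mp h1.symm with h2 | h2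
    · exact nonZeroDivisors.coe_ne_zero N (Subtype.ext h2)
    · have := hq ⟨j, hj⟩
      rw [h2, Rat.cast_zero, hdj] at this
      exact zero_ne_one this

theorem linearIndependent_basis :
    LinearIndependent QBar fun i => ((O.basis i : O.H) : M → QBar) := by
  rw [linearIndependent_iff']
  intro s c hc i hi
  refine O.eq_zero_of_sum_mul_eq_zero s _ O.basis.linearIndependent c (fun m => ?_) i hi
  simpa using congrFun hc m

section Finite

variable [Finite M]

theorem span_eq_top : Submodule.span QBar (O.H : Set (M → QBar)) = ⊤ := by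
  classical
  have := Fintype.ofFinite M
  rw [eq_top_iff]
  let S : Subalgebra QBar (M → QBar) := Algebra.adjoin QBar (O.H : Set (M → QBar))
  have hS : Subalgebra.toSubmodule S = Submodule.span QBar (O.H : Set (M → QBar)) := by
    show Subalgebra.toSubmodule (Algebra.adjoin QBar (O.H : Set (M → QBar))) = _
    rw [Algebra.adjoin_eq_span]
    congr 1
    exact congrArg (fun t : Submonoid (M → QBar) => (t : Set (M → QBar)))
      (Submonoid.closure_eq O.H.toSubsemiring.toSubmonoid)
  rw [← hS]
  rintro g -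
  have hg : g = ∑ m, algebraMap QBar (M → QBar) (g m) * Pi.single m 1 := by
    funext x
    simp [Finset.sum_apply, Pi.single_apply]
  rw [hg]
  refine Submodule.sum_mem _ fun m _ => S.mul_mem (S.algebraMap_mem _) ?_
  have hsep : ∀ m', m' ≠ m → ∃ f ∈ O.H, f m ≠ f m' := by
    intro m' hm'
    by_contra! hcon
    exact hm' (O.separates m m' hcon).symm
  choose f hf hfne using hsep
  have hprod : Pi.single m 1 = ∏ m' : {m' // m' ≠ m},
      algebraMap QBar (M → QBar) (f m' m'.2 m - f m' m'.2 m')⁻¹ *
        (f m' m'.2 - algebraMap QBar (M → QBar) (f m' m'.2 m')) := by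
    funext x
    rw [Finset.prod_apply]
    rcases eq_or_ne x m with rfl | hx
    · rw [Pi.single_eq_same]
      refine (Finset.prod_eq_one fun m' _ => ?_).symm
      simp [inv_mul_cancel₀ (sub_ne_zero.mpr (hfne m' m'.2))]
    · rw [Pi.single_eq_of_ne hx]
      exact (Finset.prod_eq_zero (Finset.mem_univ ⟨x, hx⟩) (by simp)).symm
  rw [hprod]
  exact S.prod_mem fun m' _ => S.mul_mem (S.algebraMap_mem _)
    (S.sub_mem (Algebra.subset_adjoin (hf _ _)) (S.algebraMap_mem _))

theorem card_basis : Nat.card (Module.Free.ChooseBasisIndex (Zl l) O.H) = Nat.card M := by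
  classical
  have := Fintype.ofFinite M
  have hsp : ⊤ ≤ Submodule.span QBar
      (Set.range fun i => ((O.basis i : O.H) : M → QBar)) := by
    rw [← O.span_eq_top, Submodule.span_le]
    intro f hf
    have := congrArg (fun g : O.H => (g : M → QBar)) (O.basis.sum_repr ⟨f, hf⟩)
    simp only [AddSubmonoidClass.coe_finsetSum, SetLike.val_smul] at this
    rw [← this]
    exact Submodule.sum_mem _ fun i _ => Submodule.smul_of_tower_mem _ _
      (Submodule.subset_span (Set.mem_range_self i))
  have := Module.finrank_eq_card_basis (Module.Basis.mk O.linearIndependent_basis hsp)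
  rw [Module.finrank_pi] at this
  simp [Nat.card_eq_fintype_card, this]

end Finite

end GalOrder

end Fermat.Agent.FiniteFlat
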