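import Fermat.Agent.FiniteFlat.Descent
import Fermat.Agent.FiniteFlat.GalOrder
import Mathlib.LinearAlgebra.Dimension.StrongRankCondition

/-!
# Galois orders from lattices at one place

A separating algebra of `A`-valued functions on a finite Galois module which is stable under the
decomposition group, generated by functions fixed by an open subgroup containing inertia, and
compatible with the group law, gives a Galois order by taking its equivariant elements.
-/

set_option autoImplicit false

noncomputable section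

open scoped Pointwise
open Fermat.Agent.Arith

namespace Fermat.Agent.FiniteFlat

variable {l : ℕ} {A : ValuationSubring QBar}

theorem coe_zl_mem (hA : A.LiesOverPrime l) (hl : l.Prime) (c : Zl l) :
    ((c : ℚ) : QBar) ∈ A := by
  have hc : (c : ℚ).den.Coprime l := c.2
  rw [Rat.cast_def]
  have hu : ((c : ℚ).den : QBar) ∉ A.nonunits := fun h =>
    hl.ne_one (Nat.eq_one_of_dvd_coprimes hc ((natCast_mem_nonunits_iff hA hl _).mp h) dvd_rfl)
  rw [div_eq_mul_inv]
  exact mul_mem (intCast_mem A _) ((notMem_nonunits_iff (natCast_mem A _)).mp hu).2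

theorem mem_zl_of_coe_mem (hA : A.LiesOverPrime l) (hl : l.Prime) {q : ℚ} (hq : (q : QBar) ∈ A) :
    q ∈ Zl l := by
  show q.den.Coprime l
  rw [Nat.coprime_comm, hl.coprime_iff_not_dvd]
  intro hd
  have h1 : ((q.num : ℤ) : QBar) ∈ A.nonunits := by
    have e : (q : QBar) * (q.den : QBar) = ((q.num : ℤ) : QBar) := by
      rw [Rat.cast_def, div_mul_cancel₀ _ (by exact_mod_cast q.den_pos.ne')]
    rw [← e]
    exact nonunits_mul_left hq ((natCast_mem_nonunits_iff hA hl _).mpr hd)
  have h2 := Int.natCast_dvd.mp ((intCast_mem_nonunits_iff hA hl _).mp h1)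
  exact hl.ne_one (Nat.eq_one_of_dvd_coprimes q.reduced h2 hd)

variable {M : Type} [AddCommGroup M] [DistribMulAction GQ M]

/-- The equivariant elements of a lattice. -/
def equivariantPart (hA : A.LiesOverPrime l) (hl : l.Prime) (S : Subalgebra A (M → QBar)) :
    Subalgebra (Zl l) (M → QBar) where
  carrier := {f | f ∈ S ∧ ∀ (σ : GQ) m, f (σ • m) = σ (f m)}
  mul_mem' hf hg := ⟨S.mul_mem hf.1 hg.1, fun σ m => by simp [hf.2 σ m, hg.2 σ m]⟩
  add_mem' hf hg := ⟨S.add_mem hf.1 hg.1, fun σ m => by simp [hf.2 σ m, hg.2 σ m]⟩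
  algebraMap_mem' c := by
    have e : algebraMap (Zl l) (M → QBar) c =
        algebraMap A (M → QBar) ⟨_, coe_zl_mem hA hl c⟩ := funext fun m => by
      rw [Pi.algebraMap_apply, Pi.algebraMap_apply,
        IsScalarTower.algebraMap_apply (Zl l) ℚ QBar, eq_ratCast]
      rfl
    refine ⟨by rw [e]; exact S.algebraMap_mem _, fun σ m => ?_⟩
    rw [Pi.algebraMap_apply, Pi.algebraMap_apply,
      IsScalarTower.algebraMap_apply (Zl l) ℚ QBar, AlgEquiv.commutes]

variable [Finite M] (hA : A.LiesOverPrime l) (hl : l.Prime) (S : Subalgebra A (M → QBar))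

include hA hl in
omit [AddCommGroup M] [DistribMulAction GQ M] in
/-- A separating lattice contains a multiple of every function. -/
theorem exists_pow_smul_mem (hint : ∀ f ∈ S, ∀ m, f m ∈ A)
    (hsep : ∀ m m', (∀ f ∈ S, f m = f m') → m = m') (g : M → QBar) :
    ∃ s : ℕ, (l : QBar) ^ s • g ∈ S := by
  classical
  have := Fintype.ofFinite M
  have hδ : ∀ (m : M) (y : QBar), ∃ s : ℕ, Pi.single m ((l : QBar) ^ s * y) ∈ S := by
    intro m y
    have hs : ∀ m' : {m' // m' ≠ m}, ∃ f ∈ S, f m ≠ f m' := fun m' => by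
      by_contra! hcon
      exact m'.2 (hsep _ _ hcon).symm
    choose f hf hfne using hs
    let F : M → QBar := ∏ m', (f m' - algebraMap A (M → QBar) ⟨f m' m', hint _ (hf m') _⟩)
    have hF : F ∈ S := Subalgebra.prod_mem S fun m' _ => S.sub_mem (hf m') (S.algebraMap_mem _)
    have hFx : ∀ x, F x = ∏ m', (f m' x - f m' m') := fun x => by
      simp only [F, Finset.prod_apply, Pi.sub_apply, Pi.algebraMap_apply]
      rfl
    have hFm : F m ≠ 0 := by
      rw [hFx]
      exact Finset.prod_ne_zero_iff.mpr fun m' _ => sub_ne_zero.mpr (hfne m')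
    obtain ⟨s, hs⟩ := exists_natCast_pow_mul_mem hA hl (y * (F m)⁻¹)
    refine ⟨s, ?_⟩
    have e : Pi.single m ((l : QBar) ^ s * y) = (⟨_, hs⟩ : A) • F := by
      funext x
      rw [Pi.smul_apply, valuationSubring_smul_def]
      rcases eq_or_ne x m with rfl | hx
      · rw [Pi.single_eq_same]; field_simp
      · rw [Pi.single_eq_of_ne hx,
          show F x = 0 from (hFx x).trans (Finset.prod_eq_zero (Finset.mem_univ ⟨x, hx⟩) (sub_self _)),
          mul_zero]
    rw [e]
    exact S.smul_mem hF _
  choose s hs using fun m => hδ m (g m)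
  refine ⟨∑ m, s m, ?_⟩
  have e : (l : QBar) ^ (∑ m, s m) • g =
      ∑ m, ((l : A) ^ ((∑ m', s m') - s m)) • Pi.single m ((l : QBar) ^ s m * g m) := by
    funext x
    simp only [Pi.smul_apply, Finset.sum_apply, smul_eq_mul, valuationSubring_smul_def]
    refine Eq.trans ?_ (Finset.sum_eq_single x
      (fun b _ hb => by rw [Pi.single_eq_of_ne hb.symm, mul_zero])
      (fun h => absurd (Finset.mem_univ x) h)).symm
    rw [Pi.single_eq_same, SubmonoidClass.coe_pow, ← mul_assoc]
    congr 1
    rw [show ((l : A) : QBar) = (l : QBar) by simp, ← pow_add,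
      Nat.sub_add_cancel (Finset.single_le_sum (fun _ _ => zero_le) (Finset.mem_univ x))]
  rw [e]
  exact Subalgebra.sum_mem S fun m _ => S.smul_mem (hs m) _

include hA hl in
/-- A Galois order from a lattice at one place. -/
theorem exists_galOrder_of_lattice (hint : ∀ f ∈ S, ∀ m, f m ∈ A)
    (hD : ∀ d : GQ, d • A = A → ∀ f ∈ S, galAct d f ∈ S)
    {U : Subgroup GQ} (hU : IsOpen (U : Set GQ)) (hI : A.inertiaSubgroupIn ℚ ≤ U)
    (hgen : S.toSubmodule ≤ Submodule.span A {f | f ∈ S ∧ ∀ u ∈ U, galAct u f = f})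
    (hsep : ∀ m m', (∀ f ∈ S, f m = f m') → m = m')
    (hcomul : ∀ f ∈ S, ∃ (n : ℕ) (a b : Fin n → (M → QBar)),
      (∀ i, a i ∈ S) ∧ (∀ i, b i ∈ S) ∧ ∀ x y, f (x + y) = ∑ i, a i x * b i y)
    (hneg : ∀ f ∈ S, (fun x => f (-x)) ∈ S) :
    ∃ O : GalOrder l M, O.H = equivariantPart hA hl S := by
  classical
  have := Fintype.ofFinite M
  set H := equivariantPart hA hl S with hH
  have hfull := exists_pow_smul_mem hA hl S hint hsep
  -- `H` spans `S`
  have hspan : S.toSubmodule ≤ Submodule.span A (H : Set (M → QBar)) := by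
    refine hgen.trans (Submodule.span_le.mpr ?_)
    rintro f ⟨hf, hfix⟩
    exact mem_span_equivariant hA hl S.toSubmodule hfull hD hf hU hI hfix
  have hsepH : ∀ m m', (∀ f ∈ H, f m = f m') → m = m' := fun m m' h =>
    hsep m m' fun f hf => by
      have key : ∀ g ∈ Submodule.span A (H : Set (M → QBar)), g m = g m' := fun g hg => by
        induction hg using Submodule.span_induction with
        | mem g hg => exact h g hg
        | zero => rfl
        | add f g _ _ h1 h2 => simp [h1, h2]
        | smul c f _ h1 => simp [h1]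
      exact key f (hspan hf)
  have htop : Submodule.span QBar (H : Set (M → QBar)) = ⊤ := by
    refine eq_top_iff.mpr fun g _ => ?_
    obtain ⟨s, hs⟩ := hfull g
    have h1 : (l : QBar) ^ s • g ∈ Submodule.span QBar (H : Set (M → QBar)) :=
      Submodule.span_le_restrictScalars A QBar (H : Set (M → QBar)) (hspan hs)
    have h2 := Submodule.smul_mem _ ((l : QBar) ^ s)⁻¹ h1
    rwa [inv_smul_smul₀ (pow_ne_zero _ (Nat.cast_ne_zero.mpr hl.ne_zero))] at h2
  -- a basis made of equivariant elements, and the trace pairing with it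
  obtain ⟨t, htH, htspan, htind⟩ := exists_linearIndependent QBar (H : Set (M → QBar))
  rw [htop] at htspan
  let Bt : Module.Basis t QBar (M → QBar) :=
    Module.Basis.mk htind (by rw [Subtype.range_coe, htspan])
  have : Fintype t := FiniteDimensional.fintypeBasisIndex Bt
  have hcard : Fintype.card t = Fintype.card M := by
    rw [← Module.finrank_eq_card_basis Bt, Module.finrank_pi]
  have hrat : ∀ y : QBar, (∀ σ : GQ, σ y = y) → y ∈ A → ∃ c : Zl l, ((c : ℚ) : QBar) = y := by
    intro y hy hyA
    obtain ⟨q, hq⟩ := exists_rat_of_fixed hy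
    exact ⟨⟨q, mem_zl_of_coe_mem hA hl (hq ▸ hyA)⟩, hq⟩
  have hpair : ∀ f ∈ H, ∀ h : t, ∃ c : Zl l, ((c : ℚ) : QBar) = ∑ m, f m * (h : M → QBar) m := by
    intro f hf h
    refine hrat _ (fun σ => ?_) (sum_mem fun m _ => mul_mem (hint f hf.1 m)
      (hint _ (htH h.2).1 m))
    rw [map_sum]
    refine Fintype.sum_equiv (MulAction.toPerm σ) _ _ fun m => ?_
    rw [MulAction.toPerm_apply, map_mul, hf.2, (htH h.2).2]
  choose c hc using hpair
  let φ : H →ₗ[Zl l] (t → Zl l) :=
    { toFun := fun f h => c f.1 f.2 h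
      map_add' := fun f g => funext fun h => Subtype.ext (Rat.cast_injective (α := QBar) (by
        rw [hc]
        simp [hc, add_mul, Finset.sum_add_distrib]))
      map_smul' := fun a f => funext fun h => Subtype.ext (Rat.cast_injective (α := QBar) (by
        rw [hc]
        simp [hc, zl_smul, Finset.mul_sum, mul_assoc])) }
  have hφ : Function.Injective φ := by
    rw [injective_iff_map_eq_zero]
    intro f hf
    refine Subtype.ext (funext fun m₀ => ?_)
    let L : (M → QBar) →ₗ[QBar] QBar :=
      { toFun := fun g => ∑ m, (f : M → QBar) m * g m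
        map_add' := fun a b => by simp [mul_add, Finset.sum_add_distrib]
        map_smul' := fun a b => by simp [Finset.mul_sum, mul_left_comm] }
    have hL : L = 0 := Bt.ext fun h => by
      rw [Module.Basis.mk_apply]
      have := hc f.1 f.2 h
      rw [show c f.1 f.2 h = 0 from congrFun hf h] at this
      simpa [L] using this.symm
    have := LinearMap.congr_fun hL (Pi.single m₀ 1)
    simpa [L, Pi.single_apply] using this
  have hHfin : Module.Finite (Zl l) H := Module.Finite.of_injective φ hφ
  have : Module.IsTorsionFree (Zl l) H :=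
    Function.Injective.moduleIsTorsionFree (R := Zl l) φ hφ (fun c x => map_smul φ c x)
  -- a basis of `H` is independent over `QBar`
  let e := Module.Free.chooseBasis (Zl l) H
  have hesp : ⊤ ≤ Submodule.span QBar (Set.range fun i => ((e i : H) : M → QBar)) := by
    rw [← htop, Submodule.span_le]
    intro f hf
    have h1 := congrArg (fun g : H => (g : M → QBar)) (e.sum_repr ⟨f, hf⟩)
    simp only [AddSubmonoidClass.coe_finsetSum, SetLike.val_smul] at h1
    rw [SetLike.mem_coe, ← h1]
    exact Submodule.sum_mem _ fun i _ => Submodule.smul_of_tower_mem _ _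
      (Submodule.subset_span (Set.mem_range_self i))
  have hle : Fintype.card (Module.Free.ChooseBasisIndex (Zl l) H) ≤ Fintype.card M := by
    rw [← hcard, ← Module.finrank_eq_card_basis e, ← Module.finrank_pi (Zl l) (ι := t)]
    exact LinearMap.finrank_le_finrank_of_injective hφ
  have hind : LinearIndependent QBar fun i => ((e i : H) : M → QBar) :=
    linearIndependent_of_top_le_span_of_card_eq_finrank hesp
      (le_antisymm (by rw [Module.finrank_pi]; exact hle)
        ((finrank_top QBar (M → QBar)).symm.trans_le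
          ((Submodule.finrank_mono hesp).trans (finrank_range_le_card _))))
  refine ⟨⟨H, fun f hf => hf.2, hHfin, hsepH, fun f hf => ?_,
    fun f hf => ⟨hneg f hf.1, fun σ m => by rw [← hf.2, smul_neg]⟩⟩, rfl⟩
  -- the coproduct
  obtain ⟨n, a, b, ha, hb, hab⟩ := hcomul f hf.1
  have hrep : ∀ g ∈ S, ∃ d : Module.Free.ChooseBasisIndex (Zl l) H → A,
      g = ∑ i, d i • ((e i : H) : M → QBar) := by
    intro g hg
    refine (Submodule.mem_span_range_iff_exists_fun A).mp ?_ |>.imp fun d hd => hd.symm
    refine Submodule.span_le.mpr (fun h hh => ?_) (hspan hg)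
    have h1 := congrArg (fun g : H => (g : M → QBar)) (e.sum_repr ⟨h, hh⟩)
    simp only [AddSubmonoidClass.coe_finsetSum, SetLike.val_smul] at h1
    rw [SetLike.mem_coe, ← h1]
    refine Submodule.sum_mem _ fun i _ => ?_
    have e1 : e.repr ⟨h, hh⟩ i • ((e i : H) : M → QBar) =
        (⟨_, coe_zl_mem hA hl (e.repr ⟨h, hh⟩ i)⟩ : A) • ((e i : H) : M → QBar) := by
      funext m
      rw [Pi.smul_apply, Pi.smul_apply, zl_smul, valuationSubring_smul_def]
    rw [e1]
    exact Submodule.smul_mem _ _ (Submodule.subset_span (Set.mem_range_self i))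
  choose da hda using fun i => hrep _ (ha i)
  choose db hdb using fun i => hrep _ (hb i)
  let C : Module.Free.ChooseBasisIndex (Zl l) H → Module.Free.ChooseBasisIndex (Zl l) H → QBar :=
    fun j k => ∑ i, (da i j : QBar) * (db i k : QBar)
  have hC : ∀ x y, f (x + y) =
      ∑ j, (∑ k, C j k * ((e k : H) : M → QBar) y) * ((e j : H) : M → QBar) x := by
    intro x y
    have ha' : ∀ i, a i x = ∑ j, (da i j : QBar) * ((e j : H) : M → QBar) x := fun i => by
      rw [hda i, Finset.sum_apply]; rfl
    have hb' : ∀ i, b i y = ∑ k, (db i k : QBar) * ((e k : H) : M → QBar) y := fun i => by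
      rw [hdb i, Finset.sum_apply]; rfl
    rw [hab]
    simp only [ha', hb', C, Finset.sum_mul_sum]
    rw [Finset.sum_comm]
    refine Finset.sum_congr rfl fun j _ => ?_
    rw [Finset.sum_comm, Finset.sum_mul]
    refine Finset.sum_congr rfl fun k _ => ?_
    rw [Finset.sum_mul, Finset.sum_mul]
    exact Finset.sum_congr rfl fun i _ => by ring
  have hfixC : ∀ j k (σ : GQ), σ (C j k) = C j k := by
    intro j k σ
    refine sub_eq_zero.mp ?_
    have h0 : ∀ x y, ∑ j, (∑ k, (σ (C j k) - C j k) * ((e k : H) : M → QBar) y) *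
        ((e j : H) : M → QBar) x = 0 := by
      intro x y
      have h1 := congrArg σ (hC (σ⁻¹ • x) (σ⁻¹ • y))
      rw [← smul_add, ← hf.2, smul_inv_smul, hC x y, map_sum] at h1
      simp only [map_mul, map_sum, ← (e _).2.2, smul_inv_smul] at h1
      simp only [sub_mul, Finset.sum_sub_distrib]
      rw [sub_eq_zero]
      exact h1.symm
    have h2 : ∀ j y, ∑ k, (σ (C j k) - C j k) * ((e k : H) : M → QBar) y = 0 := fun j y =>
      Fintype.linearIndependent_iff.mp hind
        (fun j => ∑ k, (σ (C j k) - C j k) * ((e k : H) : M → QBar) y)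
        (funext fun x => by simpa [Finset.sum_apply] using h0 x y) j
    exact Fintype.linearIndependent_iff.mp hind (fun k => σ (C j k) - C j k)
      (funext fun y => by simpa [Finset.sum_apply] using h2 j y) k
  choose cz hcz using fun j k => hrat _ (hfixC j k)
    (sum_mem fun i _ => mul_mem (da i j).2 (db i k).2)
  let ι := Fintype.equivFin (Module.Free.ChooseBasisIndex (Zl l) H)
  refine ⟨_, fun i => ((e (ι.symm i) : H) : M → QBar),
    fun i => ((∑ k, cz (ι.symm i) k • e k : H) : M → QBar),
    fun i => (e _).2, fun i => Subtype.coe_prop _, fun x y => ?_⟩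
  rw [hC, ← ι.symm.sum_comp]
  refine Finset.sum_congr rfl fun i _ => ?_
  simp only [AddSubmonoidClass.coe_finsetSum, Finset.sum_apply, SetLike.val_smul, Pi.smul_apply,
    zl_smul, hcz, mul_comm]

end Fermat.Agent.FiniteFlat
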