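import Fermat.Agent.FiniteFlat.SecSpan

/-!
# Regular families of Riemann–Roch spaces

A family of divisors with constant reduction is regular over `R` when every function in the
reduced space lifts to a section. Sums, multiplication by sections and quotients (colon spaces
with constant dimension) of regular families are regular.
-/

set_option autoImplicit false
set_option maxHeartbeats 1000000
set_option synthInstance.maxHeartbeats 400000
set_option linter.unusedSectionVars false

noncomputable section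

open IsLocalRing AlgebraicCurve Matrix
open Fermat.Agent.Arith Fermat.Agent.FF

namespace Fermat.Agent.FiniteFlat

section Colon

variable {K E : Type*} [Field K] [IsAlgClosed K] [Field E] [Algebra K E] [IsFunctionField K E]
  {d ια ιβ ιu : Type*} [Fintype d] [Fintype ια] [Fintype ιβ] [Fintype ιu]
  [DecidableEq d] [DecidableEq ια]

/-- The matrix whose kernel is a colon space. -/
def colonMat {K : Type*} [CommRing K] (PA : Matrix d ια K) (PB : Matrix d (ιu × ιβ) K)
    (L : Matrix ια d K) : Matrix (d × ιβ) ιu K :=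
  Matrix.of fun aj i => ((1 - PA * L) * PB : Matrix d (ιu × ιβ) K) aj.1 (i, aj.2)

theorem colonMat_mulVec {K : Type*} [CommRing K] (PA : Matrix d ια K) (PB : Matrix d (ιu × ιβ) K)
    (L : Matrix ια d K) (c : ιu → K) (a : d) (j : ιβ) :
    (colonMat PA PB L *ᵥ c) (a, j) = ((1 - PA * L) *ᵥ fun b => ∑ i, PB b (i, j) * c i) a := by
  simp only [colonMat, Matrix.mulVec, dotProduct, Matrix.of_apply, Matrix.mul_apply,
    Finset.sum_mul, Finset.mul_sum]
  rw [Finset.sum_comm]
  exact Finset.sum_congr rfl fun b _ => Finset.sum_congr rfl fun i _ => mul_assoc _ _ _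

/-- The kernel of the colon matrix is the colon space. -/
theorem colonMat_mulVec_eq_zero_iff {c₀ : ℤ}
    (hc : ∀ D : Divisor K E, c₀ ≤ Divisor.degree D → ell K D = Divisor.degree D + 1 - genusFF K E)
    {G G' : Divisor K E} (hdeg : c₀ + 1 ≤ Divisor.degree G') {u : ιu → E} {a : ια → E} {b : ιβ → E}
    {v : d → E} (hv : LinearIndependent K v) (ha : Submodule.span K (Set.range a) = riemannRochSpace G)
    (hb : Submodule.span K (Set.range b) = riemannRochSpace G')
    {PA : Matrix d ια K} {PB : Matrix d (ιu × ιβ) K} {L : Matrix ια d K}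
    (hPA : ∀ x, a x = ∑ i, PA i x • v i) (hPB : ∀ i j, u i * b j = ∑ e, PB e (i, j) • v e)
    (hL : L * PA = 1) (c : ιu → K) :
    colonMat PA PB L *ᵥ c = 0 ↔ ∑ i, c i • u i ∈ riemannRochSpace (G - G') := by
  set f := ∑ i, c i • u i with hf
  have hfb : ∀ j, f * b j = ∑ e, (∑ i, PB e (i, j) * c i) • v e := fun j => by
    rw [hf, Finset.sum_mul]
    simp only [smul_mul_assoc, hPB, Finset.smul_sum, Finset.sum_smul, smul_smul]
    rw [Finset.sum_comm]
    exact Finset.sum_congr rfl fun e _ => Finset.sum_congr rfl fun i _ => by rw [mul_comm]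
  have hspan : ∀ y : ια → K, ∑ x, y x • a x = ∑ e, (PA *ᵥ y) e • v e := fun y => by
    simp only [hPA, Finset.smul_sum, smul_smul, Matrix.mulVec, dotProduct, Finset.sum_smul]
    rw [Finset.sum_comm]
    exact Finset.sum_congr rfl fun e _ => Finset.sum_congr rfl fun x _ => by rw [mul_comm]
  constructor
  · intro h0
    refine mem_of_forall_mul_mem hc hdeg fun g hg => ?_
    rw [sub_add_cancel]
    rw [← hb] at hg
    induction hg using Submodule.span_induction with
    | mem g hg =>
      obtain ⟨j, rfl⟩ := hg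
      set x : d → K := fun e => ∑ i, PB e (i, j) * c i with hx
      have h1 : (1 - PA * L) *ᵥ x = 0 := funext fun e => by
        rw [← colonMat_mulVec PA PB L c e j, h0]; rfl
      rw [Matrix.sub_mulVec, Matrix.one_mulVec, sub_eq_zero, ← Matrix.mulVec_mulVec] at h1
      rw [hfb j, ← ha, Submodule.mem_span_range_iff_exists_fun]
      exact ⟨L *ᵥ x, by rw [hspan, ← h1]⟩
    | zero => rw [mul_zero]; exact zero_mem _
    | add g g' _ _ h1 h2 => rw [mul_add]; exact add_mem h1 h2
    | smul r g _ h1 => rw [mul_smul_comm]; exact Submodule.smul_mem _ r h1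
  · intro hmem
    funext ej
    obtain ⟨e, j⟩ := ej
    rw [colonMat_mulVec]
    set x : d → K := fun e => ∑ i, PB e (i, j) * c i with hx
    have h1 : f * b j ∈ Submodule.span K (Set.range a) := by
      rw [ha]
      have := mul_mem_riemannRochSpace hmem (hb ▸ Submodule.subset_span ⟨j, rfl⟩ :
        b j ∈ riemannRochSpace G')
      rwa [sub_add_cancel] at this
    obtain ⟨y, hy⟩ := (Submodule.mem_span_range_iff_exists_fun K).mp h1
    have h2 : x = PA *ᵥ y := funext fun e => by
      have h3 : ∑ e, (x e - (PA *ᵥ y) e) • v e = 0 := by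
        simp only [sub_smul, Finset.sum_sub_distrib]
        rw [sub_eq_zero, ← hspan, hy, hfb]
      exact sub_eq_zero.mp (Fintype.linearIndependent_iff.mp hv _ h3 e)
    rw [h2, Matrix.sub_mulVec, Matrix.one_mulVec, Matrix.mulVec_mulVec, Matrix.mul_assoc, hL,
      Matrix.mul_one, sub_self]
    rfl

end Colon

section Reg

variable {A : ValuationSubring QBar} {F : Type*} [Field F] [Algebra QBar F]
  {Fk : Type*} [Field Fk] [Algebra (ResidueField A) Fk]
  [IsFunctionField QBar F] [IsFunctionField (ResidueField A) Fk]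
  (h : GoodRed A F Fk) {Ω : Type*} (R : Subalgebra A (Ω → QBar))

/-- Every element of the reduced space lifts to a section of the family of spaces. -/
def IsReg (G : Ω → Divisor QBar F) (Gb : Divisor (ResidueField A) Fk) : Prop :=
  ∀ x ∈ riemannRochSpace Gb, ∃ φ ∈ secs h.toRedLattice R, ∀ ω, φ ω ∈ riemannRochSpace (G ω) ∧
    ∃ hm : φ ω ∈ h.S, redF h.toRedLattice ⟨_, hm⟩ = x

variable {h R}

theorem isReg_const {D : Divisor QBar F} (hD : bigDeg h ≤ Divisor.degree D) :
    IsReg h R (fun _ => D) (redDiv h D) := fun x hx => by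
  rw [← redW_riemannRochSpace h hD] at hx
  obtain ⟨f, hf, rfl⟩ := hx
  exact ⟨fun _ => (f : F), const_mem_secs f, fun _ => ⟨hf, f.2, rfl⟩⟩

theorem IsReg.mul {G G' : Ω → Divisor QBar F} {Gb Gb' : Divisor (ResidueField A) Fk}
    (hG : IsReg h R G Gb) (hG' : IsReg h R G' Gb') (hd : 3 * rrBound h + 2 ≤ Divisor.degree Gb)
    (hd' : 3 * rrBound h + 2 ≤ Divisor.degree Gb') :
    IsReg h R (fun ω => G ω + G' ω) (Gb + Gb') := by
  intro x hx
  rw [← riemannRochSpace_mul (one_le_rrBound h) (fun _ => ell_eq_of_rrBound_le' h) hd hd'] at hx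
  induction hx using Submodule.mul_induction_on' with
  | mem_mul_mem a ha b hb =>
    obtain ⟨φ, hφ, hφ'⟩ := hG a ha
    obtain ⟨ψ, hψ, hψ'⟩ := hG' b hb
    refine ⟨φ * ψ, mul_mem_secs hφ hψ, fun ω => ?_⟩
    obtain ⟨h1, h2, h3⟩ := hφ' ω
    obtain ⟨h4, h5, h6⟩ := hψ' ω
    refine ⟨mul_mem_riemannRochSpace h1 h4, mul_mem h2 h5, ?_⟩
    rw [← h3, ← h6, ← map_mul]
    rfl
  | add a _ b _ iha ihb =>
    obtain ⟨φ, hφ, hφ'⟩ := iha
    obtain ⟨ψ, hψ, hψ'⟩ := ihb
    refine ⟨φ + ψ, add_mem hφ hψ, fun ω => ?_⟩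
    obtain ⟨h1, h2, h3⟩ := hφ' ω
    obtain ⟨h4, h5, h6⟩ := hψ' ω
    refine ⟨add_mem h1 h4, add_mem h2 h5, ?_⟩
    rw [← h3, ← h6, ← map_add]
    rfl

theorem IsReg.scale {G : Ω → Divisor QBar F} {Gb : Divisor (ResidueField A) Fk}
    (hG : IsReg h R G Gb) {u : Ω → F} (hu : u ∈ secs h.toRedLattice R) {ub : Fk} (hub : ub ≠ 0)
    (hured : ∀ ω, ∃ hm : u ω ∈ h.S, redF h.toRedLattice ⟨_, hm⟩ = ub) :
    IsReg h R (fun ω => G ω - div QBar (u ω)) (Gb - div (ResidueField A) ub) := by
  intro x hx
  rw [← map_mulRight_riemannRochSpace hub] at hx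
  obtain ⟨y, hy, rfl⟩ := hx
  obtain ⟨φ, hφ, hφ'⟩ := hG y hy
  refine ⟨φ * u, mul_mem_secs hφ hu, fun ω => ?_⟩
  obtain ⟨h1, h2, h3⟩ := hφ' ω
  obtain ⟨h4, h5⟩ := hured ω
  have hu0 : u ω ≠ 0 := fun e => hub (by
    rw [← h5, show (⟨u ω, h4⟩ : h.S) = 0 from Subtype.ext e, map_zero])
  refine ⟨?_, mul_mem h2 h4, ?_⟩
  · show φ ω * u ω ∈ riemannRochSpace (G ω - div QBar (u ω))
    rw [← map_mulRight_riemannRochSpace hu0]
    exact ⟨φ ω, h1, rfl⟩
  · rw [LinearMap.mulRight_apply, ← h3, ← h5, ← map_mul]
    rfl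

theorem redF_sum_smul {d : Type*} [Fintype d] (hR : HasIntValues R) (ω : Ω) (r : d → R)
    (v : d → h.S) :
    ∃ hm : (∑ a, (r a : Ω → QBar) ω • (v a : F)) ∈ h.S,
      redF h.toRedLattice ⟨_, hm⟩ = ∑ a, resAt hR ω (r a) • redF h.toRedLattice (v a) := by
  refine ⟨sum_mem fun a _ => smul_mem_lattice h.toRedLattice (evalA' hR ω (r a)) (v a).2, ?_⟩
  have e : (⟨∑ a, (r a : Ω → QBar) ω • (v a : F),
      sum_mem fun a _ => smul_mem_lattice h.toRedLattice (evalA' hR ω (r a)) (v a).2⟩ : h.S) =
      ∑ a, ⟨_, smul_mem_lattice h.toRedLattice (evalA' hR ω (r a)) (v a).2⟩ :=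
    Subtype.ext (AddSubmonoidClass.coe_finsetSum (fun a =>
      (⟨_, smul_mem_lattice h.toRedLattice (evalA' hR ω (r a)) (v a).2⟩ : h.S)) Finset.univ).symm
  rw [e, map_sum]
  exact Finset.sum_congr rfl fun a _ => redF_smul h.toRedLattice _ _

theorem IsReg.colon [Finite Ω] [Nonempty Ω] (hR : HasIntValues R)
    {G G' : Ω → Divisor QBar F} {Gb Gb' : Divisor (ResidueField A) Fk}
    (hG : IsReg h R G Gb) (hG' : IsReg h R G' Gb')
    (hd : ∀ ω, Divisor.degree (G ω) = Divisor.degree Gb)
    (hd' : ∀ ω, Divisor.degree (G' ω) = Divisor.degree Gb')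
    (hbig : rrBound h ≤ Divisor.degree Gb) (hbig' : rrBound h + 1 ≤ Divisor.degree Gb')
    {E0 : Divisor QBar F} (hE0 : bigDeg h ≤ Divisor.degree E0) (hsub : ∀ ω, G ω - G' ω ≤ E0)
    (hsub' : Gb - Gb' ≤ redDiv h E0)
    (hell : ∀ ω, ell (ResidueField A) (Gb - Gb') ≤ ell QBar (G ω - G' ω)) :
    IsReg h R (fun ω => G ω - G' ω) (Gb - Gb') := by
  classical
  set k := ResidueField A
  -- sections spanning the two families
  let ξ := Module.finBasis k (riemannRochSpace Gb)
  let η := Module.finBasis k (riemannRochSpace Gb')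
  choose a ha ha' using fun i => hG (ξ i) (ξ i).2
  choose b hb hb' using fun i => hG' (η i) (η i).2
  choose haG haS hared using ha'
  choose hbG hbS hbred using hb'
  -- lifts of a basis of the ambient space
  have hW := finrank_redW h.toRedLattice (riemannRochSpace E0)
  let μ := Module.finBasis k (redW h.toRedLattice (riemannRochSpace E0))
  choose u huW hu using fun i => (μ i).2
  have huli : LinearIndependent k fun i => redF h.toRedLattice (u i) := by
    have := μ.linearIndependent.map' (redW h.toRedLattice (riemannRochSpace E0)).subtype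
      (Submodule.ker_subtype _)
    simpa [Function.comp_def, hu] using this
  have huspan : Submodule.span QBar (Set.range fun i => (u i : F)) = riemannRochSpace E0 := by
    refine Submodule.eq_of_le_of_finrank_eq (Submodule.span_le.mpr ?_) ?_
    · rintro _ ⟨i, rfl⟩; exact huW i
    · rw [finrank_span_eq_card (linearIndependent_of_redF h.toRedLattice u huli), Fintype.card_fin,
        hW.2]
  have huspan' : Submodule.span k (Set.range fun i => redF h.toRedLattice (u i)) =
      riemannRochSpace (redDiv h E0) := by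
    rw [← redW_riemannRochSpace h hE0]
    have := congrArg (Submodule.map (redW h.toRedLattice (riemannRochSpace E0)).subtype) μ.span_eq
    rw [Submodule.map_span, Submodule.map_top, Submodule.range_subtype, ← Set.range_comp] at this
    simpa [Function.comp_def, hu] using this
  -- a common frame
  let φ : Fin (Module.finrank k (riemannRochSpace Gb)) ⊕
      (Fin (Module.finrank k (redW h.toRedLattice (riemannRochSpace E0))) ×
        Fin (Module.finrank k (riemannRochSpace Gb'))) → Ω → F :=
    Sum.elim a fun ij => (fun _ => (u ij.1 : F)) * b ij.2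
  obtain ⟨d, v, P, hv, hP⟩ := exists_frame_secs φ (fun t => by
    rcases t with t | t
    · exact ha t
    · exact mul_mem_secs (const_mem_secs _) (hb _))
  set PA : Matrix (Fin d) _ R := Matrix.of fun e x => P e (Sum.inl x) with hPAdef
  set PB : Matrix (Fin d) _ R := Matrix.of fun e ij => P e (Sum.inr ij) with hPBdef
  have hvQ : LinearIndependent QBar fun e => (v e : F) :=
    linearIndependent_of_redF h.toRedLattice v hv
  have redPA : ∀ ω x, (ξ x : Fk) = ∑ e, resAt hR ω (PA e x) • redF h.toRedLattice (v e) := by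
    intro ω x
    obtain ⟨hm, hr⟩ := redF_sum_smul (h := h) hR ω (fun e => PA e x) v
    rw [← hr, ← hared x ω]
    exact congrArg _ (Subtype.ext (hP (Sum.inl x) ω))
  have redPB : ∀ ω i j, redF h.toRedLattice (u i) * (η j : Fk) =
      ∑ e, resAt hR ω (PB e (i, j)) • redF h.toRedLattice (v e) := by
    intro ω i j
    obtain ⟨hm, hr⟩ := redF_sum_smul (h := h) hR ω (fun e => PB e (i, j)) v
    rw [← hr, ← hbred j ω, ← map_mul]
    exact congrArg _ (Subtype.ext (hP (Sum.inr (i, j)) ω))
  obtain ⟨ω₀⟩ := ‹Nonempty Ω›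
  have uniq : ∀ {x y : Fin d → k}, ∑ e, x e • redF h.toRedLattice (v e) =
      ∑ e, y e • redF h.toRedLattice (v e) → x = y := fun {x y} hxy =>
    hv.fintypeLinearCombination_injective (by simpa [Fintype.linearCombination_apply] using hxy)
  set Ab := PA.map (resAt hR ω₀) with hAb
  set Bb := PB.map (resAt hR ω₀) with hBb
  have hPAc : ∀ ω, PA.map (resAt hR ω) = Ab := fun ω => Matrix.ext fun e x =>
    congrFun (uniq (x := fun e => resAt hR ω (PA e x)) (y := fun e => resAt hR ω₀ (PA e x))
      ((redPA ω x).symm.trans (redPA ω₀ x))) e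
  have hPBc : ∀ ω, PB.map (resAt hR ω) = Bb := fun ω => Matrix.ext fun e x =>
    congrFun (uniq (x := fun e => resAt hR ω (PB e x)) (y := fun e => resAt hR ω₀ (PB e x))
      ((redPB ω x.1 x.2).symm.trans (redPB ω₀ x.1 x.2))) e
  have hinjA : Function.Injective Ab.mulVec := by
    intro x y hxy
    have hξ : LinearIndependent k fun i => (ξ i : Fk) :=
      ξ.linearIndependent.map' (riemannRochSpace Gb).subtype (Submodule.ker_subtype _)
    refine hξ.fintypeLinearCombination_injective ?_
    have key : ∀ z, Fintype.linearCombination k (fun i => (ξ i : Fk)) z =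
        ∑ e, (Ab *ᵥ z) e • redF h.toRedLattice (v e) := fun z => by
      rw [Fintype.linearCombination_apply]
      simp only [redPA ω₀, Finset.smul_sum, smul_smul, Matrix.mulVec, dotProduct, Finset.sum_smul,
        hAb, Matrix.map_apply]
      rw [Finset.sum_comm]
      exact Finset.sum_congr rfl fun e _ => Finset.sum_congr rfl fun x _ => by rw [mul_comm]
    rw [key, key]
    exact congrArg (fun w : Fin d → k => ∑ e, w e • redF h.toRedLattice (v e)) hxy
  obtain ⟨Lb, hLb⟩ := exists_left_inverse hinjA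
  set L0 : Matrix _ (Fin d) R := constMat Lb with hL0
  have hN1 : ∀ ω, (L0 * PA).map (resAt hR ω) = 1 := fun ω => by
    rw [Matrix.map_mul, resAt_constMat, hPAc, hLb]
  have hN := isUnit_matrix hR (L0 * PA) hN1
  set L : Matrix _ (Fin d) R := (L0 * PA)⁻¹ * L0 with hLdef
  have hLPA : L * PA = 1 := by
    rw [hLdef, Matrix.mul_assoc, Matrix.nonsing_inv_mul _ ((Matrix.isUnit_iff_isUnit_det _).mp hN)]
  have hLc : ∀ ω, L.map (resAt hR ω) = Lb := fun ω => by
    rw [hLdef, Matrix.map_mul, map_inv_eq_one (resAt hR ω) hN (hN1 ω), resAt_constMat,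
      Matrix.one_mul]
  set Km := colonMat PA PB L with hKm
  have hmapK : ∀ {S : Type} [CommRing S] (f : R →+* S),
      Km.map f = colonMat (PA.map f) (PB.map f) (L.map f) := fun {S} _ f => Matrix.ext fun ej i => by
    simp only [hKm, colonMat, Matrix.map_apply, Matrix.of_apply]
    rw [← Matrix.map_apply (M := (1 - PA * L) * PB) (f := f), Matrix.map_mul,
      Matrix.map_sub _ (map_sub f), Matrix.map_mul, Matrix.map_one _ (map_zero f) (map_one f)]
  set Kb := colonMat Ab Bb Lb with hKb
  have hKc : ∀ ω, Km.map (resAt hR ω) = Kb := fun ω => by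
    rw [hmapK, hPAc, hPBc, hLc]
  -- kernels
  have hspanA : ∀ ω, Submodule.span QBar (Set.range fun i => a i ω) = riemannRochSpace (G ω) := by
    intro ω
    have hli := linearIndependent_of_redF h.toRedLattice (fun i => ⟨a i ω, haS i ω⟩) (by
      rw [show (fun i => redF h.toRedLattice ⟨a i ω, haS i ω⟩) = fun i => (ξ i : Fk) from
        funext fun i => hared i ω]
      exact ξ.linearIndependent.map' (riemannRochSpace Gb).subtype (Submodule.ker_subtype _))
    refine Submodule.eq_of_le_of_finrank_eq (Submodule.span_le.mpr ?_) ?_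
    · rintro _ ⟨i, rfl⟩; exact haG i ω
    · rw [finrank_span_eq_card hli, Fintype.card_fin]
      have e1 := ell_eq_of_rrBound_le' h hbig
      have e2 := ell_eq_of_rrBound_le h (D := G ω) (by rw [hd]; exact hbig)
      rw [genusFF_eq_of_goodRed h] at e1
      rw [hd] at e2
      unfold ell at e1 e2
      zify
      linarith
  have hspanB : ∀ ω, Submodule.span QBar (Set.range fun i => b i ω) = riemannRochSpace (G' ω) := by
    intro ω
    have hli := linearIndependent_of_redF h.toRedLattice (fun i => ⟨b i ω, hbS i ω⟩) (by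
      rw [show (fun i => redF h.toRedLattice ⟨b i ω, hbS i ω⟩) = fun i => (η i : Fk) from
        funext fun i => hbred i ω]
      exact η.linearIndependent.map' (riemannRochSpace Gb').subtype (Submodule.ker_subtype _))
    refine Submodule.eq_of_le_of_finrank_eq (Submodule.span_le.mpr ?_) ?_
    · rintro _ ⟨i, rfl⟩; exact hbG i ω
    · rw [finrank_span_eq_card hli, Fintype.card_fin]
      have e1 := ell_eq_of_rrBound_le' h (D := Gb') (by omega)
      have e2 := ell_eq_of_rrBound_le h (D := G' ω) (by rw [hd']; omega)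
      rw [genusFF_eq_of_goodRed h] at e1
      rw [hd'] at e2
      unfold ell at e1 e2
      zify
      linarith
  have kerQ : ∀ ω (c : _ → QBar), (Km.map (evalQ R ω)) *ᵥ c = 0 ↔
      ∑ i, c i • (u i : F) ∈ riemannRochSpace (G ω - G' ω) := fun ω c => by
    rw [hmapK]
    refine colonMat_mulVec_eq_zero_iff (fun _ => ell_eq_of_rrBound_le h) (by rw [hd']; exact hbig')
      hvQ (hspanA ω) (hspanB ω) (PA := PA.map (evalQ R ω)) (PB := PB.map (evalQ R ω))
      (fun x => hP (Sum.inl x) ω) (fun i j => hP (Sum.inr (i, j)) ω) ?_ c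
    rw [← Matrix.map_mul, hLPA, Matrix.map_one _ (map_zero _) (map_one _)]
  have kerK : ∀ c : _ → k, Kb *ᵥ c = 0 ↔
      ∑ i, c i • redF h.toRedLattice (u i) ∈ riemannRochSpace (Gb - Gb') := fun c => by
    refine colonMat_mulVec_eq_zero_iff (fun _ => ell_eq_of_rrBound_le' h) hbig' hv ?_ ?_
      (fun x => redPA ω₀ x) (fun i j => redPB ω₀ i j) hLb c
    · have := congrArg (Submodule.map (riemannRochSpace Gb).subtype) ξ.span_eq
      rw [Submodule.map_span, Submodule.map_top, Submodule.range_subtype, ← Set.range_comp] at this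
      exact this
    · have := congrArg (Submodule.map (riemannRochSpace Gb').subtype) η.span_eq
      rw [Submodule.map_span, Submodule.map_top, Submodule.range_subtype, ← Set.range_comp] at this
      exact this
  have dimK : Module.finrank k (LinearMap.ker Kb.mulVecLin) =
      Module.finrank k (riemannRochSpace (Gb - Gb')) := by
    let comb := Fintype.linearCombination k fun i => redF h.toRedLattice (u i)
    have hinj : Function.Injective comb := huli.fintypeLinearCombination_injective
    have he : (LinearMap.ker Kb.mulVecLin).map comb = riemannRochSpace (Gb - Gb') := by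
      ext y
      constructor
      · rintro ⟨c, hc, rfl⟩
        rw [Fintype.linearCombination_apply]
        exact (kerK c).mp hc
      · intro hy
        obtain ⟨c, hc⟩ := (Submodule.mem_span_range_iff_exists_fun k).mp
          (huspan'.symm ▸ riemannRochSpace_mono hsub' hy)
        exact ⟨c, (kerK c).mpr (hc.symm ▸ hy), by rw [Fintype.linearCombination_apply, hc]⟩
    rw [← he]
    exact (Submodule.equivMapOfInjective comb hinj _).finrank_eq
  have dimQ : ∀ ω, Module.finrank QBar (riemannRochSpace (G ω - G' ω)) ≤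
      Module.finrank QBar (LinearMap.ker (Km.map (evalQ R ω)).mulVecLin) := by
    intro ω
    let comb := Fintype.linearCombination QBar fun i => (u i : F)
    have hinj : Function.Injective comb :=
      (linearIndependent_of_redF h.toRedLattice u huli).fintypeLinearCombination_injective
    have he : riemannRochSpace (G ω - G' ω) ≤
        (LinearMap.ker (Km.map (evalQ R ω)).mulVecLin).map comb := by
      intro y hy
      obtain ⟨c, hc⟩ := (Submodule.mem_span_range_iff_exists_fun QBar).mp
        (huspan.symm ▸ riemannRochSpace_mono (hsub ω) hy)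
      exact ⟨c, (kerQ ω c).mpr (hc.symm ▸ hy), by rw [Fintype.linearCombination_apply, hc]⟩
    exact (Submodule.finrank_mono he).trans
      (Submodule.equivMapOfInjective comb hinj _).finrank_eq.ge
  -- compress
  obtain ⟨r, Pb, Qb, hPQ, hr⟩ := exists_compression Kb
  set Pm : Matrix (Fin r) _ R := constMat Pb with hPm
  set Qm : Matrix _ (Fin r) R := constMat Qb with hQm
  have hM1 : ∀ ω, (Pm * Km * Qm).map (resAt hR ω) = 1 := fun ω => by
    rw [Matrix.map_mul, Matrix.map_mul, resAt_constMat, resAt_constMat, hKc, hPQ]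
  have hM := isUnit_matrix hR (Pm * Km * Qm) hM1
  have hker : ∀ ω (c : _ → QBar), ((Pm * Km).map (evalQ R ω)) *ᵥ c = 0 →
      (Km.map (evalQ R ω)) *ᵥ c = 0 := by
    intro ω
    set T := ((Pm * Km).map (evalQ R ω)).mulVecLin with hT
    have hsurj : LinearMap.range T = ⊤ := by
      refine LinearMap.range_eq_top.mpr fun y => ?_
      refine ⟨(Qm.map (evalQ R ω)) *ᵥ (((Pm * Km * Qm)⁻¹.map (evalQ R ω)) *ᵥ y), ?_⟩
      rw [hT, Matrix.mulVecLin_apply, Matrix.mulVec_mulVec, Matrix.mulVec_mulVec, ← Matrix.map_mul,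
        ← Matrix.map_mul, Matrix.mul_nonsing_inv _ ((Matrix.isUnit_iff_isUnit_det _).mp hM),
        Matrix.map_one _ (map_zero _) (map_one _), Matrix.one_mulVec]
    have h1 := T.finrank_range_add_finrank_ker
    rw [hsurj, finrank_top, Module.finrank_fintype_fun_eq_card,
      Module.finrank_fintype_fun_eq_card, Fintype.card_fin] at h1
    have hle : LinearMap.ker (Km.map (evalQ R ω)).mulVecLin ≤ LinearMap.ker T := fun c hc => by
      rw [LinearMap.mem_ker, Matrix.mulVecLin_apply] at hc
      rw [LinearMap.mem_ker, hT, Matrix.mulVecLin_apply, Matrix.map_mul, ← Matrix.mulVec_mulVec,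
        hc, Matrix.mulVec_zero]
    have h2 := hell ω
    unfold ell at h2
    have h3 := dimQ ω
    have heq := Submodule.eq_of_le_of_finrank_le hle (by zify at h1 h3 hr dimK ⊢; linarith)
    intro c hc
    have : c ∈ LinearMap.ker T := hc
    rw [← heq] at this
    exact this
  intro x hx
  obtain ⟨cb, hcb⟩ := (Submodule.mem_span_range_iff_exists_fun k).mp
    (huspan'.symm ▸ riemannRochSpace_mono hsub' hx)
  have hKcb : Kb *ᵥ cb = 0 := (kerK cb).mpr (hcb.symm ▸ hx)
  set c0 : _ → R := fun i => algebraMap A R (liftRes A (cb i)) with hc0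
  set c : _ → R := c0 - Qm *ᵥ ((Pm * Km * Qm)⁻¹ *ᵥ ((Pm * Km) *ᵥ c0)) with hcdef
  have hPK : (Pm * Km) *ᵥ c = 0 := by
    rw [hcdef, Matrix.mulVec_sub, Matrix.mulVec_mulVec (M := Pm * Km) (N := Qm),
      Matrix.mulVec_mulVec, Matrix.mul_nonsing_inv _ ((Matrix.isUnit_iff_isUnit_det _).mp hM),
      Matrix.one_mulVec, sub_self]
  refine ⟨fun ω => ∑ i, (c i : Ω → QBar) ω • (u i : F), sum_mem_secs _ _ _, fun ω => ⟨?_, ?_⟩⟩
  · refine (kerQ ω fun i => (c i : Ω → QBar) ω).mp (hker ω _ ?_)
    funext e
    have := congrArg (evalQ R ω) (congrFun hPK e)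
    rw [RingHom.map_mulVec, Pi.zero_apply, map_zero] at this
    exact this
  · obtain ⟨hm, hred⟩ := redF_sum_smul (h := h) hR ω c u
    refine ⟨hm, hred.trans ?_⟩
    rw [← hcb]
    have hc0' : resAt hR ω ∘ c0 = cb := funext fun i => by
      simp [hc0, resAt_algebraMap, residue_liftRes]
    have hcc : resAt hR ω ∘ c = cb := funext fun i => by
      rw [Function.comp_apply, hcdef, Pi.sub_apply, map_sub, RingHom.map_mulVec,
        show resAt hR ω (c0 i) = cb i from congrFun hc0' i, sub_eq_self]
      have : resAt hR ω ∘ ((Pm * Km * Qm)⁻¹ *ᵥ ((Pm * Km) *ᵥ c0)) = 0 := funext fun e => by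
        rw [Function.comp_apply, RingHom.map_mulVec]
        have : resAt hR ω ∘ ((Pm * Km) *ᵥ c0) = 0 := funext fun e => by
          rw [Function.comp_apply, RingHom.map_mulVec, Matrix.map_mul, hKc, hc0',
            ← Matrix.mulVec_mulVec, hKcb, Matrix.mulVec_zero]
        rw [this, Matrix.mulVec_zero]
      rw [this, Matrix.mulVec_zero, Pi.zero_apply]
    exact Finset.sum_congr rfl fun i _ => by rw [← hcc]; rfl

end Reg

end Fermat.Agent.FiniteFlat
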