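import Fermat.Agent.FiniteFlat.Instance
import Fermat.Agent.FiniteFlat.Operation
import Fermat.Agent.EichlerShimura.Equivariance
import Fermat.Agent.RedTorsion.SeriesField
import Mathlib.FieldTheory.Finite.Basic
import Mathlib.RingTheory.RootsOfUnity.AlgebraicallyClosed
import Mathlib.RingTheory.Polynomial.Cyclotomic.Basic

/-!
# Inertia-fixed lifts

Residue classes lift to constants fixed by inertia; the space of functions with poles over
`j = ∞` has a basis of rational `q`-expansions whose reductions span the reduced space, so reduced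
functions lift to functions fixed by inertia, and points of the reduced curve lift to fixed places.
-/

set_option autoImplicit false
set_option maxHeartbeats 1000000
set_option synthInstance.maxHeartbeats 400000
set_option linter.unusedSectionVars false

noncomputable section

open IsLocalRing ModularCurve AlgebraicCurve
open Fermat.Agent.Arith Fermat.Agent.FF Fermat.Agent.RedTorsion Fermat.Agent.EichlerShimura

namespace Fermat.Agent.FiniteFlat

attribute [local instance 10000] serModule serSMul
attribute [local instance 2000] SubalgebraClass.toAlgebra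
attribute [-instance] IsLocalRing.ResidueField.algebraOfIsIntegral

variable {A : ValuationSubring QBar} {l : ℕ}

theorem exists_root_lift (hA : A.LiesOverPrime l) (hl : l.Prime) {z : ResidueField A} (hz : z ≠ 0) :
    ∃ m : ℕ, 0 < m ∧ ¬ l ∣ m ∧ z ^ m = 1 := by
  have := residueField_charP hA hl
  have : Fact l.Prime := ⟨hl⟩
  let := ZMod.algebra (ResidueField A) l
  obtain ⟨x, hx, hxz⟩ := exists_integral_residue hA hl z
  have hzl : IsIntegral (ZMod l) z := by
    have hxA := mem_of_isIntegral A hx
    obtain ⟨P, hP, hP0⟩ := hx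
    have hPA : P.eval₂ (Int.castRingHom A) ⟨x, hxA⟩ = 0 := Subtype.val_injective (by
      show A.subtype _ = ((0 : A) : QBar)
      rw [Polynomial.hom_eval₂, ZeroMemClass.coe_zero, ← hP0,
        show A.subtype.comp (Int.castRingHom A) = algebraMap ℤ QBar from RingHom.ext_int _ _]
      rfl)
    refine ⟨P.map (Int.castRingHom (ZMod l)), hP.map _, ?_⟩
    rw [Polynomial.eval₂_map, ← hxz,
      show (algebraMap (ZMod l) (ResidueField A)).comp (Int.castRingHom (ZMod l)) =
        (residue A).comp (Int.castRingHom A) from RingHom.ext_int _ _,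
      ← Polynomial.hom_eval₂, hPA, map_zero]
  let E := IntermediateField.adjoin (ZMod l) ({z} : Set (ResidueField A))
  have : FiniteDimensional (ZMod l) E := IntermediateField.adjoin.finiteDimensional hzl
  have : Finite E := Module.finite_of_finite (ZMod l)
  have := Fintype.ofFinite E
  have hz' : (⟨z, IntermediateField.mem_adjoin_simple_self _ z⟩ : E) ≠ 0 := fun e =>
    hz (congrArg Subtype.val e)
  refine ⟨Fintype.card E - 1, Nat.sub_pos_of_lt Fintype.one_lt_card, fun hdvd => ?_, ?_⟩
  · have h1 : ((Fintype.card E - 1 : ℕ) : ResidueField A) = 0 :=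
      (CharP.cast_eq_zero_iff _ l _).mpr hdvd
    have h2 : ((Fintype.card E : ℕ) : ResidueField A) = 0 := by
      rw [← map_natCast (algebraMap E (ResidueField A)), Nat.cast_card_eq_zero, map_zero]
    rw [Nat.cast_sub Fintype.card_pos, h2, Nat.cast_one, zero_sub, neg_eq_zero] at h1
    exact one_ne_zero h1
  · exact congrArg Subtype.val (FiniteField.pow_card_sub_one_eq_one _ hz')

/-- Residue classes lift to constants fixed by inertia. -/
theorem exists_fixed_lift (hA : A.LiesOverPrime l) (hl : l.Prime) (z : ResidueField A) :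
    ∃ a : A, residue A a = z ∧ ∀ σ ∈ A.inertiaSubgroupIn ℚ, σ (a : QBar) = a := by
  classical
  rcases eq_or_ne z 0 with rfl | hz
  · exact ⟨0, map_zero _, fun σ _ => map_zero σ⟩
  obtain ⟨m, hm, hlm, hzm⟩ := exists_root_lift hA hl hz
  have : NeZero (m : QBar) := ⟨Nat.cast_ne_zero.mpr hm.ne'⟩
  obtain ⟨ζ, hζ⟩ := HasEnoughRootsOfUnity.exists_primitiveRoot QBar m
  have hmemA : ∀ μ ∈ Polynomial.nthRootsFinset m (1 : QBar), μ ∈ A := fun μ hμ =>
    mem_of_isIntegral A (IsIntegral.of_pow hm
      ((Polynomial.mem_nthRootsFinset hm (1 : QBar)).mp hμ ▸ isIntegral_one))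
  have hfac : (Polynomial.X ^ m - 1 : Polynomial A) =
      ∏ μ ∈ (Polynomial.nthRootsFinset m (1 : QBar)).attach,
        (Polynomial.X - Polynomial.C (⟨μ.1, hmemA μ.1 μ.2⟩ : A)) := by
    apply Polynomial.map_injective A.subtype Subtype.val_injective
    rw [Polynomial.map_prod]
    simp only [Polynomial.map_sub, Polynomial.map_pow, Polynomial.map_X, Polynomial.map_one,
      Polynomial.map_C]
    rw [Polynomial.X_pow_sub_one_eq_prod hm hζ]
    exact (Finset.prod_attach _ (fun μ => Polynomial.X - Polynomial.C μ)).symm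
  have h1 := congrArg (fun P => Polynomial.eval₂ (residue A) z P) hfac
  simp only [Polynomial.eval₂_sub, Polynomial.eval₂_pow, Polynomial.eval₂_X, Polynomial.eval₂_one,
    Polynomial.eval₂_finsetProd, Polynomial.eval₂_C, hzm, sub_self] at h1
  obtain ⟨μ, -, hμ⟩ := Finset.prod_eq_zero_iff.mp h1.symm
  exact ⟨⟨μ.1, hmemA μ.1 μ.2⟩, (sub_eq_zero.mp hμ).symm,
    fun σ hσ => inertia_root hA hl hσ ((Polynomial.mem_nthRootsFinset hm (1 : QBar)).mp μ.2) hlm⟩

/-- Independent series have an invertible minor of coefficients. -/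
theorem exists_minor {k : Type*} [Field k] {n : ℕ} {w : Fin n → LaurentSeries k}
    (hw : ∀ c : Fin n → k, (∀ e, ∑ i, c i * (w i).coeff e = 0) → c = 0) :
    ∃ ex : Fin n → ℤ, IsUnit (Matrix.of fun i a => (w i).coeff (ex a) : Matrix (Fin n) (Fin n) k) := by
  classical
  let col : ℤ → (Fin n → k) := fun e i => (w i).coeff e
  have hspan : Submodule.span k (Set.range col) = ⊤ := by
    by_contra hne
    obtain ⟨φ, hφ, hle⟩ := Submodule.exists_le_ker_of_lt_top _ (lt_top_iff_ne_top.mpr hne)
    have e : ∀ (v : Fin n → k), φ v = ∑ i, v i * φ (Pi.single i 1) := fun v => by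
      conv_lhs => rw [← Finset.univ_sum_single v, map_sum]
      refine Finset.sum_congr rfl fun i _ => ?_
      rw [show (Pi.single i (v i) : Fin n → k) = v i • Pi.single i 1 by
        rw [← Pi.single_smul, smul_eq_mul, mul_one], map_smul, smul_eq_mul]
    refine hφ (LinearMap.ext fun v => ?_)
    have h0 := hw (fun i => φ (Pi.single i 1)) fun x => by
      have h1 : φ (col x) = 0 := hle (Submodule.subset_span ⟨x, rfl⟩)
      rw [e] at h1
      exact (Finset.sum_congr rfl fun i _ => mul_comm _ _).trans h1
    rw [e, LinearMap.zero_apply]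
    exact Finset.sum_eq_zero fun i _ => by rw [congrFun h0 i]; exact mul_zero _
  obtain ⟨t, ht, htspan, htli⟩ := exists_linearIndependent k (Set.range col)
  rw [hspan] at htspan
  let Bt : Module.Basis t k (Fin n → k) := Module.Basis.mk htli (by
    rw [Subtype.range_coe, htspan])
  have := FiniteDimensional.fintypeBasisIndex Bt
  let et : Fin n ≃ t := (Fintype.equivFinOfCardEq (by
    rw [← Module.finrank_eq_card_basis Bt, Module.finrank_fintype_fun_eq_card, Fintype.card_fin])).symm
  choose ex hex using fun a : Fin n => ht (et a).2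
  refine ⟨ex, Matrix.linearIndependent_cols_iff_isUnit.mp ?_⟩
  have e : (fun a => (fun i => (w i).coeff (ex a))) = fun a => ((et a : t) : Fin n → k) :=
    funext fun a => hex a
  show LinearIndependent k (fun a => (fun i => (w i).coeff (ex a)))
  rw [e]
  exact htli.comp et et.injective

/-- A basis of a space dual to given coordinates with invertible reduction. -/
theorem exists_delta_basis {F Fk : Type*} [Field F] [Algebra QBar F] [Field Fk]
    [Algebra (ResidueField A) Fk] (h : RedLattice A F Fk) (W : Submodule QBar F) {n : ℕ}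
    (u : Fin n → h.S) (huW : ∀ i, (u i : F) ∈ W)
    (huspan : Submodule.span QBar (Set.range fun i => (u i : F)) = W)
    (hred : redW h W ≤ Submodule.span (ResidueField A) (Set.range fun i => redF h (u i)))
    (π : Fin n → (F →ₗ[QBar] QBar)) (M : Matrix (Fin n) (Fin n) A)
    (hπ : ∀ i a, π a (u i) = M i a) (hM : IsUnit M.det) :
    ∃ fb : Fin n → h.S, (∀ b, (fb b : F) ∈ W) ∧ (∀ w ∈ W, (∀ a, π a w = 0) → w = 0) ∧
      (∀ b a, π a (fb b) = if b = a then 1 else 0) ∧
      redW h W ≤ Submodule.span (ResidueField A) (Set.range fun b => redF h (fb b)) := by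
  classical
  set fb : Fin n → h.S := fun b => ∑ i, intConst h (M⁻¹ b i) * u i with hfbdef
  have hfb : ∀ b, (fb b : F) = ∑ i, ((M⁻¹ b i : A) : QBar) • (u i : F) := fun b => by
    simp only [hfbdef, AddSubmonoidClass.coe_finsetSum, MulMemClass.coe_mul, coe_intConst,
      ← Algebra.smul_def]
  refine ⟨fb, fun b => by rw [hfb]; exact sum_mem fun i _ => Submodule.smul_mem _ _ (huW i),
    fun w hw hw0 => ?_, fun b a => ?_, hred.trans (Submodule.span_le.mpr ?_)⟩
  · obtain ⟨c, rfl⟩ := (Submodule.mem_span_range_iff_exists_fun QBar).mp (huspan.symm ▸ hw)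
    set M' : Matrix (Fin n) (Fin n) QBar := M.map A.subtype
    have h1 : Matrix.vecMul c M' = 0 := funext fun a => by
      rw [Pi.zero_apply, ← hw0 a, map_sum]
      simp only [map_smul, hπ, smul_eq_mul, Matrix.vecMul, dotProduct, M', Matrix.map_apply]
      rfl
    have hM' : IsUnit M'.det := by
      rw [show M'.det = A.subtype M.det from (RingHom.map_det A.subtype M).symm]
      exact hM.map _
    have h2 := congrArg (fun v => Matrix.vecMul v M'⁻¹) h1
    simp only [Matrix.vecMul_vecMul, Matrix.zero_vecMul, Matrix.mul_nonsing_inv _ hM',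
      Matrix.vecMul_one] at h2
    simp [h2]
  · have h1 := congrArg (fun X : Matrix (Fin n) (Fin n) A => ((X b a : A) : QBar))
      (Matrix.nonsing_inv_mul M hM)
    simp only [Matrix.mul_apply, Matrix.one_apply, AddSubmonoidClass.coe_finsetSum,
      MulMemClass.coe_mul] at h1
    rw [hfb, map_sum]
    simp only [map_smul, hπ, smul_eq_mul]
    refine Eq.trans h1 ?_
    split <;> rfl
  · rintro _ ⟨j, rfl⟩
    rw [SetLike.mem_coe, Submodule.mem_span_range_iff_exists_fun]
    refine ⟨fun b => residue A (M j b), ?_⟩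
    simp only [hfbdef, map_sum, map_mul, redF_intConst, ← Algebra.smul_def, Finset.smul_sum,
      smul_smul]
    rw [Finset.sum_comm]
    simp only [← Finset.sum_smul]
    have h1 : ∀ i, ∑ b, residue A (M j b) * residue A (M⁻¹ b i) = if j = i then 1 else 0 :=
      fun i => by
        have h2 := congrArg (fun X : Matrix (Fin n) (Fin n) A => residue A (X j i))
          (Matrix.mul_nonsing_inv M hM)
        simp only [Matrix.mul_apply, map_sum, map_mul, Matrix.one_apply] at h2
        rw [h2]
        split <;> simp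
    simp [h1]

section Level

variable {N : ℕ} [NeZero N]

local notation "Fb" => modularFunctionFieldBar N
local notation "Fk" => modularFunctionFieldFullC (ResidueField A) N

/-- The action of an automorphism of `ℚ̄` on the function field. -/
abbrev galF (N : ℕ) (σ : GQ) : SemilinearAut QBar (modularFunctionFieldBar N) :=
  arithmeticGalois (modularFunctionFieldFull N) σ

theorem galF_smul_smul (σ : GQ) (a : QBar) (f : Fb) :
    galF N σ • (a • f) = σ a • (galF N σ • f) := by
  rw [Algebra.smul_def, Algebra.smul_def, smul_mul', SemilinearAut.smul_algebraMap,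
    baseAut_arithmeticGalois]
  rfl

theorem coe_galF_smul (σ : GQ) (f : Fb) :
    ((galF N σ • f : Fb) : LaurentSeries QBar) = coeffMap (σ : QBar →+* QBar) (f : LaurentSeries QBar) :=
  coe_arithmeticGalois_smul _ σ f

/-- A coefficient, as a functional on the function field. -/
def coeffF (e : ℤ) : Fb →ₗ[QBar] QBar where
  toFun f := (f : LaurentSeries QBar).coeff e
  map_add' f g := by rw [AddMemClass.coe_add, HahnSeries.coeff_add]
  map_smul' c f := by
    rw [Algebra.smul_def, MulMemClass.coe_mul, IntermediateField.coe_algebraMap_apply,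
      coeff_algebraMap_mul, RingHom.id_apply, smul_eq_mul]

theorem coeffF_apply (e : ℤ) (f : Fb) : coeffF e f = (f : LaurentSeries QBar).coeff e := rfl

theorem galF_smul_jF (σ : GQ) : galF N σ • jF (F := Fb) hFb = jF (F := Fb) hFb :=
  Subtype.ext (by rw [coe_galF_smul, coe_jF, coeffMap_jqModC])

variable [IsFunctionField QBar (modularFunctionFieldBar N)]

theorem galF_mem_riemannRochSpace (σ : GQ) {D : Divisor QBar Fb} {f : Fb}
    (hf : f ∈ riemannRochSpace D) : galF N σ • f ∈ riemannRochSpace (galF N σ • D) := by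
  rcases eq_or_ne f 0 with rfl | hf0
  · rw [smul_zero]; exact zero_mem _
  rw [mem_riemannRochSpace'] at hf ⊢
  intro w
  have h1 := le_ord_of_mem_ordGe _ hf0 (hf ((galF N σ)⁻¹ • w))
  refine mem_ordGe_of_le w ?_
  rw [SemilinearAut.divisor_smul_apply]
  conv_rhs => rw [← smul_inv_smul (galF N σ) w]
  rw [SemilinearAut.ord_smul]
  exact h1

variable (N) in
/-- The poles of `j`. -/
def poleDiv : Divisor QBar (modularFunctionFieldBar N) := poles QBar (jF (F := Fb) hFb)

theorem galF_smul_poleDiv (σ : GQ) : galF N σ • poleDiv N = poleDiv N := by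
  ext w
  rw [SemilinearAut.divisor_smul_apply, poleDiv, poles_apply, poles_apply]
  conv_rhs => rw [← smul_inv_smul (galF N σ) w, ← galF_smul_jF σ, SemilinearAut.ord_smul]

theorem galF_smul_mul_poleDiv (σ : GQ) (m : ℤ) : galF N σ • (m • poleDiv N) = m • poleDiv N := by
  rw [smul_comm, galF_smul_poleDiv]

theorem one_le_degree_poleDiv : 1 ≤ Divisor.degree (poleDiv N) := by
  have := finiteDimensional_adjoin (transcendental_jF (F := Fb) hFb)
  rw [poleDiv, degree_poles (transcendental_jF (F := Fb) hFb)]
  exact_mod_cast (Module.finrank_pos :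
    0 < Module.finrank (IntermediateField.adjoin QBar ({jF (F := Fb) hFb} : Set Fb)) Fb)

variable (hA : A.LiesOverPrime l) (hl : l.Prime) (hNA : (N : ResidueField A) ≠ 0)
  [IsFunctionField (ResidueField A) (modularFunctionFieldFullC (ResidueField A) N)]

theorem exists_jF_mem : ∃ hm : jF (F := Fb) hFb ∈ (goodRed hNA).S,
    redF (goodRed hNA).toRedLattice ⟨_, hm⟩ = jF (K := ResidueField A) (N := N) (F := Fk) rfl := by
  have : IsAlgClosed (ResidueField A) := residueField_isAlgClosed A
  have hj : (evalS (F := Fb) hFb (Polynomial.X : Polynomial A) : Fb) = jF (F := Fb) hFb := by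
    rw [coe_evalS]; simp [polyIncl]
  obtain ⟨hm, hr⟩ := serInt_mem_lattice hNA (evalS (F := Fb) hFb (Polynomial.X : Polynomial A))
  refine ⟨hj ▸ hm, ?_⟩
  refine Eq.trans (congrArg _ (Subtype.ext hj.symm)) (hr.trans (Subtype.ext ?_))
  rw [RedTorsion.coe_redF, sred_evalS, coe_jF]
  simp [polyBar]

theorem redDiv_poleDiv : redDiv (goodRed hNA) (poleDiv N) =
    poles (ResidueField A) (jF (K := ResidueField A) (N := N) (F := Fk) rfl) := by
  obtain ⟨hm, hr⟩ := exists_jF_mem (A := A) hNA
  have ht := transcendental_jF (K := ResidueField A) (N := N) (F := Fk) rfl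
  have hne : redF (goodRed hNA).toRedLattice ⟨_, hm⟩ ≠ 0 := by
    rw [hr]; exact fun e => ht (e ▸ isAlgebraic_zero)
  have hd := redDiv_div (goodRed hNA) ⟨_, hm⟩ hne
  rw [hr] at hd
  refine (eq_of_le_of_degree_le (Finsupp.le_def.mpr fun v => ?_) ?_).symm
  · have hz : 0 ≤ redDiv (goodRed hNA) (poleDiv N) +
        div (ResidueField A) (jF (K := ResidueField A) (N := N) (F := Fk) rfl) := by
      rw [← hd, ← map_add]
      refine redDiv_nonneg _ (Finsupp.le_def.mpr fun w => ?_)
      simp only [Finsupp.coe_zero, Pi.zero_apply, Finsupp.add_apply, poleDiv, poles_apply, div_apply]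
      omega
    have h1 := Finsupp.le_def.mp hz v
    have h2 := Finsupp.le_def.mp (redDiv_nonneg (goodRed hNA) (show 0 ≤ poleDiv N from poles_nonneg _)) v
    simp only [Finsupp.coe_zero, Pi.zero_apply, Finsupp.add_apply, div_apply] at h1 h2
    rw [poles_apply]
    omega
  · rw [degree_redDiv, poleDiv, degree_poles (transcendental_jF (F := Fb) hFb), degree_poles ht,
      finrank_residue_j hNA]

theorem redDiv_div_series {y : LaurentSeries A} {f : Fb} {g : Fk}
    (hf : coeffMap A.subtype y = (f : LaurentSeries QBar))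
    (hg : coeffMap (residue A) y = (g : LaurentSeries (ResidueField A))) (hg0 : g ≠ 0) :
    redDiv (goodRed hNA) (FF.div QBar f) = FF.div (ResidueField A) g := by
  have hy : coeffMap A.subtype y ∈ Fb := hf ▸ f.2
  obtain ⟨hm, hr⟩ := seriesCompat hNA y hy
  have hr' : redF (goodRed hNA).toRedLattice ⟨_, hm⟩ = g := Subtype.ext (hr.trans hg)
  have h2 := redDiv_div (goodRed hNA) ⟨_, hm⟩ (by rw [hr']; exact hg0)
  rw [hr'] at h2
  rw [show f = ⟨_, hy⟩ from Subtype.ext hf.symm]
  exact h2

theorem coeffMap_galF (σ : GQ) {σA : A →+* A} (hσA : ∀ a : A, (σA a : QBar) = σ a)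
    {y : LaurentSeries A} {f : Fb} (hf : coeffMap A.subtype y = (f : LaurentSeries QBar)) :
    coeffMap A.subtype (coeffMap σA y) = ((galF N σ • f : Fb) : LaurentSeries QBar) := by
  rw [coe_galF_smul, ← hf, coeffMap_coeffMap, coeffMap_coeffMap]
  exact coeffMap_congr (RingHom.ext fun a => hσA a) y

include hA in
/-- Inertia does not move reductions of divisors. -/
theorem redDiv_galF {σ : GQ} (hσ : σ ∈ A.inertiaSubgroupIn ℚ) (D : Divisor QBar Fb) :
    redDiv (goodRed hNA) (galF N σ • D) = redDiv (goodRed hNA) D := by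
  have : IsAlgClosed (ResidueField A) := residueField_isAlgClosed A
  obtain ⟨hd, hd'⟩ := Arith.mem_inertia_iff_forall_mem.mp hσ
  let σA : A →+* A :=
    (((σ : QBar →+* QBar).comp A.subtype).codRestrict A.toSubring
      fun a => Arith.map_mem_of_mem_decomposition hd a.2)
  let δ : Divisor QBar Fb →+ Divisor (ResidueField A) Fk :=
    (redDiv (goodRed hNA)).comp (DistribSMul.toAddMonoidHom (Divisor QBar Fb) (galF N σ)) -
      redDiv (goodRed hNA)
  have hδ : ∀ E ∈ integralPrincipalDivisors A (residue A) N, δ E = 0 := by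
    intro E hE
    obtain ⟨y, hy, hyk, hne, rfl⟩ := EichlerShimura.exists_eq_div hE
    have hne' : (⟨_, hyk⟩ : Fk) ≠ 0 := fun h => hne (congrArg Subtype.val h)
    simp only [δ, AddMonoidHom.sub_apply, AddMonoidHom.comp_apply, DistribSMul.toAddMonoidHom_apply]
    rw [EichlerShimura.smul_div, redDiv_div_series hNA (y := y) (f := (⟨_, hy⟩ : Fb)) (g := (⟨_, hyk⟩ : Fk)) rfl rfl hne',
      redDiv_div_series hNA (y := coeffMap σA y) (g := (⟨_, hyk⟩ : Fk))
        (coeffMap_galF (σA := σA) σ (fun a => rfl) (f := (⟨_, hy⟩ : Fb)) rfl) ?_ hne', sub_self]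
    rw [coeffMap_coeffMap]
    refine coeffMap_congr (RingHom.ext fun a => ?_) y
    exact Arith.residue_eq_iff.mpr (hd' a a.2)
  have hconst : ∀ P Q : Place QBar Fb,
      δ (Finsupp.single P 1) = δ (Finsupp.single Q 1) := fun P Q => sub_eq_zero.mp (by
    rw [← map_sub]
    exact eq_zero_of_degree_zero hNA δ hδ _ (Divisor.mem_degZero.mpr (by
      rw [map_sub, degree_single_one, degree_single_one, sub_self])))
  have hlin : ∀ (P : Place QBar Fb) (E : Divisor QBar Fb),
      δ E = Divisor.degree E • δ (Finsupp.single P 1) := fun P E => by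
    induction E using Finsupp.induction with
    | zero => simp
    | single_add v n E _ _ ih =>
      rw [map_add, map_add, ih, degree_single_one, add_smul]
      congr 1
      rw [← hconst v P, ← map_zsmul, Finsupp.smul_single, smul_eq_mul, mul_one]
  obtain ⟨P⟩ := FF.exists_place (K := QBar) (F := Fb)
  have h0 : δ (Finsupp.single P 1) = 0 := by
    have h1 := hlin P (poleDiv N)
    have h2 : δ (poleDiv N) = 0 := by
      show redDiv (goodRed hNA) (galF N σ • poleDiv N) - redDiv (goodRed hNA) (poleDiv N) = 0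
      rw [galF_smul_poleDiv, sub_self]
    have hdeg := one_le_degree_poleDiv (N := N)
    refine Finsupp.ext fun Q => ?_
    have h3 := congrArg (fun X => X Q) (h1.symm.trans h2)
    simp only [Finsupp.smul_apply, smul_eq_mul, Finsupp.coe_zero, Pi.zero_apply] at h3 ⊢
    rcases mul_eq_zero.mp h3 with h | h
    · omega
    · exact h
  have h4 := hlin P D
  rw [h0, smul_zero] at h4
  exact sub_eq_zero.mp h4

include hA hl in
theorem exists_serInt_of_mem {m : ℤ} (y : (goodRed hNA).S)
    (hy : (y : Fb) ∈ riemannRochSpace (m • poleDiv N)) :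
    ∃ hs : ((y : Fb) : LaurentSeries QBar) ∈ serInt A,
      serRed A ⟨_, hs⟩ = (redF (goodRed hNA).toRedLattice y : LaurentSeries (ResidueField A)) := by
  have : IsAlgClosed (ResidueField A) := residueField_isAlgClosed A
  rcases eq_or_ne (y : Fb) 0 with h0 | h0
  · obtain rfl : y = 0 := Subtype.ext h0
    refine ⟨zero_mem _, ?_⟩
    rw [map_zero]
    exact map_zero (serRed A)
  have hj : ((jF (F := Fb) hFb : Fb) : LaurentSeries QBar) ∈ serBdd A := by
    rw [coe_jF]
    exact serInt_le_serBdd ⟨jqModC A, coeffMap_jqModC A.subtype⟩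
  have hb : ((y : Fb) : LaurentSeries QBar) ∈ serBdd A := by
    refine mem_serBdd_of_regular hFb hA hl hj fun v hv => ?_
    have ht := transcendental_jF (F := Fb) hFb
    have hjo : (0 : ℤ) ≤ v.ord (jF (F := Fb) hFb) :=
      (mem_iff_ord v fun e => ht (by rw [e]; exact isAlgebraic_zero)).mp hv
    have h2 := le_ord_of_mem_ordGe v h0 (mem_riemannRochSpace'.mp hy v)
    rw [Finsupp.smul_apply, poleDiv, poles_apply, max_eq_left (by omega), smul_zero, neg_zero] at h2
    exact (mem_iff_ord v h0).mpr h2
  obtain ⟨c, hc, g, hg, hcg⟩ := isScalable_of_bdd hA hl hb (mem_finCoeff_full hFb (y : Fb).2)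
    (fun e => h0 (Subtype.ext e))
  have hgF : (g : LaurentSeries QBar) ∈ Fb := by
    have h1 : c⁻¹ • ((y : Fb) : LaurentSeries QBar) = g := by
      rw [hcg, ser_smul_smul, inv_mul_cancel₀ hc, ser_one_smul]
    rw [← h1, Algebra.smul_def]
    exact mul_mem (IntermediateField.algebraMap_mem _ _) (y : Fb).2
  obtain ⟨hm, hr⟩ := serInt_mem_lattice hNA (⟨⟨_, hgF⟩, g.2⟩ : sint A Fb)
  have hrg : (redF (goodRed hNA).toRedLattice ⟨_, hm⟩ : LaurentSeries (ResidueField A)) = serRed A g :=
    (congrArg Subtype.val hr).trans (RedTorsion.coe_redF hFb hNA _)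
  have hyg : (y : Fb) = c • (⟨_, hgF⟩ : Fb) := Subtype.ext (hcg.trans (by
    rw [Algebra.smul_def, Algebra.smul_def]; rfl))
  have hcA : c ∈ A := by
    by_contra hcA
    have hi : c⁻¹ ∈ A := (A.mem_or_inv_mem c).resolve_left hcA
    have hmax : residue A ⟨c⁻¹, hi⟩ = 0 := by
      refine (IsLocalRing.residue_eq_zero_iff _).mpr fun hu => hcA ?_
      obtain ⟨w, hw⟩ := hu.exists_right_inv
      have h3 := congrArg Subtype.val hw
      simp only [MulMemClass.coe_mul, OneMemClass.coe_one] at h3
      rw [← inv_inv c, ← eq_inv_of_mul_eq_one_right h3]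
      exact w.2
    have h4 : (⟨_, hm⟩ : (goodRed hNA).S) =
        ⟨_, smul_mem_lattice (goodRed hNA).toRedLattice ⟨c⁻¹, hi⟩ y.2⟩ := Subtype.ext (by
      show (⟨_, hgF⟩ : Fb) = c⁻¹ • (y : Fb)
      rw [hyg, inv_smul_smul₀ hc])
    have h5 := congrArg (redF (goodRed hNA).toRedLattice) h4
    rw [redF_smul, hmax, zero_smul] at h5
    rw [h5] at hrg
    exact hg (hrg.symm.trans (ZeroMemClass.coe_zero _))
  refine ⟨hcg ▸ smul_mem_serInt hcA g.2, ?_⟩
  have hm' : (⟨_, hgF⟩ : Fb) ∈ (goodRed hNA).S := hm
  have h6 : y = ⟨_, smul_mem_lattice (goodRed hNA).toRedLattice ⟨c, hcA⟩ hm'⟩ := Subtype.ext hyg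
  have h7 : redF (goodRed hNA).toRedLattice y =
      residue A ⟨c, hcA⟩ • redF (goodRed hNA).toRedLattice ⟨_, hm'⟩ :=
    (congrArg _ h6).trans (redF_smul (goodRed hNA).toRedLattice ⟨c, hcA⟩ ⟨_, hm'⟩)
  refine Eq.trans (congrArg (serRed A) (Subtype.ext hcg :
    (⟨((y : Fb) : LaurentSeries QBar), hcg ▸ smul_mem_serInt hcA g.2⟩ : serInt A) =
      ⟨_, smul_mem_serInt hcA g.2⟩)) ?_
  rw [serRed_smul, h7, Algebra.smul_def, Algebra.smul_def, MulMemClass.coe_mul, ← hrg,
    IntermediateField.coe_algebraMap_apply]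

include hA hl in
theorem exists_rat_basis (m : ℤ) :
    ∃ (n : ℕ) (fb : Fin n → (goodRed (A := A) hNA).S),
      (∀ b, (fb b : Fb) ∈ riemannRochSpace (m • poleDiv N)) ∧
      (∀ (σ : GQ) b, galF N σ • (fb b : Fb) = fb b) ∧
      redW (goodRed hNA).toRedLattice (riemannRochSpace (m • poleDiv N)) ≤
        Submodule.span (ResidueField A)
          (Set.range fun b => redF (goodRed hNA).toRedLattice (fb b)) := by
  classical
  set h := goodRed (A := A) hNA
  set W := riemannRochSpace (m • poleDiv N) with hW
  have hWr := finrank_redW h.toRedLattice W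
  have : Module.Free (ResidueField A) (redW h.toRedLattice W) :=
    Module.Free.of_divisionRing _ _
  let μ := Module.finBasis (ResidueField A) (redW h.toRedLattice W)
  choose u huW hu using fun i => (μ i).2
  have hμ := congrArg (Submodule.map (redW h.toRedLattice W).subtype) μ.span_eq
  rw [Submodule.map_span, Submodule.map_top, Submodule.range_subtype, ← Set.range_comp] at hμ
  have hred : redW h.toRedLattice W ≤
      Submodule.span (ResidueField A) (Set.range fun i => redF h.toRedLattice (u i)) := by
    rw [show (fun i => redF h.toRedLattice (u i)) =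
      ((redW h.toRedLattice W).subtype ∘ μ) from funext hu]
    exact hμ.ge
  have huli : LinearIndependent (ResidueField A) fun i => redF h.toRedLattice (u i) := by
    rw [show (fun i => redF h.toRedLattice (u i)) =
      ((redW h.toRedLattice W).subtype ∘ μ) from funext hu]
    exact μ.linearIndependent.map' (redW h.toRedLattice W).subtype (Submodule.ker_subtype _)
  choose hs hsr using fun i => exists_serInt_of_mem hA hl hNA (u i) (huW i)
  obtain ⟨ex, hex⟩ := exists_minor (w := fun i => serRed A ⟨_, hs i⟩) fun c hc => by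
    refine funext (Fintype.linearIndependent_iff.mp huli c (Subtype.ext ?_))
    ext e
    rw [AddSubmonoidClass.coe_finsetSum, HahnSeries.coeff_sum, ZeroMemClass.coe_zero,
      HahnSeries.coeff_zero]
    refine Eq.trans (Finset.sum_congr rfl fun i _ => ?_) (hc e)
    rw [Algebra.smul_def, MulMemClass.coe_mul, IntermediateField.coe_algebraMap_apply,
      coeff_algebraMap_mul, ← hsr i]
  have huspan : Submodule.span QBar (Set.range fun i => (u i : Fb)) = W := by
    refine Submodule.eq_of_le_of_finrank_eq (Submodule.span_le.mpr ?_) ?_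
    · rintro _ ⟨i, rfl⟩; exact huW i
    · rw [finrank_span_eq_card (linearIndependent_of_redF h.toRedLattice u huli), Fintype.card_fin,
        hWr.2]
  let M : Matrix (Fin _) (Fin _) A := Matrix.of fun i a =>
    ⟨((u i : Fb) : LaurentSeries QBar).coeff (ex a), mem_serInt.mp (hs i) (ex a)⟩
  have hMdet : IsUnit M.det := by
    rw [← residue_ne_zero_iff_isUnit, RingHom.map_det, RingHom.mapMatrix_apply]
    have e : M.map (residue A) = Matrix.of fun i a => (serRed A ⟨_, hs i⟩).coeff (ex a) :=
      Matrix.ext fun i a => (coeff_serRed ⟨_, hs i⟩ (ex a)).symm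
    rw [e]
    exact ((Matrix.isUnit_iff_isUnit_det _).mp hex).ne_zero
  obtain ⟨fb, hfbW, hinj, hdelta, hspan⟩ := exists_delta_basis h.toRedLattice W u huW huspan hred
    (fun a => coeffF (N := N) (ex a)) M (fun i a => rfl) hMdet
  refine ⟨_, fb, hfbW, fun σ b => sub_eq_zero.mp (hinj _ (sub_mem ?_ (hfbW b)) fun a => ?_), hspan⟩
  · have := galF_mem_riemannRochSpace σ (hfbW b)
    rwa [galF_smul_mul_poleDiv] at this
  · have h1 := hdelta b a
    rw [coeffF_apply] at h1
    rw [map_sub, coeffF_apply, coeffF_apply, coe_galF_smul, coeffMap_coeff, h1]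
    split <;> simp

include hA hl in
/-- Reduced functions with poles over `j = ∞` lift to functions fixed by inertia. -/
theorem exists_fixed_lift_poles {m : ℤ}
    (hm : bigDeg (goodRed (A := A) hNA) ≤ Divisor.degree (m • poleDiv N)) {x : Fk}
    (hx : x ∈ riemannRochSpace (redDiv (goodRed hNA) (m • poleDiv N))) :
    ∃ f : (goodRed hNA).S, (f : Fb) ∈ riemannRochSpace (m • poleDiv N) ∧
      redF (goodRed hNA).toRedLattice f = x ∧
      ∀ σ ∈ A.inertiaSubgroupIn ℚ, galF N σ • (f : Fb) = f := by
  obtain ⟨n, fb, hfbW, hfix, hspan⟩ := exists_rat_basis hA hl hNA m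
  rw [redW_riemannRochSpace (goodRed hNA) hm] at hspan
  obtain ⟨c, hc⟩ := (Submodule.mem_span_range_iff_exists_fun _).mp (hspan hx)
  choose a ha hafix using fun b => exists_fixed_lift hA hl (c b)
  refine ⟨∑ b, intConst (goodRed hNA).toRedLattice (a b) * fb b, ?_, ?_, fun σ hσ => ?_⟩
  · simp only [AddSubmonoidClass.coe_finsetSum, MulMemClass.coe_mul, coe_intConst, ← Algebra.smul_def]
    exact sum_mem fun b _ => Submodule.smul_mem _ _ (hfbW b)
  · rw [← hc, map_sum]
    simp only [map_mul, redF_intConst, ha, ← Algebra.smul_def]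
  · simp only [AddSubmonoidClass.coe_finsetSum, MulMemClass.coe_mul, coe_intConst, ← Algebra.smul_def,
      Finset.smul_sum]
    refine Finset.sum_congr rfl fun b _ => ?_
    rw [galF_smul_smul, hfix σ b, hafix b σ hσ]

include hA hl in
/-- Points of the reduced curve off `j = ∞` lift to places fixed by inertia. -/
theorem exists_fixed_place {Q : Place (ResidueField A) Fk}
    (hQ : redDiv (goodRed hNA) (poleDiv N) Q = 0) :
    ∃ P : Place QBar Fb, redPlace (goodRed hNA) P = Q ∧
      ∀ σ ∈ A.inertiaSubgroupIn ℚ, galF N σ • P = P := by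
  classical
  set h := goodRed (A := A) hNA
  set Eb := redDiv h (poleDiv N) with hEb
  have hd1 := one_le_degree_poleDiv (N := N)
  have hrr := one_le_rrBound h
  have hb := rrBound_lt_bigDeg h
  set m : ℤ := bigDeg h + 2 with hm
  have hmd : m ≤ m * Divisor.degree (poleDiv N) :=
    le_mul_of_one_le_right (by omega) hd1
  have hdeg : bigDeg h ≤ Divisor.degree (m • poleDiv N) := by
    rw [map_zsmul, smul_eq_mul]; omega
  set D : Divisor (ResidueField A) Fk := redDiv h (m • poleDiv N) - Finsupp.single Q 1 with hD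
  obtain ⟨ub, hub, hord⟩ := exists_ord_eq (fun _ => ell_eq_of_rrBound_le' h) (D := D) (by
    rw [hD, map_sub, degree_redDiv, degree_single_one, map_zsmul, smul_eq_mul]; omega) {Q}
  obtain ⟨hub0, hubQ⟩ := hord Q (Finset.mem_singleton_self Q)
  have hubm : ub ∈ riemannRochSpace (redDiv h (m • poleDiv N)) :=
    riemannRochSpace_mono (sub_le_self _ (Finsupp.le_def.mpr fun w => by
      rcases eq_or_ne w Q with rfl | hw <;> simp [*])) hub
  obtain ⟨f, hf, hfr, hfix⟩ := exists_fixed_lift_poles hA hl hNA hdeg hubm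
  have hQ1 : div (ResidueField A) ub Q = 1 := by
    rw [div_apply, hubQ, hD, map_zsmul, Finsupp.sub_apply, Finsupp.smul_apply, hQ,
      Finsupp.single_eq_same]
    simp
  have hf0 : (f : Fb) ≠ 0 := fun e => hub0 (by
    rw [← hfr, show f = 0 from Subtype.ext e, map_zero])
  have hdiv := redDiv_div h f (by rw [hfr]; exact hub0)
  rw [hfr] at hdiv
  set Df := FF.div QBar (f : Fb) with hDf
  have hnn : ∀ P, redPlace h P = Q → 0 ≤ Df P := by
    intro P hP
    rw [hDf, div_apply]
    by_contra! hneg
    have h1 := le_ord_of_mem_ordGe P hf0 (mem_riemannRochSpace'.mp hf P)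
    rw [Finsupp.smul_apply, smul_eq_mul] at h1
    have hEP : 0 < poleDiv N P := by
      by_contra! hle
      have : 0 ≤ poleDiv N P := by rw [poleDiv, poles_apply]; exact le_max_left _ _
      rw [show poleDiv N P = 0 by omega, mul_zero] at h1
      omega
    have hle : redDiv h (Finsupp.single P (poleDiv N P)) ≤ Eb := by
      refine redDiv_mono (Finsupp.le_def.mpr fun w => ?_)
      rcases eq_or_ne w P with rfl | hw
      · simp
      · rw [Finsupp.single_eq_of_ne hw, poleDiv, poles_apply]; exact le_max_left _ _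
    have h2 := Finsupp.le_def.mp hle Q
    rw [redDiv_single, hP, Finsupp.single_eq_same, hQ] at h2
    omega
  have hsum : ∑ P ∈ Df.support.filter (fun P => redPlace h P = Q), Df P = 1 := by
    have := congrArg (fun X : Divisor (ResidueField A) Fk => X Q) hdiv
    simp only [redDiv_apply, Finsupp.mapDomain, Finsupp.sum_apply, Finsupp.single_apply] at this
    rw [Finset.sum_filter]
    exact this.trans hQ1
  obtain ⟨P, hPmem, hP0⟩ := Finset.exists_ne_zero_of_sum_ne_zero (hsum.trans_ne one_ne_zero)
  have hPQ := (Finset.mem_filter.mp hPmem).2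
  have huni : ∀ P', redPlace h P' = Q → Df P' ≠ 0 → P' = P := fun P' h' h0 => by
    by_contra hne
    have hm' : P' ∈ Df.support.filter (fun P => redPlace h P = Q) :=
      Finset.mem_filter.mpr ⟨Finsupp.mem_support_iff.mpr h0, h'⟩
    have h1 := Finset.add_le_sum (fun i hi => hnn i (Finset.mem_filter.mp hi).2) hm' hPmem hne
    rw [hsum] at h1
    have := hnn P' h'
    have := hnn P hPQ
    omega
  refine ⟨P, hPQ, fun σ hσ => huni _ ?_ ?_⟩
  · have h1 := redDiv_galF hA hNA hσ (Finsupp.single P (1 : ℤ))
    rw [SemilinearAut.smul_single, redDiv_single, redDiv_single] at h1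
    exact ((Finsupp.single_left_inj one_ne_zero).mp h1).trans hPQ
  · rw [hDf, div_apply] at hP0 ⊢
    rw [show (f : Fb) = galF N σ • (f : Fb) from (hfix σ hσ).symm, SemilinearAut.ord_smul]
    exact hP0

end Level

end Fermat.Agent.FiniteFlat
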