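import Fermat.Agent.FiniteFlat.Reduction
import Fermat.Agent.FiniteFlat.RelNorm
import Fermat.Agent.FF.Along

/-!
# Descent of good reduction

If a finite extension of a function field has good reduction, compatibly with lattices and with
equal degrees, the genus of the reduced base is the genus of the base: norms of lifts give
reductions with all prescribed vanishing orders, and a fixed denominator does the rest.
-/

set_option autoImplicit false
set_option synthInstance.maxHeartbeats 400000
set_option maxHeartbeats 1000000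
set_option linter.unusedSectionVars false

noncomputable section

open IsLocalRing AlgebraicCurve IntermediateField
open Fermat.Agent.Arith Fermat.Agent.FF
open scoped Classical

namespace Fermat.Agent.FiniteFlat

section Tower

variable {K F F' : Type*} [Field K] [Field F] [Field F'] [Algebra K F] [Algebra K F']
  [Algebra F F'] [IsScalarTower K F F'] [FiniteDimensional F F'] [IsFunctionField K F]
  [IsFunctionField K F']

theorem poles_algebraMap_apply (x : F) (w : Place K F') :
    poles K (algebraMap F F' x) w = (w.ramificationIndex F : ℤ) * poles K x (w.restrict F) := by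
  rw [poles_apply, poles_apply, w.ord_restrict (F := F)]
  have he : (1 : ℤ) ≤ w.ramificationIndex F := by exact_mod_cast e_pos (F := F) w
  rcases le_or_gt 0 ((w.restrict F).ord x) with h | h
  · have : (0 : ℤ) ≤ w.ramificationIndex F * (w.restrict F).ord x := mul_nonneg (by omega) h
    rw [max_eq_left (by omega), max_eq_left (by omega), mul_zero]
  · have : (w.ramificationIndex F : ℤ) * (w.restrict F).ord x < 0 :=
      mul_neg_of_pos_of_neg (by omega) h
    rw [max_eq_right (by omega), max_eq_right (by omega)]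
    ring

/-- Pullback of functions with poles bounded by multiples of the poles of `x`. -/
theorem algebraMap_mem_iff {x : F} {m : ℕ} {f : F} :
    algebraMap F F' f ∈ riemannRochSpace ((m : ℤ) • poles K (algebraMap F F' x)) ↔
      f ∈ riemannRochSpace ((m : ℤ) • poles K x) := by
  rcases eq_or_ne f 0 with rfl | hf
  · simp
  have hf' : algebraMap F F' f ≠ 0 := (map_ne_zero _).mpr hf
  simp only [mem_riemannRochSpace', Finsupp.smul_apply, smul_eq_mul]
  constructor
  · intro h v
    obtain ⟨w, rfl⟩ := exists_restrict_eq (F' := F') v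
    have h1 := le_ord_of_mem_ordGe w hf' (h w)
    rw [poles_algebraMap_apply, w.ord_restrict (F := F)] at h1
    refine mem_ordGe_of_le _ (le_of_mul_le_mul_left ?_
      (show (0 : ℤ) < w.ramificationIndex F by exact_mod_cast e_pos (F := F) w))
    linarith
  · intro h w
    have h1 := le_ord_of_mem_ordGe _ hf (h (w.restrict F))
    refine mem_ordGe_of_le _ ?_
    rw [poles_algebraMap_apply, w.ord_restrict (F := F)]
    have := mul_le_mul_of_nonneg_left h1 (Int.natCast_nonneg (w.ramificationIndex F))
    linarith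

theorem norm_mem_riemannRochSpace {x : F} {m : ℕ} {g : F'}
    (hg : g ∈ riemannRochSpace ((m : ℤ) • poles K (algebraMap F F' x))) :
    Algebra.norm F g ∈ riemannRochSpace (((Module.finrank F F' * m : ℕ) : ℤ) • poles K x) := by
  rcases eq_or_ne g 0 with rfl | hg0
  · rw [Algebra.norm_zero]
    exact Submodule.zero_mem _
  rw [mem_riemannRochSpace'] at hg ⊢
  intro v
  refine mem_ordGe_of_le _ ?_
  rw [Finsupp.smul_apply, smul_eq_mul, ord_norm v hg0]
  have hb : ∀ w ∈ v.fiber F', (-(m * poles K x v)) * (w.ramificationIndex F * w.inertiaDeg F : ℤ) ≤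
      w.ord g * (w.inertiaDeg F : ℤ) := fun w hw => by
    have h1 := le_ord_of_mem_ordGe w hg0 (hg w)
    rw [Finsupp.smul_apply, smul_eq_mul, poles_algebraMap_apply, Place.mem_fiber.mp hw] at h1
    rw [← mul_assoc]
    refine mul_le_mul_of_nonneg_right ?_ (Int.natCast_nonneg _)
    linarith
  refine le_trans (le_of_eq ?_) (Finset.sum_le_sum hb)
  rw [← Finset.mul_sum, sum_ramification_inertia (F' := F') v]
  push_cast
  ring

theorem inertiaDeg_eq_one [IsAlgClosed K] (w : Place K F') : w.inertiaDeg F = 1 := by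
  have := w.deg_restrict_mul_inertiaDeg (F := F)
  rwa [deg_eq_one, deg_eq_one, one_mul] at this

theorem degree_poles_algebraMap {x : F} (hx : Transcendental K x) :
    Divisor.degree (poles K (algebraMap F F' x)) =
      Divisor.degree (poles K x) * Module.finrank F F' := by
  rw [degree_poles hx, degree_poles (transcendental_algebraMap hx),
    (finite_and_finrank_adjoin_algebraMap (F' := F') hx).2, Nat.cast_mul]

end Tower

section Curve

variable {K E : Type*} [Field K] [Field E] [Algebra K E] [IsFunctionField K E] [IsAlgClosed K]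

/-- Functions with exact orders at finitely many places. -/
theorem exists_ord_eq {c : ℤ}
    (hc : ∀ D : Divisor K E, c ≤ Divisor.degree D → ell K D = Divisor.degree D + 1 - genusFF K E)
    {D : Divisor K E} (hD : c + 1 ≤ Divisor.degree D) (S : Finset (Place K E)) :
    ∃ f ∈ riemannRochSpace D, ∀ v ∈ S, f ≠ 0 ∧ v.ord f = -D v := by
  obtain ⟨f, hf, hfn⟩ := exists_exact (riemannRochSpace D) S (fun v => -D v + 1)
    fun v _ => exists_notMem_ordGe hc hD v
  refine ⟨f, hf, fun v hv => ?_⟩
  have h0 : f ≠ 0 := fun e => hfn v hv (e ▸ Submodule.zero_mem _)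
  refine ⟨h0, le_antisymm ?_ (le_ord_of_mem_ordGe v h0 (mem_riemannRochSpace'.mp hf v))⟩
  by_contra! hlt
  exact hfn v hv (mem_ordGe_of_le v (by omega))

/-- A subspace containing `L(D - Δ)` and functions of every intermediate order is `L(D)`. -/
theorem riemannRochSpace_le_of_orders {c : ℤ}
    (hc : ∀ D : Divisor K E, c ≤ Divisor.degree D → ell K D = Divisor.degree D + 1 - genusFF K E)
    {D Δ : Divisor K E} (hΔ : 0 ≤ Δ) (hdeg : c + Divisor.degree Δ ≤ Divisor.degree D)
    {W : Submodule K E} (hWD : W ≤ riemannRochSpace D) (hsub : riemannRochSpace (D - Δ) ≤ W)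
    (hu : ∀ Q ∈ Δ.support, ∀ n : ℕ, (n : ℤ) < Δ Q → ∃ u ∈ W, u ≠ 0 ∧ Q.ord u = -D Q + n ∧
      ∀ R ∈ Δ.support, R ≠ Q → u ∈ ordGe R (-D R + Δ R)) :
    riemannRochSpace D ≤ W := by
  have key : ∀ X : Divisor K E, 0 ≤ X → X ≤ Δ → riemannRochSpace (D - Δ + X) ≤ W := by
    intro X hX
    refine effective_induction (p := fun X => X ≤ Δ → riemannRochSpace (D - Δ + X) ≤ W)
      (fun _ => by rwa [add_zero]) (fun Q X hX ih hle => ?_) hX
    have hv : (0 : Divisor K E) ≤ Finsupp.single Q 1 := Finsupp.le_def.mpr fun w => by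
      rcases eq_or_ne w Q with rfl | hw <;> simp [*]
    have hXle : X ≤ Δ := le_trans (le_add_of_nonneg_left hv) hle
    have hQ := Finsupp.le_def.mp hle Q
    have hXQ := Finsupp.le_def.mp hX Q
    simp only [Finsupp.add_apply, Finsupp.single_eq_same, Finsupp.coe_zero, Pi.zero_apply] at hQ hXQ
    obtain ⟨u, huW, hu0, huQ, huR⟩ := hu Q (Finsupp.mem_support_iff.mpr (by omega))
      (Δ Q - X Q - 1).toNat (by omega)
    have humem : u ∈ riemannRochSpace (D - Δ + (Finsupp.single Q 1 + X)) := by
      rw [mem_riemannRochSpace']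
      intro R
      simp only [Finsupp.add_apply, Finsupp.sub_apply]
      rcases eq_or_ne R Q with rfl | hR
      · refine mem_ordGe_of_le R ?_
        rw [huQ, Finsupp.single_eq_same]
        omega
      · rw [Finsupp.single_eq_of_ne hR]
        by_cases hRs : R ∈ Δ.support
        · refine ordGe_anti R ?_ (huR R hRs hR)
          have := Finsupp.le_def.mp hX R
          simp only [Finsupp.coe_zero, Pi.zero_apply] at this
          omega
        · have h0 := Finsupp.notMem_support_iff.mp hRs
          have h1 := Finsupp.le_def.mp hX R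
          have h2 := Finsupp.le_def.mp hXle R
          simp only [Finsupp.coe_zero, Pi.zero_apply] at h1
          refine ordGe_anti R ?_ (mem_riemannRochSpace'.mp (hWD huW) R)
          omega
    have hunot : u ∉ riemannRochSpace (D - Δ + X) := fun hmem => by
      have := le_ord_of_mem_ordGe Q hu0 (mem_riemannRochSpace'.mp hmem Q)
      simp only [Finsupp.add_apply, Finsupp.sub_apply] at this
      omega
    have hdX : 0 ≤ Divisor.degree X := degree_nonneg hX
    set L0 := riemannRochSpace (D - Δ + X) with hL0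
    have hsup : L0 ⊔ K ∙ u ≤ riemannRochSpace (D - Δ + (Finsupp.single Q 1 + X)) :=
      sup_le (riemannRochSpace_mono (add_le_add le_rfl (le_add_of_nonneg_left hv)))
        ((Submodule.span_singleton_le_iff_mem _ _).mpr humem)
    have hlt : Module.finrank K L0 < Module.finrank K ↥(L0 ⊔ K ∙ u) := by
      have : FiniteDimensional K ↥(L0 ⊔ K ∙ u) := Submodule.finiteDimensional_of_le hsup
      refine Submodule.finrank_lt_finrank_of_lt (lt_of_le_of_ne le_sup_left fun e => hunot ?_)
      rw [e]
      exact Submodule.mem_sup_right (Submodule.mem_span_singleton_self u)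
    have h3 := hc (D - Δ + X) (by rw [map_add, map_sub]; omega)
    have h4 := hc (D - Δ + (Finsupp.single Q 1 + X))
      (by rw [map_add, map_sub, map_add, degree_single_one]; omega)
    rw [map_add, map_sub] at h3
    rw [map_add, map_sub, map_add, degree_single_one] at h4
    unfold ell at h3 h4
    have heq := Submodule.eq_of_le_of_finrank_le hsup (by rw [← hL0] at h3; omega)
    rw [← heq]
    exact sup_le (ih hXle) ((Submodule.span_singleton_le_iff_mem _ _).mpr huW)
  simpa using key Δ hΔ le_rfl

/-- One more multiple of the poles of `x` is reached by multiplying by `x`. -/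
theorem riemannRochSpace_poles_succ_le {c : ℤ}
    (hc : ∀ D : Divisor K E, c ≤ Divisor.degree D → ell K D = Divisor.degree D + 1 - genusFF K E)
    {x : E} (hx : x ≠ 0) {m : ℕ} (_hm : 1 ≤ m)
    (hdeg : c ≤ ((m : ℤ) - 1) * Divisor.degree (poles K x)) :
    riemannRochSpace (((m + 1 : ℕ) : ℤ) • poles K x) ≤
      riemannRochSpace ((m : ℤ) • poles K x) ⊔
        (riemannRochSpace ((m : ℤ) • poles K x)).map (LinearMap.mulRight K x) := by
  set P := riemannRochSpace ((m : ℤ) • poles K x) with hP
  set Q := P.map (LinearMap.mulRight K x) with hQ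
  have hinj : Function.Injective (LinearMap.mulRight K x) := mul_left_injective₀ hx
  have hxmem : x ∈ riemannRochSpace ((1 : ℤ) • poles K x) := by
    rw [mem_riemannRochSpace']
    intro v
    refine mem_ordGe_of_le v ?_
    simp only [one_smul, poles_apply]
    omega
  have hmono : P ≤ riemannRochSpace (((m + 1 : ℕ) : ℤ) • poles K x) := by
    refine riemannRochSpace_mono (Finsupp.le_def.mpr fun v => ?_)
    simp only [Finsupp.smul_apply, smul_eq_mul]
    refine mul_le_mul_of_nonneg_right (by omega) ?_
    rw [poles_apply]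
    omega
  have hQle : Q ≤ riemannRochSpace (((m + 1 : ℕ) : ℤ) • poles K x) := by
    rintro _ ⟨a, ha, rfl⟩
    have := mul_mem_riemannRochSpace ha hxmem
    rwa [← add_smul, show ((m : ℤ) + 1) = ((m + 1 : ℕ) : ℤ) by push_cast; ring] at this
  have hinter : P ⊓ Q ≤
      (riemannRochSpace (((m : ℤ) - 1) • poles K x)).map (LinearMap.mulRight K x) := by
    rintro _ ⟨hz, a, ha, rfl⟩
    refine ⟨a, ?_, rfl⟩
    rcases eq_or_ne a 0 with rfl | ha0
    · exact Submodule.zero_mem _
    show a ∈ riemannRochSpace _
    rw [mem_riemannRochSpace']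
    intro v
    have h1 := le_ord_of_mem_ordGe v ha0 (mem_riemannRochSpace'.mp ha v)
    have h2 := le_ord_of_mem_ordGe v (mul_ne_zero ha0 hx) (mem_riemannRochSpace'.mp hz v)
    refine mem_ordGe_of_le v ?_
    simp only [Finsupp.smul_apply, smul_eq_mul, poles_apply, v.ord_mul ha0 hx] at h1 h2 ⊢
    rcases le_or_gt 0 (v.ord x) with h | h
    · rw [max_eq_left (by omega)] at h1 h2 ⊢
      simp only [mul_zero, neg_zero] at h1 h2 ⊢
      omega
    · rw [max_eq_right (by omega)] at h1 h2 ⊢
      nlinarith
  have : FiniteDimensional K Q := Submodule.finiteDimensional_of_le hQle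
  have : FiniteDimensional K ↥(P ⊔ Q) := Submodule.finiteDimensional_of_le (sup_le hmono hQle)
  refine (Submodule.eq_of_le_of_finrank_le (sup_le hmono hQle) ?_).ge
  have e1 := Submodule.finrank_sup_add_finrank_inf_eq P Q
  have e2 : Module.finrank K Q = Module.finrank K P :=
    ((Submodule.equivMapOfInjective _ hinj P).finrank_eq).symm
  have e3 := Submodule.finrank_mono hinter
  rw [← (Submodule.equivMapOfInjective _ hinj
    (riemannRochSpace (((m : ℤ) - 1) • poles K x))).finrank_eq] at e3
  have hd : 0 ≤ Divisor.degree (poles K x) := degree_nonneg (poles_nonneg _)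
  have h3 := hc (((m : ℤ) - 1) • poles K x) (by rw [map_zsmul, smul_eq_mul]; exact hdeg)
  have h4 := hc ((m : ℤ) • poles K x) (by rw [map_zsmul, smul_eq_mul]; nlinarith)
  have h5 := hc (((m + 1 : ℕ) : ℤ) • poles K x)
    (by rw [map_zsmul, smul_eq_mul]; push_cast; nlinarith)
  rw [map_zsmul, smul_eq_mul] at h3 h4 h5
  unfold ell at h3 h4 h5
  rw [← hP] at h4
  push_cast at h5
  zify at e1 e2 e3 ⊢
  linarith

end Curve

variable {A : ValuationSubring QBar} {F F' Fk Fk' : Type*}
  [Field F] [Field F'] [Field Fk] [Field Fk'] [Algebra QBar F] [Algebra QBar F']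
  [Algebra (ResidueField A) Fk] [Algebra (ResidueField A) Fk'] [Algebra F F'] [Algebra Fk Fk']
  [IsScalarTower QBar F F'] [IsScalarTower (ResidueField A) Fk Fk']
  [FiniteDimensional F F'] [FiniteDimensional Fk Fk']
  [IsFunctionField QBar F] [IsFunctionField QBar F']
  [IsFunctionField (ResidueField A) Fk] [IsFunctionField (ResidueField A) Fk']
  {h : RedLattice A F Fk} {h' : GoodRed A F' Fk'} (hC : LatticeCompat h h'.toRedLattice)
  (hfr : Module.finrank F F' = Module.finrank Fk Fk')
  {x : h.S} (hx : Transcendental (ResidueField A) (redF h x))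
  (hdeg : Module.finrank (ResidueField A)⟮redF h x⟯ Fk = Module.finrank QBar⟮(x : F)⟯ F)

include hC hfr hx hdeg

theorem redDiv_poles : redDiv h' (poles QBar (algebraMap F F' (x : F))) =
    poles (ResidueField A) (algebraMap Fk Fk' (redF h x)) := by
  have hxF : Transcendental QBar (x : F) := transcendental_of_redF h x hx
  have hx' := transcendental_algebraMap (F' := Fk') hx
  have hne : algebraMap Fk Fk' (redF h x) ≠ 0 := fun e => hx' (e ▸ isAlgebraic_zero)
  have hd : redDiv h' (div QBar (algebraMap F F' (x : F))) =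
      div (ResidueField A) (algebraMap Fk Fk' (redF h x)) := by
    rw [← coe_incl hC x, redDiv_div h' (incl hC x) (by rw [redF_incl]; exact hne), redF_incl]
  set P := poles QBar (algebraMap F F' (x : F)) with hP
  have hz : 0 ≤ redDiv h' P + div (ResidueField A) (algebraMap Fk Fk' (redF h x)) := by
    rw [← hd, ← map_add]
    refine redDiv_nonneg h' (Finsupp.le_def.mpr fun v => ?_)
    simp only [Finsupp.coe_zero, Pi.zero_apply, Finsupp.add_apply, hP, poles_apply, div_apply]
    omega
  refine (eq_of_le_of_degree_le (Finsupp.le_def.mpr fun v => ?_) ?_).symm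
  · have h1 := Finsupp.le_def.mp hz v
    have h2 := Finsupp.le_def.mp (redDiv_nonneg h' (poles_nonneg (K := QBar)
      (algebraMap F F' (x : F)))) v
    simp only [Finsupp.coe_zero, Pi.zero_apply, Finsupp.add_apply, div_apply] at h1 h2
    rw [← hP] at h2
    rw [poles_apply]
    omega
  · rw [degree_redDiv, hP, degree_poles_algebraMap hxF, degree_poles_algebraMap hx, hfr,
      degree_poles hxF, degree_poles hx, hdeg]

theorem redW_le_riemannRochSpace {m : ℕ}
    (hm : bigDeg h' ≤ (m : ℤ) * Divisor.degree (poles QBar (algebraMap F F' (x : F)))) :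
    redW h (riemannRochSpace ((m : ℤ) • poles QBar (x : F))) ≤
      riemannRochSpace ((m : ℤ) • poles (ResidueField A) (redF h x)) := by
  rintro _ ⟨f, hf, rfl⟩
  rw [← algebraMap_mem_iff (F' := Fk'), ← redF_incl hC f]
  have := redF_mem_redW h'.toRedLattice (incl hC f) ((algebraMap_mem_iff (F' := F')).mpr hf)
  rwa [redW_riemannRochSpace h' (by rw [map_zsmul, smul_eq_mul]; exact hm), map_zsmul,
    redDiv_poles hC hfr hx hdeg] at this

/-- Norms of lifts give reductions with prescribed orders. -/
theorem exists_norm_ord {c : ℤ}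
    (hc : ∀ D : Divisor (ResidueField A) Fk', c ≤ Divisor.degree D →
      ell (ResidueField A) D = Divisor.degree D + 1 - genusFF (ResidueField A) Fk')
    (S : Finset (Place (ResidueField A) Fk)) (n : Place (ResidueField A) Fk → ℕ) {m : ℕ}
    (hm : bigDeg h' ≤ (m : ℤ) * Divisor.degree (poles QBar (algebraMap F F' (x : F))))
    (hm' : c + 1 + ∑ Q ∈ S, (n Q : ℤ) ≤
      (m : ℤ) * Divisor.degree (poles (ResidueField A) (algebraMap Fk Fk' (redF h x)))) :
    ∃ z ∈ redW h (riemannRochSpace (((Module.finrank F F' * m : ℕ) : ℤ) • poles QBar (x : F))),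
      ∀ Q ∈ S, z ≠ 0 ∧ Q.ord z =
        -((((Module.finrank F F' * m : ℕ) : ℤ) • poles (ResidueField A) (redF h x)) Q) + n Q := by
  choose w0 hw0 using fun Q : Place (ResidueField A) Fk => exists_restrict_eq (F' := Fk') Q
  set E' := poles (ResidueField A) (algebraMap Fk Fk' (redF h x)) with hE'
  set X : Divisor (ResidueField A) Fk' := ∑ Q ∈ S, Finsupp.single (w0 Q) (n Q : ℤ) with hX
  have hXw : ∀ Q ∈ S, ∀ w ∈ Q.fiber Fk', X w = if w = w0 Q then (n Q : ℤ) else 0 := by
    intro Q hQ w hw
    rw [hX, Finsupp.finsetSum_apply, Finset.sum_eq_single Q]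
    · rw [Finsupp.single_apply]
      exact if_congr eq_comm rfl rfl
    · intro R _ hR
      refine Finsupp.single_eq_of_ne ?_
      rintro rfl
      exact hR ((hw0 R).symm.trans (Place.mem_fiber.mp hw))
    · exact fun h => absurd hQ h
  have hX0 : 0 ≤ X := Finset.sum_nonneg fun Q _ => Finsupp.le_def.mpr fun w => by
    rcases eq_or_ne w (w0 Q) with rfl | hw <;> simp [*]
  obtain ⟨z', hz', hz'ord⟩ := exists_ord_eq hc (D := (m : ℤ) • E' - X) (by
      rw [map_sub, map_zsmul, smul_eq_mul, hX, map_sum]
      simp only [degree_single_one]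
      omega) (S.biUnion fun Q => Q.fiber Fk')
  have hz'2 : z' ∈ riemannRochSpace ((m : ℤ) • E') :=
    riemannRochSpace_mono (sub_le_self _ hX0) hz'
  rw [hE', ← redDiv_poles hC hfr hx hdeg, ← map_zsmul,
    ← redW_riemannRochSpace h' (by rw [map_zsmul, smul_eq_mul]; exact hm)] at hz'2
  obtain ⟨g, hg, hgz⟩ := hz'2
  obtain ⟨hN, hNred⟩ := exists_redF_norm hC hfr g
  refine ⟨_, redF_mem_redW h ⟨_, hN⟩ (norm_mem_riemannRochSpace hg), fun Q hQ => ?_⟩
  have hQmem : ∀ w ∈ Q.fiber Fk', w ∈ S.biUnion fun Q => Q.fiber Fk' := fun w hw =>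
    Finset.mem_biUnion.mpr ⟨Q, hQ, hw⟩
  have hz0 : z' ≠ 0 := (hz'ord (w0 Q) (hQmem _ (Place.mem_fiber.mpr (hw0 Q)))).1
  rw [hNred, hgz]
  refine ⟨Algebra.norm_ne_zero_iff.mpr hz0, ?_⟩
  rw [ord_norm Q hz0]
  have h1 : ∀ w ∈ Q.fiber Fk', w.ord z' * (w.inertiaDeg Fk : ℤ) =
      -((m : ℤ) * poles (ResidueField A) (redF h x) Q) *
        ((w.ramificationIndex Fk : ℤ) * (w.inertiaDeg Fk : ℤ)) +
        if w = w0 Q then (n Q : ℤ) else 0 := fun w hw => by
    rw [(hz'ord w (hQmem w hw)).2, Finsupp.sub_apply, Finsupp.smul_apply, smul_eq_mul, hE',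
      poles_algebraMap_apply, Place.mem_fiber.mp hw, hXw Q hQ w hw, inertiaDeg_eq_one]
    push_cast
    ring
  rw [Finset.sum_congr rfl h1, Finset.sum_add_distrib, ← Finset.mul_sum,
    sum_ramification_inertia (F' := Fk') Q, Finset.sum_ite_eq', if_pos
    (Place.mem_fiber.mpr (hw0 Q)), Finsupp.smul_apply, smul_eq_mul, hfr]
  push_cast
  ring

/-- The genus of the base is the genus of its reduction. -/
theorem genusFF_eq_of_tower : genusFF (ResidueField A) Fk = genusFF QBar F := by
  set k := ResidueField A
  have hxF : Transcendental QBar (x : F) := transcendental_of_redF h x hx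
  obtain ⟨c, hc1, hc⟩ := exists_threshold (K := k) (F := Fk)
  obtain ⟨cF, hcF1, hcF⟩ := exists_threshold (K := QBar) (F := F)
  obtain ⟨c', hc'1, hc'⟩ := exists_threshold (K := k) (F := Fk')
  set E := poles QBar (x : F) with hE
  set Eb := poles k (redF h x) with hEb
  set E' := poles QBar (algebraMap F F' (x : F)) with hE'
  set Eb' := poles k (algebraMap Fk Fk' (redF h x)) with hEb'
  have hdE : 1 ≤ Divisor.degree E := by
    rw [hE, degree_poles hxF]
    have := finiteDimensional_adjoin hxF
    exact_mod_cast (Module.finrank_pos : 0 < Module.finrank QBar⟮(x : F)⟯ F)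
  have hdEb : Divisor.degree Eb = Divisor.degree E := by
    rw [hEb, hE, degree_poles hx, degree_poles hxF, hdeg]
  have hd : 1 ≤ Module.finrank F F' := Module.finrank_pos
  have hdE' : 1 ≤ Divisor.degree E' := by
    rw [hE', degree_poles_algebraMap hxF, ← hE]
    exact one_le_mul_of_one_le_of_one_le hdE (by exact_mod_cast hd)
  have hdEb' : 1 ≤ Divisor.degree Eb' := by
    rw [hEb', degree_poles_algebraMap hx, ← hEb, hdEb, ← hfr]
    exact one_le_mul_of_one_le_of_one_le hdE (by exact_mod_cast hd)
  -- a common denominator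
  set m1 : ℕ := c.toNat + 1 with hm1
  let b := Module.finBasis k (riemannRochSpace ((m1 : ℤ) • Eb))
  choose s hs using fun i => h.surj ((b i : riemannRochSpace ((m1 : ℤ) • Eb)) : Fk)
  set Pd : Divisor QBar F := ∑ i, poles QBar (s i : F) with hPd
  set m0 : ℕ := m1 + (cF + genusFF QBar F + Divisor.degree Pd).toNat with hm0
  obtain ⟨g, hg0, hgD⟩ := exists_effective_of_ell_pos (D := (m0 : ℤ) • E - Pd) (by
    have h1 : (m0 : ℤ) ≤ m0 * Divisor.degree E := le_mul_of_one_le_right (Int.natCast_nonneg _) hdE
    have h2 : cF + genusFF QBar F + Divisor.degree Pd < m0 := by omega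
    have := hcF ((m0 : ℤ) • E - Pd) (by rw [map_sub, map_zsmul, smul_eq_mul]; omega)
    rw [map_sub, map_zsmul, smul_eq_mul] at this
    omega)
  obtain ⟨a, g0, ha, hg0r, rfl⟩ := exists_primitive h hg0
  have hg0' : (g0 : F) ∈ riemannRochSpace ((m0 : ℤ) • E - Pd) := by
    rw [mem_riemannRochSpace']
    intro v
    refine mem_ordGe_of_le v ?_
    have h1 := Finsupp.le_def.mp hgD v
    have h2 : (g0 : F) ≠ 0 := fun e => hg0 (by rw [e, smul_zero])
    rw [div_smul ha h2] at h1
    simp only [Finsupp.coe_zero, Pi.zero_apply, Finsupp.add_apply, div_apply] at h1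
    omega
  set Dd := redF h g0 with hDd
  set W : ℕ → Submodule k Fk := fun M => redW h (riemannRochSpace ((M : ℤ) • E)) with hW
  have hEnn : ∀ {i j : ℤ}, i ≤ j → i • E ≤ j • E := fun {i j} hij => Finsupp.le_def.mpr fun v => by
    simp only [Finsupp.smul_apply, smul_eq_mul, hE]
    refine mul_le_mul_of_nonneg_right hij ?_
    rw [poles_apply]
    omega
  have hxW : redF h x ∈ W 1 := redF_mem_redW h x (by
    rw [mem_riemannRochSpace']
    intro v
    refine mem_ordGe_of_le v ?_
    simp only [Nat.cast_one, one_smul, hE, poles_apply]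
    omega)
  have hclear : ∀ j : ℕ, ∀ z ∈ riemannRochSpace (((m1 + j : ℕ) : ℤ) • Eb), Dd * z ∈ W (m0 + j) := by
    intro j
    induction j with
    | zero =>
      intro z hz
      have he := congrArg Subtype.val (b.sum_repr ⟨z, hz⟩)
      change _ = z at he
      rw [← he, AddSubmonoidClass.coe_finsetSum, Finset.mul_sum]
      refine Submodule.sum_mem _ fun i _ => ?_
      rw [SetLike.val_smul, mul_smul_comm]
      refine Submodule.smul_mem _ _ ?_
      rw [← hs i, hDd, ← map_mul]
      refine redF_mem_redW h _ (riemannRochSpace_mono ?_ (mul_mem_riemannRochSpace hg0'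
        (show (s i : F) ∈ riemannRochSpace (poles QBar (s i : F)) from ?_)))
      · rw [Nat.add_zero, sub_add, sub_le_self_iff, sub_nonneg, hPd]
        exact Finset.single_le_sum (fun i _ => poles_nonneg _) (Finset.mem_univ i)
      · rw [mem_riemannRochSpace']
        intro v
        refine mem_ordGe_of_le v ?_
        simp only [poles_apply]
        omega
    | succ j ih =>
      intro z hz
      have hz' := riemannRochSpace_poles_succ_le hc
        (show redF h x ≠ 0 from fun e => hx (e ▸ isAlgebraic_zero)) (m := m1 + j) (by omega) (by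
          have h1 : (c.toNat : ℤ) ≤ (((m1 + j : ℕ) : ℤ) - 1) := by omega
          have h2 : c ≤ c.toNat := Int.self_le_toNat c
          rw [← hEb, hdEb]
          nlinarith) hz
      obtain ⟨a, ha, _, ⟨a', ha', rfl⟩, rfl⟩ := Submodule.mem_sup.mp hz'
      rw [mul_add, LinearMap.mulRight_apply, ← mul_assoc]
      refine add_mem (redW_mono h (riemannRochSpace_mono (hEnn (by omega))) (ih a ha)) ?_
      refine redW_mono h ?_ (redW_mul_le h _ _ (Submodule.mul_mem_mul (ih a' ha') hxW))
      refine (riemannRochSpace_mul_le _ _).trans (riemannRochSpace_mono ?_)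
      rw [← add_smul]
      exact hEnn (by push_cast; omega)
  -- the conductor bound
  set Δ : Divisor k Fk := (div k Dd + ((m0 : ℤ) - m1) • Eb) ⊔ 0 with hΔ
  set B : ℤ := bigDeg h' + c' + c + cF + m0 + 2 * Divisor.degree Δ + 2 with hB
  set m : ℕ := B.toNat with hm
  set M : ℕ := Module.finrank F F' * m with hM
  have hΔ0 : 0 ≤ Δ := le_sup_right
  have hdΔ : 0 ≤ Divisor.degree Δ := degree_nonneg hΔ0
  have hmB : B ≤ m := Int.self_le_toNat B
  have hbig := three_le_bigDeg h'
  have hrr := one_le_rrBound h'
  have hMm : (m : ℤ) ≤ M := by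
    rw [hM]; exact_mod_cast Nat.le_mul_of_pos_left m (by omega)
  have hME : (M : ℤ) ≤ M * Divisor.degree E := le_mul_of_one_le_right (Int.natCast_nonneg _) hdE
  have hmE' : (m : ℤ) ≤ m * Divisor.degree E' := le_mul_of_one_le_right (Int.natCast_nonneg _) hdE'
  have hmEb' : (m : ℤ) ≤ m * Divisor.degree Eb' :=
    le_mul_of_one_le_right (Int.natCast_nonneg _) hdEb'
  have hWle : W M ≤ riemannRochSpace ((M : ℤ) • Eb) := by
    refine redW_le_riemannRochSpace hC hfr hx hdeg ?_
    have : (M : ℤ) ≤ M * Divisor.degree E' := le_mul_of_one_le_right (Int.natCast_nonneg _) hdE'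
    rw [← hE']
    omega
  have hsub : riemannRochSpace ((M : ℤ) • Eb - Δ) ≤ W M := by
    intro z hz
    rcases eq_or_ne z 0 with rfl | hz0
    · exact Submodule.zero_mem _
    have hj : z / Dd ∈ riemannRochSpace (((m1 + (M - m0) : ℕ) : ℤ) • Eb) := by
      rw [mem_riemannRochSpace']
      intro v
      refine mem_ordGe_of_le v ?_
      have h1 := le_ord_of_mem_ordGe v hz0 (mem_riemannRochSpace'.mp hz v)
      have h2 : (div k Dd + ((m0 : ℤ) - m1) • Eb) v ≤ Δ v := Finsupp.le_def.mp le_sup_left v
      have hcast : ((m1 + (M - m0) : ℕ) : ℤ) = m1 + M - m0 := by omega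
      simp only [Finsupp.add_apply, Finsupp.sub_apply, Finsupp.smul_apply, smul_eq_mul,
        div_apply] at h1 h2 ⊢
      rw [hcast, div_eq_mul_inv, v.ord_mul hz0 (inv_ne_zero hg0r), v.ord_inv]
      linarith
    have := hclear _ _ hj
    rw [mul_div_cancel₀ z hg0r, show m0 + (M - m0) = M by omega] at this
    exact this
  have hle : riemannRochSpace ((M : ℤ) • Eb) ≤ W M := by
    refine riemannRochSpace_le_of_orders hc hΔ0 ?_ hWle hsub fun Q hQ n hn => ?_
    · rw [map_zsmul, smul_eq_mul, hdEb]
      omega
    · set n' : Place k Fk → ℕ := fun R => if R = Q then n else (Δ R).toNat with hn'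
      have hsum : ∑ R ∈ Δ.support, (n' R : ℤ) ≤ Divisor.degree Δ := by
        rw [degree_eq_sum Δ Δ.support subset_rfl]
        refine Finset.sum_le_sum fun R _ => ?_
        have := Finsupp.le_def.mp hΔ0 R
        simp only [Finsupp.coe_zero, Pi.zero_apply] at this
        rw [deg_eq_one, Nat.cast_one, mul_one, hn']
        by_cases hR : R = Q
        · simp only [hR, if_true] at *; omega
        · simp only [if_neg hR]; omega
      obtain ⟨z, hz, hzord⟩ := exists_norm_ord hC hfr hx hdeg hc' Δ.support n' (m := m)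
        (by rw [← hE']; omega)
        (by rw [← hEb']; refine le_trans (add_le_add le_rfl hsum) ?_; omega)
      refine ⟨z, hz, (hzord Q hQ).1, ?_, fun R hR hRQ => mem_ordGe_of_le R ?_⟩
      · rw [(hzord Q hQ).2, hn']
        simp [hM, hEb]
      · rw [(hzord R hR).2, hn']
        simp only [if_neg hRQ]
        have := Finsupp.le_def.mp hΔ0 R
        simp only [Finsupp.coe_zero, Pi.zero_apply] at this
        rw [Int.toNat_of_nonneg this, hEb, hM]
  have heq := le_antisymm hWle hle
  have e1 := hc ((M : ℤ) • Eb) (by rw [map_zsmul, smul_eq_mul, hdEb]; omega)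
  have e2 := hcF ((M : ℤ) • E) (by rw [map_zsmul, smul_eq_mul]; omega)
  rw [map_zsmul, smul_eq_mul] at e1 e2
  rw [hdEb] at e1
  unfold ell at e1 e2
  rw [← heq, hW, (finrank_redW h _).2] at e1
  have hg : (genusFF k Fk : ℤ) = genusFF QBar F := by linarith
  exact_mod_cast hg

end Fermat.Agent.FiniteFlat
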