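import Fermat.Agent.FiniteFlat.Fixed
import Fermat.Agent.FiniteFlat.PlaceReduction

/-!
# Effective representatives of torsion classes

A finite group of torsion classes of `J₀(N)` has effective representatives of degree the genus,
unique in their classes, with reduction depending only on the reduced class, and moved by inertia
as the classes are.
-/

set_option autoImplicit false
set_option linter.unusedSectionVars false

noncomputable section

open IsLocalRing ModularCurve AlgebraicCurve
open Fermat.Agent.Arith Fermat.Agent.FF Fermat.Agent.RedTorsion Fermat.Agent.EichlerShimura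

namespace Fermat.Agent.FiniteFlat

attribute [local instance 1100] SubalgebraClass.toAlgebra
attribute [-instance] IsLocalRing.ResidueField.algebraOfIsIntegral

section Classes

variable {K E : Type*} [Field K] [Field E] [Algebra K E] [IsFunctionField K E]

theorem exists_eq_add_div_of_mk_eq {D D' : Divisor.degZero (K := K) (F := E)}
    (h : Pic0.mk D = Pic0.mk D') :
    ∃ f : E, f ≠ 0 ∧ (D : Divisor K E) = (D' : Divisor K E) + div K f := by
  have h0 : ((QuotientAddGroup.mk (D - D') : Pic0 K E)) = 0 := by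
    rw [QuotientAddGroup.mk_sub, sub_eq_zero]
    exact h
  obtain ⟨f, hf, hD⟩ := AddSubgroup.mem_addSubgroupOf.mp ((QuotientAddGroup.eq_zero_iff _).mp h0)
  refine ⟨f, hf, Finsupp.ext fun v => ?_⟩
  have := hD v
  rw [AddSubgroupClass.coe_sub, Finsupp.sub_apply] at this
  rw [Finsupp.add_apply, div_apply]
  omega

theorem mk_eq_of_eq_add_div {D D' : Divisor.degZero (K := K) (F := E)} {f : E} (hf : f ≠ 0)
    (h : (D : Divisor K E) = (D' : Divisor K E) + div K f) : Pic0.mk D = Pic0.mk D' := by
  refine sub_eq_zero.mp ?_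
  show ((QuotientAddGroup.mk (D - D') : Pic0 K E)) = 0
  refine (QuotientAddGroup.eq_zero_iff _).mpr (AddSubgroup.mem_addSubgroupOf.mpr
    ⟨f, hf, fun v => ?_⟩)
  rw [AddSubgroupClass.coe_sub, Finsupp.sub_apply, h, Finsupp.add_apply, div_apply]
  omega

theorem smul_eq_mapDomain (g : SemilinearAut K E) (D : Divisor K E) :
    g • D = Finsupp.mapDomain (g • ·) D := by
  induction D using Finsupp.induction_linear with
  | zero => rw [smul_zero, Finsupp.mapDomain_zero]
  | add a b ha hb => rw [smul_add, Finsupp.mapDomain_add, ha, hb]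
  | single v n => rw [SemilinearAut.smul_single, Finsupp.mapDomain_single]

theorem smul_nonneg_divisor (g : SemilinearAut K E) {D : Divisor K E} (hD : 0 ≤ D) : 0 ≤ g • D :=
  Finsupp.le_def.mpr fun v => by
    rw [SemilinearAut.divisor_smul_apply]
    exact Finsupp.le_def.mp hD _

/-- The reduction of a principal divisor is principal. -/
theorem exists_redDiv_div_eq {A : ValuationSubring QBar} {F Fk : Type*} [Field F] [Algebra QBar F]
    [Field Fk] [Algebra (ResidueField A) Fk] [IsFunctionField QBar F]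
    [IsFunctionField (ResidueField A) Fk] (h : GoodRed A F Fk) {f : F} (hf : f ≠ 0) :
    ∃ a : Fk, a ≠ 0 ∧ redDiv h (FF.div QBar f) = FF.div (ResidueField A) a := by
  obtain ⟨c, g, hc, hg, hcg⟩ := exists_primitive h.toRedLattice hf
  refine ⟨_, hg, ?_⟩
  have hg0 : (g : F) ≠ 0 := fun e => hg (by rw [show g = 0 from Subtype.ext e, map_zero])
  have hdc : FF.div QBar f = FF.div QBar (g : F) := by
    rw [hcg, Algebra.smul_def, FF.div_mul ((map_ne_zero _).mpr hc) hg0]
    refine add_eq_right.mpr (Finsupp.ext fun v => ?_)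
    rw [div_apply, FF.ord_algebraMap, Finsupp.coe_zero, Pi.zero_apply]
  rw [hdc]
  exact redDiv_div h g hg

end Classes

variable {A : ValuationSubring QBar} {l N : ℕ} [NeZero N]
  [IsFunctionField QBar (modularFunctionFieldBar N)]
  [IsFunctionField (ResidueField A) (modularFunctionFieldFullC (ResidueField A) N)]

local notation "Fb" => modularFunctionFieldBar N
local notation "Fk" => modularFunctionFieldFullC (ResidueField A) N

/-- Effective representatives of a group of classes over their reductions. -/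
structure TorsReps (hNA : (N : ResidueField A) ≠ 0) {M : Type} [AddCommGroup M]
    (ι : M →+ JZero N) where
  /-- the representatives -/
  D : M → Divisor QBar (modularFunctionFieldBar N)
  /-- their reductions -/
  Db : Pic0 (ResidueField A) (modularFunctionFieldFullC (ResidueField A) N) →
    Divisor (ResidueField A) (modularFunctionFieldFullC (ResidueField A) N)
  nonneg : ∀ x, 0 ≤ D x
  degree_eq : ∀ x, Divisor.degree (D x) = genusFF QBar (modularFunctionFieldBar N)
  red_eq : ∀ x, redDiv (goodRed hNA) (D x) = Db (reductionModL A N (ι x))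
  ell_eq : ∀ x, ell (ResidueField A) (Db (reductionModL A N (ι x))) = 1
  injective : Function.Injective D
  unique : ∀ x y z D', 0 ≤ D' →
    (∃ f : modularFunctionFieldBar N, f ≠ 0 ∧ D' = D x + D y - D z + FF.div QBar f) →
      D' = D (x + y - z)
  db_eq : ∀ x y z, ∃ f : modularFunctionFieldFullC (ResidueField A) N, f ≠ 0 ∧
    Db (reductionModL A N (ι (x + y - z))) = Db (reductionModL A N (ι x)) +
      Db (reductionModL A N (ι y)) - Db (reductionModL A N (ι z)) + FF.div (ResidueField A) f
  smul_eq : ∀ σ ∈ A.inertiaSubgroupIn ℚ, ∀ x x', ι x' = σ • ι x → galF N σ • D x = D x'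

theorem exists_torsReps (hA : A.LiesOverPrime l) (hl : l.Prime) (hNA : (N : ResidueField A) ≠ 0)
    {M : Type} [AddCommGroup M] [Finite M] (ι : M →+ JZero N) (hι : Function.Injective ι) {n : ℕ}
    (hn : n ≠ 0) (htor : ∀ x, (n : ℤ) • ι x = 0) : Nonempty (TorsReps hNA ι) := by
  classical
  have : IsAlgClosed (ResidueField A) := residueField_isAlgClosed A
  set h := goodRed (A := A) hNA with hh
  set k := ResidueField A
  choose D0 hD0 using fun x => Pic0.mk_surjective (ι x)
  let C : M → Divisor.degZero (K := k) (F := Fk) := fun x =>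
    ⟨redDiv h (D0 x), Divisor.mem_degZero.mpr (by rw [degree_redDiv]; exact (D0 x).2)⟩
  have hcls : ∀ x, reductionModL A N (ι x) = Pic0.mk (C x) := fun x => by
    rw [← hD0 x]
    exact reductionModL_mk_of_torsion (seriesCompat hNA)
      (EichlerShimura.principalGeneratedByIntegral hNA) (D0 x) hn (by rw [hD0]; exact htor x)
  -- the base divisor
  obtain ⟨Bb, hBb0, hBbd, hBbS, hBbl⟩ := exists_generic (fun x => (C x : Divisor k Fk))
    (fun x => (C x).2) (redDiv h (poleDiv N)).support.finite_toSet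
  have hQ : ∀ Q, ∃ P, Bb Q ≠ 0 → redPlace h P = Q ∧
      ∀ σ ∈ A.inertiaSubgroupIn ℚ, galF N σ • P = P := by
    intro Q
    by_cases hQ : Bb Q = 0
    · exact ⟨(FF.exists_place (K := QBar) (F := Fb)).some, fun e => absurd hQ e⟩
    · obtain ⟨P, hP, hfix⟩ := exists_fixed_place hA hl hNA (Finsupp.notMem_support_iff.mp
        fun hm => hBbS Q hQ (Finset.mem_coe.mpr hm))
      exact ⟨P, fun _ => ⟨hP, hfix⟩⟩
  choose Pl hPl using hQ
  set B := Finsupp.mapDomain Pl Bb with hB
  have hredB : redDiv h B = Bb := by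
    rw [redDiv_apply, hB, ← Finsupp.mapDomain_comp]
    exact (Finsupp.mapDomain_congr (g := id) fun Q hQ =>
      (hPl Q (Finsupp.mem_support_iff.mp hQ)).1).trans Finsupp.mapDomain_id
  have hB0 : 0 ≤ B := Finsupp.le_def.mpr fun P => by
    rw [hB, Finsupp.mapDomain, Finsupp.sum_apply, Finsupp.coe_zero, Pi.zero_apply]
    refine Finset.sum_nonneg fun Q _ => ?_
    simp only [Finsupp.single_apply]
    split
    · exact Finsupp.le_def.mp hBb0 Q
    · exact le_rfl
  have hgen : genusFF k Fk = genusFF QBar Fb := genusFF_eq_of_goodRed h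
  have hBd : Divisor.degree B = genusFF QBar Fb := by
    rw [← degree_redDiv h, hredB, hBbd, hgen]
  have hBfix : ∀ σ ∈ A.inertiaSubgroupIn ℚ, galF N σ • B = B := fun σ hσ => by
    rw [smul_eq_mapDomain, hB, ← Finsupp.mapDomain_comp]
    exact Finsupp.mapDomain_congr fun Q hQ => (hPl Q (Finsupp.mem_support_iff.mp hQ)).2 σ hσ
  -- divisors in the classes
  have hell : ∀ x, ell QBar ((D0 x : Divisor QBar Fb) + B) = 1 := fun x => by
    refine le_antisymm ((ell_le_ell_redDiv h _).trans ?_) (one_le_ell_of_degree_eq_genus ?_)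
    · rw [map_add, hredB]
      exact (hBbl x).le
    · rw [map_add, hBd, Divisor.mem_degZero.mp (D0 x).2, zero_add]
  choose f hf hfnn using fun x =>
    exists_effective_of_ell_pos (D := (D0 x : Divisor QBar Fb) + B) (by rw [hell]; norm_num)
  set D : M → Divisor QBar Fb := fun x => (D0 x : Divisor QBar Fb) + B + FF.div QBar (f x) with hD
  have hDu : ∀ x D', 0 ≤ D' →
      (∃ a : Fb, a ≠ 0 ∧ D' = (D0 x : Divisor QBar Fb) + B + FF.div QBar a) → D' = D x := by
    rintro x D' hD'0 ⟨a, ha, rfl⟩
    refine eq_of_ell_eq_one (hfnn x) hD'0 (by rw [ell_add_div (hf x)]; exact hell x)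
      (f := (f x)⁻¹ * a) ?_
    rw [FF.div_mul (inv_ne_zero (hf x)) ha, FF.div_inv]
    refine Finsupp.ext fun v => ?_
    simp only [hD, Finsupp.add_apply, Finsupp.neg_apply]
    ring
  have hDd : ∀ x, Divisor.degree (D x) = genusFF QBar Fb := fun x => by
    simp only [hD, map_add, degree_div, hBd, Divisor.mem_degZero.mp (D0 x).2, zero_add, add_zero]
  -- reductions
  have hDclass : ∀ x, ∃ a : Fk, a ≠ 0 ∧
      redDiv h (D x) = (C x : Divisor k Fk) + Bb + FF.div k a := fun x => by
    obtain ⟨a, ha, ha'⟩ := exists_redDiv_div_eq h (hf x)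
    exact ⟨a, ha, by simp only [hD, map_add, hredB, ha']; rfl⟩
  have hDl : ∀ x, ell k (redDiv h (D x)) = 1 := fun x => by
    obtain ⟨a, ha, e⟩ := hDclass x
    rw [e, ell_add_div ha]
    exact hBbl x
  have hDC : ∀ x y, Pic0.mk (C x) = Pic0.mk (C y) → redDiv h (D x) = redDiv h (D y) := by
    intro x y hxy
    obtain ⟨a, ha, hax⟩ := hDclass x
    obtain ⟨b, hb, hby⟩ := hDclass y
    obtain ⟨c, hc, hcxy⟩ := exists_eq_add_div_of_mk_eq hxy
    refine eq_of_ell_eq_one (redDiv_nonneg h (hfnn y)) (redDiv_nonneg h (hfnn x)) (hDl y)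
      (f := b⁻¹ * (c * a)) ?_
    rw [hax, hby, hcxy, FF.div_mul (inv_ne_zero hb) (mul_ne_zero hc ha), FF.div_mul hc ha,
      FF.div_inv]
    abel
  let Db : Pic0 k Fk → Divisor k Fk := fun c =>
    if hc : ∃ x, Pic0.mk (C x) = c then redDiv h (D hc.choose) else 0
  have hDb : ∀ x, redDiv h (D x) = Db (reductionModL A N (ι x)) := fun x => by
    have hex : ∃ y, Pic0.mk (C y) = reductionModL A N (ι x) := ⟨x, (hcls x).symm⟩
    simp only [Db, dif_pos hex]
    exact hDC _ _ ((hcls x).symm.trans hex.choose_spec.symm)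
  have hop : ∀ x y z, ∃ a : Fb, a ≠ 0 ∧
      D (x + y - z) = D x + D y - D z + FF.div QBar a := by
    intro x y z
    obtain ⟨c, hc, hc'⟩ := exists_eq_add_div_of_mk_eq (D := D0 (x + y - z))
      (D' := D0 x + D0 y - D0 z) (by
        rw [hD0, map_sub, map_add, ← hD0 x, ← hD0 y, ← hD0 z]
        rfl)
    refine ⟨c * f (x + y - z) * f z * (f x * f y)⁻¹, mul_ne_zero (mul_ne_zero (mul_ne_zero hc
      (hf _)) (hf _)) (inv_ne_zero (mul_ne_zero (hf _) (hf _))), ?_⟩
    rw [FF.div_mul (mul_ne_zero (mul_ne_zero hc (hf _)) (hf _))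
      (inv_ne_zero (mul_ne_zero (hf _) (hf _))), FF.div_inv, FF.div_mul (mul_ne_zero hc (hf _)) (hf _),
      FF.div_mul hc (hf _), FF.div_mul (hf _) (hf _)]
    simp only [hD]
    rw [hc', AddSubgroupClass.coe_sub, AddMemClass.coe_add]
    abel
  refine ⟨{ D := D, Db := Db, nonneg := hfnn, degree_eq := hDd, red_eq := hDb
            ell_eq := fun x => (hDb x) ▸ hDl x
            injective := fun x y hxy => hι ?_
            unique := fun x y z D' hD'0 hD' => hDu _ D' hD'0 ?_
            db_eq := fun x y z => ?_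
            smul_eq := fun σ hσ x x' hx' => hDu x' _ (smul_nonneg_divisor _ (hfnn x)) ?_ }⟩
  · rw [← hD0 x, ← hD0 y]
    refine mk_eq_of_eq_add_div (mul_ne_zero (hf y) (inv_ne_zero (hf x))) ?_
    rw [FF.div_mul (hf y) (inv_ne_zero (hf x)), FF.div_inv]
    refine Finsupp.ext fun v => ?_
    have hv := congrArg (fun X : Divisor QBar Fb => X v) hxy
    simp only [hD, Finsupp.add_apply, Finsupp.neg_apply] at hv ⊢
    linarith
  · obtain ⟨a, ha, rfl⟩ := hD'
    obtain ⟨b, hb, hb'⟩ := hop x y z
    refine ⟨f (x + y - z) * b⁻¹ * a, mul_ne_zero (mul_ne_zero (hf _) (inv_ne_zero hb)) ha, ?_⟩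
    rw [FF.div_mul (mul_ne_zero (hf _) (inv_ne_zero hb)) ha, FF.div_mul (hf _) (inv_ne_zero hb),
      FF.div_inv]
    refine Finsupp.ext fun v => ?_
    have hv := congrArg (fun X : Divisor QBar Fb => X v) hb'
    simp only [hD, Finsupp.add_apply, Finsupp.sub_apply, Finsupp.neg_apply] at hv ⊢
    linarith
  · obtain ⟨a, ha, ha'⟩ := hop x y z
    obtain ⟨b, hb, hb'⟩ := exists_redDiv_div_eq h ha
    refine ⟨b, hb, ?_⟩
    rw [← hDb (x + y - z), ← hDb x, ← hDb y, ← hDb z, ha', map_add, map_sub, map_add, hb']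
  · obtain ⟨c, hc, hc'⟩ := exists_eq_add_div_of_mk_eq
      (D := SemilinearAut.degZeroSMulHom (galF N σ) (D0 x)) (D' := D0 x') (by
        rw [← SemilinearAut.pic0_smul_mk, hD0, hD0, hx', galois_smul_pic0_def])
    rw [SemilinearAut.coe_degZeroSMulHom] at hc'
    refine ⟨c * (galF N σ • f x), mul_ne_zero hc ((smul_ne_zero_iff_ne (galF N σ)).mpr (hf x)), ?_⟩
    rw [FF.div_mul hc ((smul_ne_zero_iff_ne (galF N σ)).mpr (hf x))]
    simp only [hD, smul_add, hBfix σ hσ, hc', EichlerShimura.smul_div]
    abel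

end Fermat.Agent.FiniteFlat
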