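import Fermat.Agent.FiniteFlat.JClasses

/-!
# Coordinates of torsion classes

The space `L(E - D_x)` of the representative of a torsion class, in a basis of `L(E)` fixed by
inertia, has a unique matrix normalised by a constant left inverse of its reduction. Its entries
separate classes, commute with inertia, are congruent on classes with equal reduction, and the
entries of `x + y - z` are regular in those of `x`, `y` and `z`.
-/

set_option autoImplicit false
set_option linter.unusedSectionVars false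

noncomputable section

open IsLocalRing AlgebraicCurve ModularCurve Matrix
open Fermat.Agent.Arith Fermat.Agent.FF Fermat.Agent.EichlerShimura

namespace Fermat.Agent.FiniteFlat

section Normalised

variable {K E : Type*} [Field K] [AddCommGroup E] [Module K E]

/-- Normalised coordinates of a space span it. -/
theorem span_normalised {e n : ℕ} {W : Submodule K E} [FiniteDimensional K W] {u : Fin e → E}
    (hu : LinearIndependent K u) (hW : Module.finrank K W = n) {L : Matrix (Fin n) (Fin e) K}
    {P : Matrix (Fin e) (Fin n) K} (hP : ∀ a, ∑ b, P b a • u b ∈ W) (hLP : L * P = 1) :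
    LinearIndependent K (fun a => ∑ b, P b a • u b) ∧
      Submodule.span K (Set.range fun a => ∑ b, P b a • u b) = W := by
  have hli : LinearIndependent K fun a => ∑ b, P b a • u b := by
    refine Fintype.linearIndependent_iff.mpr fun y hy => ?_
    have h1 : P *ᵥ y = 0 := by
      refine funext fun b => Fintype.linearIndependent_iff.mp hu (P *ᵥ y) ?_ b
      rw [← hy]
      simp only [Matrix.mulVec, dotProduct, Finset.sum_smul, Finset.smul_sum, smul_smul]
      rw [Finset.sum_comm]
      exact Finset.sum_congr rfl fun a _ => Finset.sum_congr rfl fun b _ => by rw [mul_comm]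
    have h2 : y = 0 := by
      rw [← Matrix.one_mulVec y, ← hLP, ← Matrix.mulVec_mulVec, h1, Matrix.mulVec_zero]
    exact congrFun h2
  refine ⟨hli, Submodule.eq_of_le_of_finrank_eq (Submodule.span_le.mpr ?_) ?_⟩
  · rintro _ ⟨a, rfl⟩
    exact hP a
  · rw [finrank_span_eq_card hli, Fintype.card_fin, hW]

/-- Normalised coordinates are unique. -/
theorem normalised_unique {e n : ℕ} {W : Submodule K E} [FiniteDimensional K W] {u : Fin e → E}
    (hu : LinearIndependent K u) (hW : Module.finrank K W = n) {L : Matrix (Fin n) (Fin e) K}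
    {P Q : Matrix (Fin e) (Fin n) K} (hP : ∀ a, ∑ b, P b a • u b ∈ W)
    (hQ : ∀ a, ∑ b, Q b a • u b ∈ W) (hLP : L * P = 1) (hLQ : L * Q = 1) : Q = P := by
  obtain ⟨-, hspan⟩ := span_normalised hu hW hP hLP
  choose T hT using fun a => (Submodule.mem_span_range_iff_exists_fun K).mp (hspan.symm ▸ hQ a)
  have hQP : Q = P * (Matrix.of fun a' a => T a a') := Matrix.ext fun b a => by
    have h1 : ∑ b, Q b a • u b = ∑ b, (∑ a', P b a' * T a a') • u b := by
      rw [← hT a]
      simp only [Finset.smul_sum, smul_smul, Finset.sum_smul]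
      rw [Finset.sum_comm]
      exact Finset.sum_congr rfl fun b _ => Finset.sum_congr rfl fun a' _ => by rw [mul_comm]
    have h2 := hu.fintypeLinearCombination_injective (a₁ := fun b => Q b a)
      (a₂ := fun b => ∑ a', P b a' * T a a') (by simpa [Fintype.linearCombination_apply] using h1)
    rw [Matrix.mul_apply]
    exact congrFun h2 b
  have hT1 : (Matrix.of fun a' a => T a a') = 1 := by
    rw [← hLQ, hQP, ← Matrix.mul_assoc, hLP, Matrix.one_mul]
  rw [hQP, hT1, Matrix.mul_one]

/-- A family with the values of a basis of a subspace is independent and spans the subspace. -/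
theorem linearIndependent_and_span_of_basis {ι : Type*} {W : Submodule K E}
    (μ : Module.Basis ι K W) {v : ι → E} (hv : ∀ b, v b = μ b) :
    LinearIndependent K v ∧ Submodule.span K (Set.range v) = W := by
  obtain rfl : v = W.subtype ∘ μ := funext hv
  refine ⟨(μ.linearIndependent.map' W.subtype (Submodule.ker_subtype W) :), ?_⟩
  rw [Set.range_comp, ← Submodule.map_span, μ.span_eq, Submodule.map_top, Submodule.range_subtype]

end Normalised

section Reg

variable {A : ValuationSubring QBar} {F : Type*} [Field F] [Algebra QBar F]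
  {Fk : Type*} [Field Fk] [Algebra (ResidueField A) Fk]
  [IsFunctionField QBar F] [IsFunctionField (ResidueField A) Fk]
  {h : GoodRed A F Fk} {Ω : Type*} {R : Subalgebra A (Ω → QBar)}

/-- A regular family inside a fixed space has normalised coordinates in the ring. -/
theorem exists_normalised [Finite Ω] [Nonempty Ω] (hR : HasIntValues R)
    {G : Ω → Divisor QBar F} {Gb : Divisor (ResidueField A) Fk} (hG : IsReg h R G Gb) {e n : ℕ}
    (u : Fin e → h.S) (hu : LinearIndependent (ResidueField A) fun b => redF h.toRedLattice (u b))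
    {W : Submodule QBar F} (hW : W ≤ Submodule.span QBar (Set.range fun b => (u b : F)))
    (hGW : ∀ ω, riemannRochSpace (G ω) ≤ W) {ξ : Fin n → Fk} (hξ : ∀ a, ξ a ∈ riemannRochSpace Gb)
    {Ac : Matrix (Fin e) (Fin n) (ResidueField A)}
    (hξc : ∀ a, ξ a = ∑ b, Ac b a • redF h.toRedLattice (u b))
    (L : Matrix (Fin n) (Fin e) A) (hL : L.map (residue A) * Ac = 1) :
    ∃ P : Matrix (Fin e) (Fin n) R, (∀ ω, P.map (resAt hR ω) = Ac) ∧
      L.map (algebraMap A R) * P = 1 ∧
      ∀ ω a, ∑ b, (P b a : Ω → QBar) ω • (u b : F) ∈ riemannRochSpace (G ω) := by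
  classical
  choose φ hφ hφ' using fun a => hG (ξ a) (hξ a)
  choose hφG hφS hφr using hφ'
  obtain ⟨d, v, P0, hv, hP0⟩ := exists_frame_secs (Sum.elim φ fun b => fun _ => (u b : F))
    (fun t => by
      rcases t with t | t
      · exact hφ t
      · exact const_mem_secs _)
  set Pφ : Matrix (Fin d) (Fin n) R := Matrix.of fun c a => P0 c (Sum.inl a) with hPφ
  set Pu : Matrix (Fin d) (Fin e) R := Matrix.of fun c b => P0 c (Sum.inr b) with hPu
  have huQ := linearIndependent_of_redF h.toRedLattice u hu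
  have hvQ := linearIndependent_of_redF h.toRedLattice v hv
  have uniq : ∀ {x y : Fin d → (ResidueField A)}, ∑ c, x c • redF h.toRedLattice (v c) =
      ∑ c, y c • redF h.toRedLattice (v c) → x = y := fun {x y} hxy =>
    hv.fintypeLinearCombination_injective (by simpa [Fintype.linearCombination_apply] using hxy)
  have redPu : ∀ ω b, redF h.toRedLattice (u b) =
      ∑ c, resAt hR ω (Pu c b) • redF h.toRedLattice (v c) := by
    intro ω b
    obtain ⟨hm, hr⟩ := redF_sum_smul (h := h) hR ω (fun c => Pu c b) v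
    rw [← hr]
    exact congrArg _ (Subtype.ext (hP0 (Sum.inr b) ω))
  obtain ⟨ω₀⟩ := ‹Nonempty Ω›
  set Ub := Pu.map (resAt hR ω₀) with hUb
  have hPuc : ∀ ω, Pu.map (resAt hR ω) = Ub := fun ω => Matrix.ext fun c b =>
    congrFun (uniq ((redPu ω b).symm.trans (redPu ω₀ b))) c
  have hinjU : Function.Injective Ub.mulVec := by
    intro x y hxy
    refine hu.fintypeLinearCombination_injective ?_
    have key : ∀ z, Fintype.linearCombination (ResidueField A) (fun b => redF h.toRedLattice (u b)) z =
        ∑ c, (Ub *ᵥ z) c • redF h.toRedLattice (v c) := fun z => by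
      rw [Fintype.linearCombination_apply]
      simp only [redPu ω₀, Finset.smul_sum, smul_smul, Matrix.mulVec, dotProduct, Finset.sum_smul,
        hUb, Matrix.map_apply]
      rw [Finset.sum_comm]
      exact Finset.sum_congr rfl fun c _ => Finset.sum_congr rfl fun b _ => by rw [mul_comm]
    rw [key, key]
    exact congrArg (fun w : Fin d → (ResidueField A) => ∑ c, w c • redF h.toRedLattice (v c)) hxy
  obtain ⟨Lb, hLb⟩ := exists_left_inverse hinjU
  set L0 : Matrix (Fin e) (Fin d) R := constMat Lb with hL0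
  have hN1 : ∀ ω, (L0 * Pu).map (resAt hR ω) = 1 := fun ω => by
    rw [Matrix.map_mul, resAt_constMat, hPuc, hLb]
  have hN := isUnit_matrix hR (L0 * Pu) hN1
  set Lu : Matrix (Fin e) (Fin d) R := (L0 * Pu)⁻¹ * L0 with hLu
  have hLPu : Lu * Pu = 1 := by
    rw [hLu, Matrix.mul_assoc, Matrix.nonsing_inv_mul _ ((Matrix.isUnit_iff_isUnit_det _).mp hN)]
  set Q : Matrix (Fin e) (Fin n) R := Lu * Pφ with hQ
  -- the coordinates of the sections
  have hcoord : ∀ ω a, φ a ω = ∑ b, (Q b a : Ω → QBar) ω • (u b : F) := by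
    intro ω a
    obtain ⟨c, hc⟩ := (Submodule.mem_span_range_iff_exists_fun QBar).mp (hW (hGW ω (hφG a ω)))
    have h1 : (fun i => (Pφ i a : Ω → QBar) ω) = (Pu.map (evalQ R ω)) *ᵥ c := by
      refine hvQ.fintypeLinearCombination_injective ?_
      simp only [Fintype.linearCombination_apply]
      refine (hP0 (Sum.inl a) ω).symm.trans ?_
      show φ a ω = _
      rw [← hc]
      simp only [Matrix.mulVec, dotProduct, Finset.sum_smul, Matrix.map_apply, evalQ_apply]
      rw [Finset.sum_comm]
      refine Finset.sum_congr rfl fun b _ => ?_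
      rw [show (u b : F) = ∑ i, (Pu i b : Ω → QBar) ω • (v i : F) from hP0 (Sum.inr b) ω,
        Finset.smul_sum]
      exact Finset.sum_congr rfl fun i _ => by rw [smul_smul, mul_comm]
    have h2 : (fun b => (Q b a : Ω → QBar) ω) = c := by
      have h3 : (fun b => (Q b a : Ω → QBar) ω) =
          (Lu.map (evalQ R ω)) *ᵥ (fun i => (Pφ i a : Ω → QBar) ω) := funext fun b => by
        rw [hQ, ← evalQ_apply, Matrix.mul_apply, map_sum]
        simp only [map_mul, Matrix.mulVec, dotProduct, Matrix.map_apply, evalQ_apply]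
      rw [h3, h1, Matrix.mulVec_mulVec, ← Matrix.map_mul, hLPu,
        Matrix.map_one _ (map_zero _) (map_one _), Matrix.one_mulVec]
    rw [← hc, ← h2]
  have hQred : ∀ ω, Q.map (resAt hR ω) = Ac := fun ω => Matrix.ext fun b a => by
    obtain ⟨hm, hr⟩ := redF_sum_smul (h := h) hR ω (fun b => Q b a) u
    have h1 : ∑ b, resAt hR ω (Q b a) • redF h.toRedLattice (u b) =
        ∑ b, Ac b a • redF h.toRedLattice (u b) := by
      rw [← hr, ← hξc, ← hφr a ω]
      exact congrArg _ (Subtype.ext (hcoord ω a).symm)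
    exact congrFun (hu.fintypeLinearCombination_injective (a₁ := fun b => resAt hR ω (Q b a))
      (a₂ := fun b => Ac b a) (by simpa [Fintype.linearCombination_apply] using h1)) b
  set L' : Matrix (Fin n) (Fin e) R := L.map (algebraMap A R) with hL'
  have hLc : ∀ ω, L'.map (resAt hR ω) = L.map (residue A) := fun ω => Matrix.ext fun i j => by
    rw [hL', Matrix.map_apply, Matrix.map_apply, Matrix.map_apply, resAt_algebraMap]
  have hM1 : ∀ ω, (L' * Q).map (resAt hR ω) = 1 := fun ω => by
    rw [Matrix.map_mul, hLc, hQred, hL]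
  have hM := isUnit_matrix hR (L' * Q) hM1
  refine ⟨Q * (L' * Q)⁻¹, fun ω => ?_, ?_, fun ω a => ?_⟩
  · rw [Matrix.map_mul, map_inv_eq_one (resAt hR ω) hM (hM1 ω), hQred, Matrix.mul_one]
  · rw [← Matrix.mul_assoc, Matrix.mul_nonsing_inv _ ((Matrix.isUnit_iff_isUnit_det _).mp hM)]
  · have h1 : ∑ b, ((Q * (L' * Q)⁻¹) b a : Ω → QBar) ω • (u b : F) =
        ∑ a', ((L' * Q)⁻¹ a' a : Ω → QBar) ω • φ a' ω := by
      simp only [hcoord, Finset.smul_sum, smul_smul]
      rw [Finset.sum_comm]
      refine Finset.sum_congr rfl fun b _ => ?_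
      rw [← evalQ_apply, Matrix.mul_apply, map_sum, Finset.sum_smul]
      exact Finset.sum_congr rfl fun a' _ => by rw [map_mul, evalQ_apply, evalQ_apply, mul_comm]
    rw [h1]
    exact sum_mem fun a' _ => Submodule.smul_mem _ _ (hφG a' ω)

end Reg

section Core

variable {A : ValuationSubring QBar} {F : Type*} [Field F] [Algebra QBar F]
  {Fk : Type*} [Field Fk] [Algebra (ResidueField A) Fk]
  [IsFunctionField QBar F] [IsFunctionField (ResidueField A) Fk]
  {h : GoodRed A F Fk}

/-- A normalisation of a reduced space: a basis, its coordinates and a lifted left inverse. -/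
theorem exists_normalisation {e n : ℕ} (u : Fin e → h.S)
    (_hu : LinearIndependent (ResidueField A) fun b => redF h.toRedLattice (u b))
    (V : Submodule (ResidueField A) Fk) (hn : Module.finrank (ResidueField A) V = n)
    [FiniteDimensional (ResidueField A) V]
    (hV : V ≤ Submodule.span (ResidueField A) (Set.range fun b => redF h.toRedLattice (u b)))
    {P : A → Prop} (hlift : ∀ z : ResidueField A, ∃ a : A, residue A a = z ∧ P a) :
    ∃ (ξ : Fin n → Fk) (Ac : Matrix (Fin e) (Fin n) (ResidueField A))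
      (L : Matrix (Fin n) (Fin e) A), (∀ a, ξ a ∈ V) ∧
      (∀ a, ξ a = ∑ b, Ac b a • redF h.toRedLattice (u b)) ∧
      V ≤ Submodule.span (ResidueField A) (Set.range ξ) ∧
      L.map (residue A) * Ac = 1 ∧ ∀ i j, P (L i j) := by
  classical
  let β := Module.finBasisOfFinrankEq (ResidueField A) V hn
  choose c hc using fun a => (Submodule.mem_span_range_iff_exists_fun _).mp (hV (β a).2)
  let Ac : Matrix (Fin e) (Fin n) (ResidueField A) := Matrix.of fun b a => c a b
  have hξc : ∀ a, (β a : Fk) = ∑ b, Ac b a • redF h.toRedLattice (u b) := fun a => (hc a).symm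
  have hinj : Function.Injective Ac.mulVec := by
    intro y z hyz
    have hβ : LinearIndependent (ResidueField A) fun a => (β a : Fk) :=
      (β.linearIndependent.map' V.subtype (Submodule.ker_subtype V) :)
    refine hβ.fintypeLinearCombination_injective ?_
    have key : ∀ w, Fintype.linearCombination (ResidueField A) (fun a => (β a : Fk)) w =
        ∑ b, (Ac *ᵥ w) b • redF h.toRedLattice (u b) := fun w => by
      rw [Fintype.linearCombination_apply]
      simp only [hξc, Finset.smul_sum, smul_smul, Matrix.mulVec, dotProduct, Finset.sum_smul]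
      rw [Finset.sum_comm]
      exact Finset.sum_congr rfl fun c _ => Finset.sum_congr rfl fun b _ => by rw [mul_comm]
    rw [key, key]
    exact congrArg (fun w : Fin e → ResidueField A => ∑ b, w b • redF h.toRedLattice (u b)) hyz
  obtain ⟨Lb, hLb⟩ := exists_left_inverse hinj
  choose L hLr hLP using fun i j => hlift (Lb i j)
  refine ⟨fun a => β a, Ac, Matrix.of L, fun a => (β a).2, hξc, fun y hy => ?_, ?_, hLP⟩
  · refine (Submodule.mem_span_range_iff_exists_fun _).mpr ⟨fun a => β.repr ⟨y, hy⟩ a, ?_⟩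
    have := congrArg Subtype.val (β.sum_repr ⟨y, hy⟩)
    simpa only [AddSubmonoidClass.coe_finsetSum, SetLike.val_smul] using this
  · rw [show (Matrix.of L).map (residue A) = Lb from Matrix.ext fun i j => hLr i j, hLb]

/-- Coordinates with values in a ring give a regular family. -/
theorem isReg_of_coords {Ω : Type*} {R : Subalgebra A (Ω → QBar)} (hR : HasIntValues R)
    {G : Ω → Divisor QBar F} {Gb : Divisor (ResidueField A) Fk} {e n : ℕ} (u : Fin e → h.S)
    (Am : Ω → Matrix (Fin e) (Fin n) A) (hAm : ∀ b a, (fun ω => ((Am ω b a : A) : QBar)) ∈ R)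
    (hAmW : ∀ ω a, ∑ b, ((Am ω b a : A) : QBar) • (u b : F) ∈ riemannRochSpace (G ω))
    {Ac : Matrix (Fin e) (Fin n) (ResidueField A)} (hAmr : ∀ ω, (Am ω).map (residue A) = Ac)
    {ξ : Fin n → Fk} (hξc : ∀ a, ξ a = ∑ b, Ac b a • redF h.toRedLattice (u b))
    (hξspan : riemannRochSpace Gb ≤ Submodule.span (ResidueField A) (Set.range ξ)) :
    IsReg h R G Gb := by
  classical
  intro x hx
  obtain ⟨y, hy⟩ := (Submodule.mem_span_range_iff_exists_fun _).mp (hξspan hx)
  let r : Fin e → R := fun b => ∑ a, algebraMap A R (liftRes A (y a)) * ⟨_, hAm b a⟩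
  refine ⟨_, sum_mem_secs Finset.univ r u, fun ω => ⟨?_, ?_⟩⟩
  · have e1 : ∑ b, (r b : Ω → QBar) ω • (u b : F) =
        ∑ a, ((liftRes A (y a) : A) : QBar) • ∑ b, ((Am ω b a : A) : QBar) • (u b : F) := by
      simp only [Finset.smul_sum, smul_smul]
      rw [Finset.sum_comm]
      refine Finset.sum_congr rfl fun b _ => ?_
      rw [← Finset.sum_smul, ← evalQ_apply]
      refine congrArg (· • (u b : F)) ?_
      simp only [r, map_sum, map_mul]
      rfl
    rw [e1]
    exact sum_mem fun a _ => Submodule.smul_mem _ _ (hAmW ω a)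
  · obtain ⟨hm', hred⟩ := redF_sum_smul (h := h) hR ω r u
    refine ⟨hm', hred.trans ?_⟩
    rw [← hy]
    simp only [hξc, Finset.smul_sum, smul_smul]
    rw [Finset.sum_comm]
    refine Finset.sum_congr rfl fun b _ => ?_
    rw [← Finset.sum_smul]
    refine congrArg (· • redF h.toRedLattice (u b)) ?_
    simp only [r, map_sum, map_mul, resAt_algebraMap, residue_liftRes]
    refine Finset.sum_congr rfl fun a _ => congrArg (y a * ·) ?_
    rw [← hAmr ω]
    rfl

theorem exists_coords_core {E : Divisor QBar F} (hE0 : 0 ≤ E)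
    (hEd : bigDeg h + 4 * genusFF QBar F ≤ Divisor.degree E) {e : ℕ} (u : Fin e → h.S)
    (hu : LinearIndependent (ResidueField A) fun b => redF h.toRedLattice (u b))
    (huspan : riemannRochSpace E ≤ Submodule.span QBar (Set.range fun b => (u b : F)))
    (hured : riemannRochSpace (redDiv h E) ≤
      Submodule.span (ResidueField A) (Set.range fun b => redF h.toRedLattice (u b)))
    {M Q : Type*} [AddCommGroup M] [AddCommGroup Q] (cls : M →+ Q) (D : M → Divisor QBar F)
    (Db : Q → Divisor (ResidueField A) Fk) (nonneg : ∀ x, 0 ≤ D x)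
    (degree_eq : ∀ x, Divisor.degree (D x) = genusFF QBar F)
    (red_eq : ∀ x, redDiv h (D x) = Db (cls x))
    (ell_eq : ∀ x, ell (ResidueField A) (Db (cls x)) = 1) (injective : Function.Injective D)
    (unique : ∀ x y z D', 0 ≤ D' → (∃ f : F, f ≠ 0 ∧ D' = D x + D y - D z + FF.div QBar f) →
      D' = D (x + y - z))
    (db_eq : ∀ x y z, ∃ f : Fk, f ≠ 0 ∧ Db (cls (x + y - z)) =
      Db (cls x) + Db (cls y) - Db (cls z) + FF.div (ResidueField A) f)
    {P : A → Prop} (hlift : ∀ z : ResidueField A, ∃ a : A, residue A a = z ∧ P a) :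
    ∃ (n : ℕ) (L : M → Matrix (Fin n) (Fin e) A) (Am : M → Matrix (Fin e) (Fin n) A),
      (∀ x y, cls x = cls y → L x = L y) ∧ (∀ x i j, P (L x i j)) ∧
      (∀ x, (L x).map A.subtype * (Am x).map A.subtype = 1) ∧
      (∀ x a, ∑ b, ((Am x b a : A) : QBar) • (u b : F) ∈ riemannRochSpace (E - D x)) ∧
      (∀ x (P : Matrix (Fin e) (Fin n) QBar), (L x).map A.subtype * P = 1 →
        (∀ a, ∑ b, P b a • (u b : F) ∈ riemannRochSpace (E - D x)) → P = (Am x).map A.subtype) ∧
      (∀ x y, cls x = cls y → Am x = Am y → x = y) ∧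
      (∀ b a x y, cls x = cls y → ((Am x b a : A) : QBar) - Am y b a ∈ A.nonunits) ∧
      ∀ {Ω : Type} [Finite Ω] [Nonempty Ω] (R : Subalgebra A (Ω → QBar)), HasIntValues R →
        ∀ f₁ f₂ f₃ : Ω → M, (∀ ω ω', cls (f₁ ω) = cls (f₁ ω')) →
          (∀ ω ω', cls (f₂ ω) = cls (f₂ ω')) → (∀ ω ω', cls (f₃ ω) = cls (f₃ ω')) →
          (∀ b a, (fun ω => ((Am (f₁ ω) b a : A) : QBar)) ∈ R) →
          (∀ b a, (fun ω => ((Am (f₂ ω) b a : A) : QBar)) ∈ R) →
          (∀ b a, (fun ω => ((Am (f₃ ω) b a : A) : QBar)) ∈ R) →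
          ∀ b a, (fun ω => ((Am (f₁ ω + f₂ ω - f₃ ω) b a : A) : QBar)) ∈ R := by
  classical
  have hg := genusFF_eq_of_goodRed h
  have hrr := one_le_rrBound h
  have hb := rrBound_lt_bigDeg h
  have huQ := linearIndependent_of_redF h.toRedLattice u hu
  have hdG : ∀ x, Divisor.degree (E - D x) = Divisor.degree E - genusFF QBar F := fun x => by
    rw [map_sub, degree_eq]
  have hGred : ∀ x, redDiv h (E - D x) = redDiv h E - Db (cls x) := fun x => by
    rw [map_sub, red_eq]
  have hg0 : (0 : ℤ) ≤ ((genusFF QBar F : ℕ) : ℤ) := Int.natCast_nonneg _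
  set n := (Divisor.degree E + 1 - 2 * genusFF QBar F).toNat with hn
  have hnc : (n : ℤ) = Divisor.degree E + 1 - 2 * genusFF QBar F := Int.toNat_of_nonneg (by omega)
  have hWfr : ∀ x, Module.finrank QBar (riemannRochSpace (E - D x)) = n := fun x => by
    have e1 := ell_eq_of_rrBound_le h (D := E - D x) (by rw [hdG]; omega)
    unfold ell at e1
    rw [hdG] at e1
    omega
  have hdata : ∀ c : Set.range cls, ∃ (ξ : Fin n → Fk) (Ac : Matrix (Fin e) (Fin n) (ResidueField A))
      (L : Matrix (Fin n) (Fin e) A), (∀ a, ξ a ∈ riemannRochSpace (redDiv h E - Db c)) ∧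
      (∀ a, ξ a = ∑ b, Ac b a • redF h.toRedLattice (u b)) ∧
      riemannRochSpace (redDiv h E - Db c) ≤ Submodule.span (ResidueField A) (Set.range ξ) ∧
      L.map (residue A) * Ac = 1 ∧ ∀ i j, P (L i j) := by
    rintro ⟨_, x, rfl⟩
    have hdeg : Divisor.degree (redDiv h E - Db (cls x)) =
        Divisor.degree E - genusFF QBar F := by rw [← hGred, degree_redDiv, hdG]
    refine exists_normalisation u hu _ ?_ (le_trans (riemannRochSpace_mono (sub_le_self _
      (red_eq x ▸ redDiv_nonneg h (nonneg x)))) hured) hlift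
    change Module.finrank (ResidueField A) (riemannRochSpace (redDiv h E - Db (cls x))) = n
    have e1 := ell_eq_of_rrBound_le' h (D := redDiv h E - Db (cls x)) (by rw [hdeg]; omega)
    unfold ell at e1
    rw [hdeg, ← hg] at e1
    omega
  choose ξ Ac L hξ hξc hξspan hLA hLP using hdata
  let cl : M → Set.range cls := fun x => ⟨cls x, x, rfl⟩
  have hcl : ∀ x y, cls x = cls y → cl x = cl y := fun x y e => Subtype.ext e
  have hWle : ∀ x, riemannRochSpace (E - D x) ≤ riemannRochSpace E := fun x =>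
    riemannRochSpace_mono (sub_le_self _ (nonneg x))
  have hAm : ∀ x, ∃ P : Matrix (Fin e) (Fin n) A, P.map (residue A) = Ac (cl x) ∧
      (L (cl x)).map A.subtype * P.map A.subtype = 1 ∧
      ∀ a, ∑ b, ((P b a : A) : QBar) • (u b : F) ∈ riemannRochSpace (E - D x) := by
    intro x
    have hbot : HasIntValues (⊥ : Subalgebra A (Unit → QBar)) := fun r ω => by
      obtain ⟨a, ha⟩ := Algebra.mem_bot.mp r.2
      rw [← ha]
      exact a.2
    have hreg := isReg_const (h := h) (R := (⊥ : Subalgebra A (Unit → QBar))) (D := E - D x)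
      (by rw [hdG]; omega)
    rw [hGred] at hreg
    obtain ⟨P, hPr, hPL, hPW⟩ := exists_normalised hbot hreg u hu huspan (fun _ => hWle x)
      (hξ (cl x)) (hξc (cl x)) (L (cl x)) (hLA (cl x))
    refine ⟨P.map (evalA' hbot ()), ?_, ?_, fun a => ?_⟩
    · rw [← hPr (), Matrix.map_map]
      rfl
    · have := congrArg (fun X : Matrix (Fin n) (Fin n) _ => X.map (evalQ _ ())) hPL
      simp only [Matrix.map_mul, Matrix.map_map, Matrix.map_one _ (map_zero _) (map_one _)] at this
      rw [← this, Matrix.map_map]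
      rfl
    · exact hPW () a
  choose Am hAmr hAmL hAmW using hAm
  have huniq : ∀ x (P : Matrix (Fin e) (Fin n) QBar), (L (cl x)).map A.subtype * P = 1 →
      (∀ a, ∑ b, P b a • (u b : F) ∈ riemannRochSpace (E - D x)) → P = (Am x).map A.subtype :=
    fun x P hP hPW => normalised_unique huQ (hWfr x) (hAmW x) hPW (hAmL x) hP
  refine ⟨n, fun x => L (cl x), Am, fun x y e => congrArg L (hcl x y e), fun x => hLP (cl x),
    hAmL, hAmW, huniq, fun x y _ hxy => ?_, fun b a x y hxy => ?_,
    fun {Ω} _ _ R hR f₁ f₂ f₃ h₁ h₂ h₃ r₁ r₂ r₃ => ?_⟩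
  · have h1 := span_normalised huQ (hWfr x) (hAmW x) (hAmL x)
    have h2 := span_normalised huQ (hWfr y) (hAmW y) (hAmL y)
    rw [hxy] at h1
    have hW : riemannRochSpace (E - D x) = riemannRochSpace (E - D y) := h1.2.symm.trans h2.2
    have hle : ∀ {a b : M}, riemannRochSpace (E - D a) = riemannRochSpace (E - D b) →
        E - D a ≤ E - D b := fun {a b} hab =>
      le_of_riemannRochSpace_le (fun _ => ell_eq_of_rrBound_le h) (by rw [hdG]; omega) hab.le
    exact injective (sub_right_injective (le_antisymm (hle hW) (hle hW.symm)))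
  · refine Arith.residue_eq_iff.mp ?_
    have hx := congrFun (congrFun (hAmr x) b) a
    have hy := congrFun (congrFun (hAmr y) b) a
    rw [Matrix.map_apply] at hx hy
    rw [hx, hy, hcl x y hxy]
  · obtain ⟨ω₀⟩ := ‹Nonempty Ω›
    have hregOf : ∀ f : Ω → M, (∀ ω ω', cls (f ω) = cls (f ω')) →
        (∀ b a, (fun ω => ((Am (f ω) b a : A) : QBar)) ∈ R) →
        IsReg h R (fun ω => E - D (f ω)) (redDiv h E - Db (cls (f ω₀))) := fun f hf hr =>
      isReg_of_coords hR u (fun ω => Am (f ω)) hr (fun ω => hAmW (f ω))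
        (fun ω => (hAmr (f ω)).trans (congrArg Ac (hcl _ _ (hf ω ω₀)))) (hξc (cl (f ω₀)))
        (hξspan (cl (f ω₀)))
    obtain ⟨D', hD', hreg⟩ := IsReg.exists_op hR hE0 hEd (X := fun ω => D (f₁ ω))
      (Y := fun ω => D (f₂ ω)) (T := fun ω => D (f₃ ω))
      (fun ω => nonneg _) (fun ω => nonneg _) (fun ω => nonneg _) (fun ω => degree_eq _)
      (fun ω => degree_eq _) (fun ω => degree_eq _)
      (fun ω => (red_eq _).trans (congrArg Db (h₁ ω ω₀)))
      (fun ω => (red_eq _).trans (congrArg Db (h₂ ω ω₀)))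
      (fun ω => (red_eq _).trans (congrArg Db (h₃ ω ω₀)))
      (hregOf f₁ h₁ r₁) (hregOf f₂ h₂ r₂) (hregOf f₃ h₃ r₃)
      (red_eq _ ▸ redDiv_nonneg h (nonneg (f₁ ω₀ + f₂ ω₀ - f₃ ω₀))) (ell_eq _)
      (db_eq (f₁ ω₀) (f₂ ω₀) (f₃ ω₀))
    set f₄ : Ω → M := fun ω => f₁ ω + f₂ ω - f₃ ω with hf₄
    have hD4 : ∀ ω, D' ω = D (f₄ ω) := fun ω => unique _ _ _ _ (hD' ω).1 (hD' ω).2.2
    have h₄ : ∀ ω, cl (f₄ ω) = cl (f₄ ω₀) := fun ω => Subtype.ext (by
      simp only [cl, hf₄, map_sub, map_add]
      rw [h₁ ω ω₀, h₂ ω ω₀, h₃ ω ω₀])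
    obtain ⟨P, hPr, hPL, hPW⟩ := exists_normalised hR hreg u hu huspan
      (fun ω => riemannRochSpace_mono (sub_le_self _ (hD' ω).1)) (hξ (cl (f₄ ω₀)))
      (hξc (cl (f₄ ω₀))) (L (cl (f₄ ω₀))) (hLA (cl (f₄ ω₀)))
    intro b a
    have key : ∀ ω, P.map (evalQ R ω) = (Am (f₄ ω)).map A.subtype := fun ω => by
      refine huniq (f₄ ω) _ ?_ fun a => ?_
      · have := congrArg (fun X : Matrix (Fin n) (Fin n) R => X.map (evalQ R ω)) hPL
        simp only [Matrix.map_mul, Matrix.map_map, Matrix.map_one _ (map_zero _) (map_one _)] at this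
        rw [h₄ ω, ← this]
        rfl
      · rw [← hD4]
        exact hPW ω a
    have e1 : (fun ω => ((Am (f₄ ω) b a : A) : QBar)) = (P b a : Ω → QBar) := funext fun ω =>
      (congrFun (congrFun (key ω) b) a).symm
    show (fun ω => ((Am (f₄ ω) b a : A) : QBar)) ∈ R
    rw [e1]
    exact (P b a).2

end Core

section Level

-- searches for the constants inside Laurent series are slow without these priorities
attribute [local instance 10000] SubalgebraClass.toAlgebra HahnSeries.powerSeriesAlgebra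

variable {A : ValuationSubring QBar} {l N : ℕ} [NeZero N]
  [IsFunctionField QBar (modularFunctionFieldBar N)]
  [IsFunctionField (ResidueField A) (modularFunctionFieldFullC (ResidueField A) N)]

local notation "Fb" => modularFunctionFieldBar N
local notation "Fk" => modularFunctionFieldFullC (ResidueField A) N

theorem galF_sum_smul {e n : ℕ} (σ : GQ) (u : Fin e → Fb)
    (hu : ∀ b, galF N σ • u b = u b) (P : Matrix (Fin e) (Fin n) QBar) (a : Fin n) :
    galF N σ • (∑ b, P b a • u b) = ∑ b, (P.map σ) b a • u b := by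
  rw [Finset.smul_sum]
  exact Finset.sum_congr rfl fun b _ => by rw [galF_smul_smul, hu, Matrix.map_apply]

theorem exists_fixed_basis (hA : A.LiesOverPrime l) (hl : l.Prime) (hNA : (N : ResidueField A) ≠ 0)
    {m : ℤ} (hm : bigDeg (goodRed (A := A) hNA) ≤ Divisor.degree (m • poleDiv N)) :
    ∃ (e : ℕ) (u : Fin e → (goodRed (A := A) hNA).S),
      (∀ σ ∈ A.inertiaSubgroupIn ℚ, ∀ b, galF N σ • (u b : Fb) = u b) ∧
      LinearIndependent (ResidueField A) (fun b => redF (goodRed hNA).toRedLattice (u b)) ∧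
      riemannRochSpace (m • poleDiv N) ≤ Submodule.span QBar (Set.range fun b => (u b : Fb)) ∧
      riemannRochSpace (redDiv (goodRed hNA) (m • poleDiv N)) ≤
        Submodule.span (ResidueField A) (Set.range fun b => redF (goodRed hNA).toRedLattice (u b)) := by
  have : IsAlgClosed (ResidueField A) := residueField_isAlgClosed A
  let W := riemannRochSpace (redDiv (goodRed (A := A) hNA) (m • poleDiv N))
  have : Module.Free (ResidueField A) W := Module.Free.of_divisionRing _ _
  let μ := Module.finBasis (ResidueField A) W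
  choose u huE hur hufix using fun b => exists_fixed_lift_poles hA hl hNA hm (μ b).2
  obtain ⟨huli, hspan⟩ := linearIndependent_and_span_of_basis μ hur
  refine ⟨_, u, fun σ hσ b => hufix b σ hσ, huli, ?_, hspan.ge⟩
  refine (Submodule.eq_of_le_of_finrank_eq (Submodule.span_le.mpr ?_) ?_).ge
  · rintro _ ⟨b, rfl⟩
    exact huE b
  · exact ((finrank_span_eq_card (linearIndependent_of_redF _ u huli)).trans
      (Fintype.card_fin _)).trans
      ((LinearEquiv.ofEq _ _ (redW_riemannRochSpace (goodRed hNA) hm)).finrank_eq.symm.trans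
        (finrank_redW _ _).2)

theorem exists_coordinates (hA : A.LiesOverPrime l) (hl : l.Prime)
    (hNA : (N : ResidueField A) ≠ 0) {M : Type} [AddCommGroup M]
    [DistribMulAction GQ M] {ι : M →+ JZero N} (hιG : ∀ (σ : GQ) x, ι (σ • x) = σ • ι x)
    (T : TorsReps hNA ι) :
    ∃ (ν : Type) (_ : Finite ν) (g : ν → M → QBar), (∀ i m, g i m ∈ A) ∧
      (∀ σ ∈ A.inertiaSubgroupIn ℚ, ∀ i m, g i (σ • m) = σ (g i m)) ∧
      (∀ x y, reductionModL A N (ι x) = reductionModL A N (ι y) → (∀ i, g i x = g i y) → x = y) ∧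
      (∀ i x y, reductionModL A N (ι x) = reductionModL A N (ι y) → g i x - g i y ∈ A.nonunits) ∧
      ∀ {Ω : Type} [Finite Ω] [Nonempty Ω] (R : Subalgebra A (Ω → QBar)), HasIntValues R →
        ∀ f₁ f₂ f₃ : Ω → M,
          (∀ ω ω', reductionModL A N (ι (f₁ ω)) = reductionModL A N (ι (f₁ ω'))) →
          (∀ ω ω', reductionModL A N (ι (f₂ ω)) = reductionModL A N (ι (f₂ ω'))) →
          (∀ ω ω', reductionModL A N (ι (f₃ ω)) = reductionModL A N (ι (f₃ ω'))) →
          (∀ i, (fun ω => g i (f₁ ω)) ∈ R) → (∀ i, (fun ω => g i (f₂ ω)) ∈ R) →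
          (∀ i, (fun ω => g i (f₃ ω)) ∈ R) → ∀ i, (fun ω => g i (f₁ ω + f₂ ω - f₃ ω)) ∈ R := by
  classical
  have : IsAlgClosed (ResidueField A) := residueField_isAlgClosed A
  have hd1 := one_le_degree_poleDiv (N := N)
  have hrr := one_le_rrBound (goodRed (A := A) hNA)
  have hb := rrBound_lt_bigDeg (goodRed (A := A) hNA)
  have hg0 : (0 : ℤ) ≤ ((genusFF QBar Fb : ℕ) : ℤ) := Int.natCast_nonneg _
  obtain ⟨m, hm⟩ : ∃ m : ℤ, m = bigDeg (goodRed (A := A) hNA) + 4 * genusFF QBar Fb := ⟨_, rfl⟩
  have hm0 : 0 ≤ m := by omega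
  have hdE : m ≤ Divisor.degree (m • poleDiv N) := by
    rw [map_zsmul, smul_eq_mul]
    exact le_mul_of_one_le_right hm0 hd1
  have hE0 : 0 ≤ m • poleDiv N := Finsupp.le_def.mpr fun v => by
    rw [Finsupp.coe_zero, Pi.zero_apply, Finsupp.smul_apply, smul_eq_mul, poleDiv, poles_apply]
    exact mul_nonneg hm0 (le_max_left _ _)
  obtain ⟨e, u, hufix, hu, huspan, hured⟩ := exists_fixed_basis hA hl hNA (m := m) (by omega)
  obtain ⟨n, L, Am, hLc, hLfix, hAmL, hAmW, huniq, hsep, hcong, hop⟩ :=
    exists_coords_core hE0 (by omega) u hu huspan hured ((reductionModL A N).comp ι) T.D T.Db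
      T.nonneg T.degree_eq T.red_eq T.ell_eq T.injective T.unique T.db_eq
      (P := fun a : A => ∀ σ ∈ A.inertiaSubgroupIn ℚ, σ (a : QBar) = a)
      (fun z => exists_fixed_lift hA hl z)
  refine ⟨Fin e × Fin n, inferInstance, fun i x => ((Am x i.1 i.2 : A) : QBar),
    fun i x => (Am x i.1 i.2).2, fun σ hσ i x => ?_, fun x y hxy hAB => ?_,
    fun i x y hxy => hcong i.1 i.2 x y hxy,
    fun {Ω} _ _ R hR f₁ f₂ f₃ h₁ h₂ h₃ r₁ r₂ r₃ i =>
      hop R hR f₁ f₂ f₃ h₁ h₂ h₃ (fun b a => r₁ (b, a)) (fun b a => r₂ (b, a))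
        (fun b a => r₃ (b, a)) i.1 i.2⟩
  · have hD : galF N σ • (m • poleDiv N - T.D x) = m • poleDiv N - T.D (σ • x) := by
      rw [smul_sub, galF_smul_mul_poleDiv, T.smul_eq σ hσ x (σ • x) (hιG σ x)]
    have hcl : L (σ • x) = L x := hLc _ _ (by
      simp only [AddMonoidHom.comp_apply, hιG]
      exact reductionModL_inertia hNA hσ _)
    have key := huniq (σ • x) (((Am x).map A.subtype).map σ) ?_ fun a => ?_
    · exact (congrFun (congrFun key i.1) i.2).symm
    · rw [hcl, show (L x).map A.subtype = ((L x).map A.subtype).map σ from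
        Matrix.ext fun i j => (hLfix x i j σ hσ).symm, ← Matrix.map_mul, hAmL x,
        Matrix.map_one _ (map_zero _) (map_one _)]
    · rw [← galF_sum_smul σ (fun b => (u b : Fb)) (fun b => hufix σ hσ b), ← hD]
      exact galF_mem_riemannRochSpace σ (hAmW x a)
  · exact hsep x y hxy (Matrix.ext fun b a => Subtype.ext (hAB (b, a)))

end Level

end Fermat.Agent.FiniteFlat
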