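import Fermat.Agent.Arith.Frobenius
import Fermat.Agent.FiniteFlat.OfLattice
import Fermat.Agent.FiniteFlat.SecSpan

/-!
# Galois orders from generators compatible with the group law on each class

Functions with values in `A`, equivariant under inertia, separating the points of each class of
`cls` and compatible with `f₁ + f₂ - f₃` on regular families, generate a lattice giving a Galois
order.
-/

set_option autoImplicit false

noncomputable section

open IsLocalRing
open scoped Pointwise
open Fermat.Agent.Arith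

namespace Fermat.Agent.FiniteFlat

variable {A : ValuationSubring QBar} {M : Type}

/-- Sums of products `a x * b y` with `a`, `b` in `S`. -/
def pairAlgebra (S : Subalgebra A (M → QBar)) : Subalgebra A (M × M → QBar) where
  carrier := {F | ∃ (n : ℕ) (a b : Fin n → (M → QBar)), (∀ i, a i ∈ S) ∧ (∀ i, b i ∈ S) ∧
    ∀ x y, F (x, y) = ∑ i, a i x * b i y}
  algebraMap_mem' c := ⟨1, fun _ => algebraMap A (M → QBar) c, fun _ => 1,
    fun _ => S.algebraMap_mem c, fun _ => S.one_mem, fun x y => by simp⟩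
  add_mem' := by
    rintro F F' ⟨n, a, b, ha, hb, h⟩ ⟨n', a', b', ha', hb', h'⟩
    refine ⟨n + n', Fin.append a a', Fin.append b b', fun i => ?_, fun i => ?_, fun x y => ?_⟩
    · refine Fin.addCases (fun j => ?_) (fun j => ?_) i <;> simp [ha, ha']
    · refine Fin.addCases (fun j => ?_) (fun j => ?_) i <;> simp [hb, hb']
    · simp [Fin.sum_univ_add, h, h']
  mul_mem' := by
    rintro F F' ⟨n, a, b, ha, hb, h⟩ ⟨n', a', b', ha', hb', h'⟩
    refine ⟨n * n', fun k => a (finProdFinEquiv.symm k).1 * a' (finProdFinEquiv.symm k).2,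
      fun k => b (finProdFinEquiv.symm k).1 * b' (finProdFinEquiv.symm k).2,
      fun k => S.mul_mem (ha _) (ha' _), fun k => S.mul_mem (hb _) (hb' _), fun x y => ?_⟩
    simp only [Pi.mul_apply, h, h', Finset.sum_mul_sum]
    rw [Equiv.sum_comp finProdFinEquiv.symm
      fun p : Fin n × Fin n' => a p.1 x * a' p.2 x * (b p.1 y * b' p.2 y), Fintype.sum_prod_type]
    exact Finset.sum_congr rfl fun i _ => Finset.sum_congr rfl fun j _ => mul_mul_mul_comm _ _ _ _

theorem tensor_mem_pairAlgebra {S : Subalgebra A (M → QBar)} {a b : M → QBar} (ha : a ∈ S)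
    (hb : b ∈ S) : (fun p : M × M => a p.1 * b p.2) ∈ pairAlgebra S :=
  ⟨1, fun _ => a, fun _ => b, fun _ => ha, fun _ => hb, fun x y => by simp⟩

theorem pairAlgebra_int {S : Subalgebra A (M → QBar)} (hS : ∀ f ∈ S, ∀ m, f m ∈ A)
    {F : M × M → QBar} (hF : F ∈ pairAlgebra S) (p : M × M) : F p ∈ A := by
  obtain ⟨n, a, b, ha, hb, h⟩ := hF
  rw [show F p = F (p.1, p.2) from rfl, h]
  exact sum_mem fun i _ => mul_mem (hS _ (ha i) _) (hS _ (hb i) _)

/-- Restriction of functions along a map. -/
def resHom (A : ValuationSubring QBar) {X Y : Type} (v : Y → X) :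
    (X → QBar) →ₐ[A] (Y → QBar) where
  toFun f y := f (v y)
  map_one' := rfl
  map_mul' _ _ := rfl
  map_zero' := rfl
  map_add' _ _ := rfl
  commutes' _ := rfl

section Gens

variable [AddCommGroup M] [DistribMulAction GQ M] {Q : Type*} [AddCommGroup Q] (cls : M →+ Q)
variable {ι : Type} (g : ι → M → QBar)

open Classical in
/-- The indicator of a class. -/
def indCls (c : Q) : M → QBar := fun m => if cls m = c then 1 else 0

/-- The basic functions: generators and indicators of classes. -/
def baseFuns : Set (M → QBar) := Set.range g ∪ Set.range fun m : M => indCls cls (cls m)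

variable (A) in
/-- The conjugates of the basic functions under the decomposition group. -/
def conjGens : Set (M → QBar) :=
  {f | ∃ (d : GQ) (h : M → QBar), d • A = A ∧ h ∈ baseFuns cls g ∧ f = galAct d h}

variable (A) in
/-- The lattice generated by the conjugates of the basic functions. -/
def genLattice : Subalgebra A (M → QBar) := Algebra.adjoin A (conjGens A cls g)

theorem galAct_one_eq (f : M → QBar) : galAct (1 : GQ) f = f := by
  funext m; simp [galAct]

theorem baseFuns_subset : baseFuns cls g ⊆ (genLattice A cls g : Set (M → QBar)) := fun h hh =>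
  Algebra.subset_adjoin ⟨1, h, one_smul GQ A, hh, (galAct_one_eq h).symm⟩

theorem galAct_mem {d : GQ} (hd : d • A = A) {f : M → QBar} (hf : f ∈ genLattice A cls g) :
    galAct d f ∈ genLattice A cls g := by
  induction hf using Algebra.adjoin_induction with
  | mem f hf =>
    obtain ⟨d', h, hd', hh, rfl⟩ := hf
    exact Algebra.subset_adjoin ⟨d * d', h, by rw [mul_smul, hd', hd], hh,
      (galAct_mul d d' h).symm⟩
  | algebraMap a =>
    have e : galAct d (algebraMap A (M → QBar) a) =
        algebraMap A (M → QBar) ⟨d a, map_mem_of_mem_decomposition hd a.2⟩ := rfl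
    rw [e]
    exact Subalgebra.algebraMap_mem _ _
  | add a b _ _ ha hb =>
    rw [show galAct d (a + b) = galAct d a + galAct d b from funext fun m => map_add d _ _]
    exact add_mem ha hb
  | mul a b _ _ ha hb =>
    rw [show galAct d (a * b) = galAct d a * galAct d b from funext fun m => map_mul d _ _]
    exact mul_mem ha hb

theorem genLattice_int (hint : ∀ i m, g i m ∈ A) {f : M → QBar} (hf : f ∈ genLattice A cls g) :
    ∀ m, f m ∈ A := by
  induction hf using Algebra.adjoin_induction with
  | mem f hf =>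
    obtain ⟨d, h, hd, hh, rfl⟩ := hf
    intro m
    refine map_mem_of_mem_decomposition hd ?_
    rcases hh with ⟨i, rfl⟩ | ⟨m₀, rfl⟩
    · exact hint i _
    · simp only [indCls]; split_ifs
      · exact one_mem A
      · exact zero_mem A
  | algebraMap a => exact fun m => a.2
  | add a b _ _ ha hb => exact fun m => add_mem (ha m) (hb m)
  | mul a b _ _ ha hb => exact fun m => mul_mem (ha m) (hb m)

theorem genLattice_congr (hint : ∀ i m, g i m ∈ A)
    (hcD : ∀ d : GQ, d • A = A → ∀ x y, cls x = cls y → cls (d • x) = cls (d • y))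
    (hcong : ∀ i x y, cls x = cls y → g i x - g i y ∈ A.nonunits) {f : M → QBar}
    (hf : f ∈ genLattice A cls g) : ∀ x y, cls x = cls y → f x - f y ∈ A.nonunits := by
  induction hf using Algebra.adjoin_induction with
  | mem f hf =>
    obtain ⟨d, h, hd, hh, rfl⟩ := hf
    intro x y hxy
    have hd' : d⁻¹ • A = A := by rw [inv_smul_eq_iff]; exact hd.symm
    have e := hcD _ hd' x y hxy
    have hbase : h (d⁻¹ • x) - h (d⁻¹ • y) ∈ A.nonunits := by
      rcases hh with ⟨i, rfl⟩ | ⟨m₀, rfl⟩
      · exact hcong i _ _ e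
      · simp only [indCls]
        rw [e, sub_self]
        exact A.nonunits.zero_mem
    rw [show galAct d h x - galAct d h y = d • (h (d⁻¹ • x) - h (d⁻¹ • y)) from
      (map_sub d _ _).symm, ← hd]
    exact (smul_mem_nonunits_smul_iff).mpr hbase
  | algebraMap a => exact fun x y _ => by simp
  | add a b _ _ ha hb =>
    intro x y h
    simp only [Pi.add_apply]
    rw [add_sub_add_comm]
    exact nonunits_add (ha x y h) (hb x y h)
  | mul a b h₁ h₂ ha hb =>
    intro x y h
    simp only [Pi.mul_apply]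
    rw [show a x * b x - a y * b y = a x * (b x - b y) + (a x - a y) * b y by ring]
    exact nonunits_add (nonunits_mul_left (genLattice_int cls g hint h₁ x) (hb x y h))
      (nonunits_mul_right (ha x y h) (genLattice_int cls g hint h₂ y))

theorem galAct_baseFuns_inertia (hI : ∀ σ ∈ A.inertiaSubgroupIn ℚ, ∀ i m, g i (σ • m) = σ (g i m))
    (hcI : ∀ σ ∈ A.inertiaSubgroupIn ℚ, ∀ x, cls (σ • x) = cls x) {τ : GQ}
    (hτ : τ ∈ A.inertiaSubgroupIn ℚ) {h : M → QBar} (hh : h ∈ baseFuns cls g) :
    galAct τ h = h := by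
  funext m
  simp only [galAct]
  rcases hh with ⟨i, rfl⟩ | ⟨m₀, rfl⟩
  · rw [← hI τ hτ, smul_inv_smul]
  · simp only [indCls]
    rw [hcI τ⁻¹ (inv_mem hτ) m]
    split_ifs <;> simp

variable [Finite M] [Finite ι]

theorem exists_open_fixing
    (hM : ∀ m : M, ∃ L : IntermediateField ℚ QBar, FiniteDimensional ℚ L ∧
      ∀ σ : GQ, (∀ q ∈ L, σ q = q) → σ • m = m)
    (hI : ∀ σ ∈ A.inertiaSubgroupIn ℚ, ∀ i m, g i (σ • m) = σ (g i m))
    (hcI : ∀ σ ∈ A.inertiaSubgroupIn ℚ, ∀ x, cls (σ • x) = cls x) :
    ∃ U : Subgroup GQ, IsOpen (U : Set GQ) ∧ A.inertiaSubgroupIn ℚ ≤ U ∧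
      ∀ u ∈ U, ∀ f ∈ conjGens A cls g, galAct u f = f := by
  classical
  have := Fintype.ofFinite M
  have := Fintype.ofFinite ι
  let U : Subgroup GQ :=
    { carrier := {u | ∀ f ∈ conjGens A cls g, galAct u f = f}
      one_mem' := fun f _ => galAct_one_eq f
      mul_mem' := fun {a b} ha hb f hf => by rw [galAct_mul, hb f hf, ha f hf]
      inv_mem' := fun {a} ha f hf => by
        conv_lhs => rw [← ha f hf]
        rw [← galAct_mul, inv_mul_cancel, galAct_one_eq] }
  refine ⟨U, ?_, fun τ hτ f hf => ?_, fun u hu => hu⟩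
  · choose L hLf hL using hM
    -- the values of the conjugates lie in finitely many conjugates of finitely many numbers
    let W : Set QBar := {1, 0} ∪ Set.range fun p : ι × M => g p.1 p.2
    let V : Set QBar := ⋃ w ∈ W, (minpoly ℚ w).rootSet QBar
    have hW : W.Finite := ((Set.finite_singleton _).insert _).union (Set.finite_range _)
    have hV : V.Finite := hW.biUnion fun w _ => Polynomial.rootSet_finite _ _
    have hval : ∀ f ∈ conjGens A cls g, ∀ m, f m ∈ V := by
      rintro f ⟨d, h, -, hh, rfl⟩ m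
      have hw : h (d⁻¹ • m) ∈ W := by
        rcases hh with ⟨i, rfl⟩ | ⟨m₀, rfl⟩
        · exact Or.inr ⟨(i, _), rfl⟩
        · simp only [indCls]; split_ifs <;> simp [W]
      refine Set.mem_biUnion hw ?_
      rw [Polynomial.mem_rootSet]
      refine ⟨minpoly.ne_zero (Algebra.IsIntegral.isIntegral _), ?_⟩
      simp only [galAct]
      rw [Polynomial.aeval_algHom_apply d _ _, minpoly.aeval, map_zero]
    have : Finite V := hV.to_subtype
    have : FiniteDimensional ℚ (IntermediateField.adjoin ℚ V) :=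
      IntermediateField.finiteDimensional_adjoin fun v _ => Algebra.IsIntegral.isIntegral v
    have : FiniteDimensional ℚ (⨆ m, L m : IntermediateField ℚ QBar) :=
      IntermediateField.finiteDimensional_iSup_of_finite
    refine Subgroup.isOpen_mono (fun σ hσ f hf => funext fun m => ?_)
      (IntermediateField.fixingSubgroup_isOpen ((⨆ m, L m) ⊔ IntermediateField.adjoin ℚ V))
    have hfix := (IntermediateField.mem_fixingSubgroup_iff _ _).mp hσ
    have hm : σ • m = m := hL m σ fun q hq =>
      hfix q ((le_sup_left : (⨆ m, L m) ≤ _) (le_iSup L m hq))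
    simp only [galAct]
    rw [show σ⁻¹ • m = m by rw [inv_smul_eq_iff, hm]]
    exact hfix _ ((le_sup_right : IntermediateField.adjoin ℚ V ≤ _)
      (IntermediateField.subset_adjoin ℚ V (hval f hf m)))
  · obtain ⟨d, h, hd, hh, rfl⟩ := hf
    have hτ' : d⁻¹ * τ * d ∈ A.inertiaSubgroupIn ℚ := by
      refine (mem_inertia_smul_iff (g := d) (A := A)).mp ?_
      rw [hd, show d * (d⁻¹ * τ * d) * d⁻¹ = τ by group]
      exact hτ
    calc galAct τ (galAct d h) = galAct d (galAct (d⁻¹ * τ * d) h) := by
          rw [← galAct_mul, ← galAct_mul]; congr 1; group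
      _ = galAct d h := by rw [galAct_baseFuns_inertia cls g hI hcI hτ' hh]

omit [Finite M] [Finite ι] in
theorem indCls_mem (m : M) : indCls cls (cls m) ∈ genLattice A cls g :=
  baseFuns_subset cls g (Or.inr ⟨m, rfl⟩)

omit [Finite M] [Finite ι] in
theorem gen_mem (i : ι) : g i ∈ genLattice A cls g := baseFuns_subset cls g (Or.inl ⟨i, rfl⟩)

omit [Finite ι] in
theorem indCls_add_mem (m₀ : M) :
    (fun p : M × M => indCls cls (cls m₀) (p.1 + p.2)) ∈ pairAlgebra (genLattice A cls g) := by
  classical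
  have := Fintype.ofFinite M
  let C : Finset Q := Finset.univ.image cls
  have e : (fun p : M × M => indCls cls (cls m₀) (p.1 + p.2)) =
      ∑ c ∈ C, fun p : M × M => indCls cls c p.1 * indCls cls (cls m₀ - c) p.2 := by
    funext p
    rw [Finset.sum_apply, Finset.sum_eq_single (cls p.1) (fun c _ hc => by
      simp [indCls, Ne.symm hc]) (fun h => absurd (Finset.mem_image_of_mem _ (Finset.mem_univ _)) h)]
    simp only [indCls, if_true, one_mul, map_add]
    exact if_congr (eq_sub_iff_add_eq'.symm) rfl rfl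
  rw [e]
  refine sum_mem fun c hc => ?_
  obtain ⟨m, -, rfl⟩ := Finset.mem_image.mp hc
  rw [← map_sub]
  exact tensor_mem_pairAlgebra (indCls_mem cls g m) (indCls_mem cls g (m₀ - m))

omit [Finite M] [Finite ι] in
theorem indCls_neg_mem (m₀ : M) :
    (fun x => indCls cls (cls m₀) (-x)) ∈ genLattice A cls g := by
  classical
  have e : (fun x => indCls cls (cls m₀) (-x)) = indCls cls (cls (-m₀)) := funext fun x => by
    simp only [indCls, map_neg]
    exact if_congr neg_eq_iff_eq_neg rfl rfl
  rw [e]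
  exact indCls_mem cls g _

variable (hint : ∀ i m, g i m ∈ A)
  (hop : ∀ {Ω : Type} [Finite Ω] [Nonempty Ω] (R : Subalgebra A (Ω → QBar)), HasIntValues R →
      ∀ f₁ f₂ f₃ : Ω → M, (∀ ω ω', cls (f₁ ω) = cls (f₁ ω')) →
        (∀ ω ω', cls (f₂ ω) = cls (f₂ ω')) → (∀ ω ω', cls (f₃ ω) = cls (f₃ ω')) →
        (∀ i, (fun ω => g i (f₁ ω)) ∈ R) → (∀ i, (fun ω => g i (f₂ ω)) ∈ R) →
        (∀ i, (fun ω => g i (f₃ ω)) ∈ R) → ∀ i, (fun ω => g i (f₁ ω + f₂ ω - f₃ ω)) ∈ R)

include hint hop in
omit [Finite ι] in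
theorem gen_add_mem (i : ι) :
    (fun p : M × M => g i (p.1 + p.2)) ∈ pairAlgebra (genLattice A cls g) := by
  classical
  have := Fintype.ofFinite M
  let C : Finset Q := Finset.univ.image cls
  set S := genLattice A cls g
  have block : ∀ c ∈ C ×ˢ C, ∃ F ∈ pairAlgebra S, ∀ p : M × M,
      cls p.1 = c.1 → cls p.2 = c.2 → g i (p.1 + p.2) = F p := by
    rintro ⟨c₁, c₂⟩ hc
    rw [Finset.mem_product] at hc
    obtain ⟨m₁, -, h₁⟩ := Finset.mem_image.mp hc.1
    obtain ⟨m₂, -, h₂⟩ := Finset.mem_image.mp hc.2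
    let Ω : Type := {p : M × M // cls p.1 = c₁ ∧ cls p.2 = c₂}
    have : Nonempty Ω := ⟨⟨(m₁, m₂), h₁, h₂⟩⟩
    have : Finite Ω := Subtype.finite
    let R : Subalgebra A (Ω → QBar) := (pairAlgebra S).map (resHom A fun ω : Ω => ω.1)
    have hR : HasIntValues R := fun r ω => by
      obtain ⟨F, hF, hFr⟩ := r.2
      rw [← hFr]
      exact pairAlgebra_int (fun f hf => genLattice_int cls g hint hf) hF _
    have h := hop R hR (fun ω => ω.1.1) (fun ω => ω.1.2) (fun _ => 0)
      (fun ω ω' => ω.2.1.trans ω'.2.1.symm) (fun ω ω' => ω.2.2.trans ω'.2.2.symm)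
      (fun _ _ => rfl)
      (fun j => ⟨_, tensor_mem_pairAlgebra (gen_mem cls g j) S.one_mem,
        funext fun ω => mul_one (g j ω.1.1)⟩)
      (fun j => ⟨_, tensor_mem_pairAlgebra S.one_mem (gen_mem cls g j),
        funext fun ω => one_mul (g j ω.1.2)⟩)
      (fun j => R.algebraMap_mem (⟨g j 0, hint j 0⟩ : A)) i
    obtain ⟨F, hF, hFr⟩ := h
    refine ⟨F, hF, fun p hp₁ hp₂ => ?_⟩
    have := congrFun hFr ⟨p, hp₁, hp₂⟩
    simp only [sub_zero] at this
    exact this.symm
  choose! F hF hFe using block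
  have e : (fun p : M × M => g i (p.1 + p.2)) =
      ∑ c ∈ C ×ˢ C, (fun p : M × M => indCls cls c.1 p.1 * indCls cls c.2 p.2) * F c := by
    funext p
    have hc : (cls p.1, cls p.2) ∈ C ×ˢ C := Finset.mem_product.mpr
      ⟨Finset.mem_image_of_mem _ (Finset.mem_univ _), Finset.mem_image_of_mem _ (Finset.mem_univ _)⟩
    rw [Finset.sum_apply, Finset.sum_eq_single (cls p.1, cls p.2) (fun c _ hne => ?_)
      (fun h => absurd hc h)]
    · simp [indCls, ← hFe _ hc p rfl rfl]
    · rcases not_and_or.mp (fun h => hne (Prod.ext h.1 h.2) :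
          ¬ (c.1 = cls p.1 ∧ c.2 = cls p.2)) with h | h <;> simp [indCls, Ne.symm h]
  rw [e]
  refine sum_mem fun c hc => mul_mem ?_ (hF c hc)
  obtain ⟨hc1, hc2⟩ := Finset.mem_product.mp hc
  obtain ⟨a, -, ha⟩ := Finset.mem_image.mp hc1
  obtain ⟨b, -, hb⟩ := Finset.mem_image.mp hc2
  rw [← ha, ← hb]
  exact tensor_mem_pairAlgebra (indCls_mem cls g a) (indCls_mem cls g b)

include hint hop in
omit [Finite ι] in
theorem gen_neg_mem (i : ι) : (fun x => g i (-x)) ∈ genLattice A cls g := by
  classical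
  have := Fintype.ofFinite M
  let C : Finset Q := Finset.univ.image cls
  set S := genLattice A cls g
  have block : ∀ c ∈ C, ∃ F ∈ S, ∀ x : M, cls x = c → g i (-x) = F x := by
    intro c hc
    obtain ⟨m₁, -, h₁⟩ := Finset.mem_image.mp hc
    let Ω : Type := {x : M // cls x = c}
    have : Nonempty Ω := ⟨⟨m₁, h₁⟩⟩
    have : Finite Ω := Subtype.finite
    let R : Subalgebra A (Ω → QBar) := S.map (resHom A fun ω : Ω => ω.1)
    have hR : HasIntValues R := fun r ω => by
      obtain ⟨F, hF, hFr⟩ := r.2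
      rw [← hFr]
      exact genLattice_int cls g hint hF _
    have h0 : ∀ j, (fun _ : Ω => g j 0) ∈ R := fun j => R.algebraMap_mem (⟨g j 0, hint j 0⟩ : A)
    have h := hop R hR (fun _ => 0) (fun _ => 0) (fun ω => ω.1) (fun _ _ => rfl) (fun _ _ => rfl)
      (fun ω ω' => ω.2.trans ω'.2.symm) h0 h0 (fun j => ⟨g j, gen_mem cls g j, rfl⟩) i
    obtain ⟨F, hF, hFr⟩ := h
    refine ⟨F, hF, fun x hx => ?_⟩
    have := congrFun hFr ⟨x, hx⟩
    simp only [add_zero, zero_sub] at this
    exact this.symm
  choose! F hF hFe using block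
  have e : (fun x => g i (-x)) = ∑ c ∈ C, indCls cls c * F c := by
    funext x
    have hc : cls x ∈ C := Finset.mem_image_of_mem _ (Finset.mem_univ _)
    rw [Finset.sum_apply, Finset.sum_eq_single (cls x) (fun c _ hne => by simp [indCls, Ne.symm hne])
      (fun h => absurd hc h)]
    simp [indCls, ← hFe _ hc x rfl]
  rw [e]
  refine sum_mem fun c hc => mul_mem ?_ (hF c hc)
  obtain ⟨a, -, ha⟩ := Finset.mem_image.mp hc
  exact ha ▸ indCls_mem cls g a

include hint hop in
omit [Finite ι] in
theorem genLattice_comul {f : M → QBar} (hf : f ∈ genLattice A cls g) :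
    (fun p : M × M => f (p.1 + p.2)) ∈ pairAlgebra (genLattice A cls g) := by
  induction hf using Algebra.adjoin_induction with
  | mem f hf =>
    obtain ⟨d, h, hd, hh, rfl⟩ := hf
    have hb : (fun p : M × M => h (p.1 + p.2)) ∈ pairAlgebra (genLattice A cls g) := by
      rcases hh with ⟨i, rfl⟩ | ⟨m₀, rfl⟩
      · exact gen_add_mem cls g hint hop i
      · exact indCls_add_mem cls g m₀
    obtain ⟨n, a, b, ha, hb, hab⟩ := hb
    refine ⟨n, fun k => galAct d (a k), fun k => galAct d (b k),
      fun k => galAct_mem cls g hd (ha k), fun k => galAct_mem cls g hd (hb k), fun x y => ?_⟩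
    simp only [galAct, smul_add]
    rw [show h (d⁻¹ • x + d⁻¹ • y) = _ from hab (d⁻¹ • x) (d⁻¹ • y), map_sum]
    exact Finset.sum_congr rfl fun k _ => map_mul d _ _
  | algebraMap a => exact (pairAlgebra (genLattice A cls g)).algebraMap_mem a
  | add a b _ _ ha hb => exact add_mem ha hb
  | mul a b _ _ ha hb => exact mul_mem ha hb

include hint hop in
omit [Finite ι] in
theorem genLattice_neg {f : M → QBar} (hf : f ∈ genLattice A cls g) :
    (fun x => f (-x)) ∈ genLattice A cls g := by
  induction hf using Algebra.adjoin_induction with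
  | mem f hf =>
    obtain ⟨d, h, hd, hh, rfl⟩ := hf
    have hb : (fun x => h (-x)) ∈ genLattice A cls g := by
      rcases hh with ⟨i, rfl⟩ | ⟨m₀, rfl⟩
      · exact gen_neg_mem cls g hint hop i
      · exact indCls_neg_mem cls g m₀
    have e : (fun x => galAct d h (-x)) = galAct d fun x => h (-x) := funext fun x => by
      simp [galAct]
    rw [e]
    exact galAct_mem cls g hd hb
  | algebraMap a => exact (genLattice A cls g).algebraMap_mem a
  | add a b _ _ ha hb => exact add_mem ha hb
  | mul a b _ _ ha hb => exact mul_mem ha hb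

end Gens

variable {l : ℕ}

/-- A Galois order from generators compatible with the group law on each class. -/
theorem exists_galOrder_of_gens (hA : A.LiesOverPrime l) (hl : l.Prime)
    {M : Type} [AddCommGroup M] [DistribMulAction GQ M] [Finite M]
    (hM : ∀ m : M, ∃ L : IntermediateField ℚ QBar, FiniteDimensional ℚ L ∧
      ∀ σ : GQ, (∀ q ∈ L, σ q = q) → σ • m = m)
    {Q : Type*} [AddCommGroup Q] (cls : M →+ Q)
    (hcI : ∀ σ ∈ A.inertiaSubgroupIn ℚ, ∀ x, cls (σ • x) = cls x)
    (hcD : ∀ d : GQ, d • A = A → ∀ x y, cls x = cls y → cls (d • x) = cls (d • y))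
    {ι : Type} [Finite ι] (g : ι → M → QBar)
    (hint : ∀ i m, g i m ∈ A)
    (hI : ∀ σ ∈ A.inertiaSubgroupIn ℚ, ∀ i m, g i (σ • m) = σ (g i m))
    (hsep : ∀ x y, cls x = cls y → (∀ i, g i x = g i y) → x = y)
    (hcong : ∀ i x y, cls x = cls y → g i x - g i y ∈ A.nonunits)
    (hop : ∀ {Ω : Type} [Finite Ω] [Nonempty Ω] (R : Subalgebra A (Ω → QBar)), HasIntValues R →
      ∀ f₁ f₂ f₃ : Ω → M, (∀ ω ω', cls (f₁ ω) = cls (f₁ ω')) →
        (∀ ω ω', cls (f₂ ω) = cls (f₂ ω')) → (∀ ω ω', cls (f₃ ω) = cls (f₃ ω')) →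
        (∀ i, (fun ω => g i (f₁ ω)) ∈ R) → (∀ i, (fun ω => g i (f₂ ω)) ∈ R) →
        (∀ i, (fun ω => g i (f₃ ω)) ∈ R) → ∀ i, (fun ω => g i (f₁ ω + f₂ ω - f₃ ω)) ∈ R) :
    ∃ O : GalOrder l M, ∀ f ∈ O.H, ∀ x y, cls x = cls y → f x - f y ∈ A.nonunits := by
  classical
  obtain ⟨U, hU, hIU, hfix⟩ := exists_open_fixing (A := A) cls g hM hI hcI
  set S := genLattice A cls g with hS
  have hgen : S.toSubmodule ≤ Submodule.span A {f | f ∈ S ∧ ∀ u ∈ U, galAct u f = f} := by
    rw [hS, genLattice, Algebra.adjoin_eq_span]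
    refine Submodule.span_mono fun f hf => ?_
    induction hf using Submonoid.closure_induction with
    | mem f hf => exact ⟨Algebra.subset_adjoin hf, fun u hu => hfix u hu f hf⟩
    | one => exact ⟨one_mem _, fun u _ => funext fun m => map_one u⟩
    | mul a b _ _ ha hb =>
      exact ⟨mul_mem ha.1 hb.1, fun u hu => by
        rw [show galAct u (a * b) = galAct u a * galAct u b from funext fun m => map_mul u _ _,
          ha.2 u hu, hb.2 u hu]⟩
  obtain ⟨O, hO⟩ := exists_galOrder_of_lattice hA hl S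
    (fun f hf => genLattice_int cls g hint hf) (fun d hd f hf => galAct_mem cls g hd hf) hU hIU hgen
    (fun x y h => by
      have hcls : cls x = cls y := by
        have := h _ (indCls_mem cls g x)
        simp only [indCls, if_true] at this
        by_contra hne
        rw [if_neg (Ne.symm hne)] at this
        exact one_ne_zero this
      exact hsep x y hcls fun i => h _ (gen_mem cls g i))
    (fun f hf => by
      obtain ⟨n, a, b, ha, hb, hab⟩ := genLattice_comul cls g hint hop hf
      exact ⟨n, a, b, ha, hb, hab⟩)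
    (fun f hf => genLattice_neg cls g hint hop hf)
  exact ⟨O, fun f hf => genLattice_congr cls g hint hcD hcong (hO ▸ hf : f ∈ equivariantPart hA hl S).1⟩

end Fermat.Agent.FiniteFlat
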