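import Fermat.Agent.FiniteFlat.JCoords
import Fermat.Agent.FiniteFlat.OfGens
import Fermat.Agent.MordellWeil.Main
import Fermat.Agent.GaloisReps.HeckeGalois

/-!
# A Galois order on the `l`-power torsion of `J₀(N)` at a good prime

For `l ∤ N` and a place `A` of `ℚ̄` over `l`, the `l ^ k`-torsion of `J₀(N)` has a Galois order
whose functions are congruent on classes with equal reduction.
-/

set_option autoImplicit false
set_option maxHeartbeats 1000000
set_option synthInstance.maxHeartbeats 400000
set_option linter.unusedSectionVars false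

noncomputable section

open IsLocalRing ModularCurve AlgebraicCurve
open Fermat.Agent.Arith

namespace Fermat.Agent.FiniteFlat

variable (N : ℕ) [NeZero N] (l k : ℕ)

/-- The `l ^ k`-torsion of `J₀(N)`. -/
def JTor : Type := ↥(Pic0.torsion QBar (modularFunctionFieldBar N) (l ^ k))

instance jTorAddCommGroup : AddCommGroup (JTor N l k) :=
  inferInstanceAs (AddCommGroup ↥(Pic0.torsion QBar (modularFunctionFieldBar N) (l ^ k)))

/-- The inclusion of the torsion. -/
def jTorIncl : JTor N l k →+ JZero N :=
  (Pic0.torsion QBar (modularFunctionFieldBar N) (l ^ k)).subtype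

theorem jTorIncl_injective : Function.Injective (jTorIncl N l k) := Subtype.val_injective

theorem jTorIncl_torsion (x : JTor N l k) : ((l ^ k : ℕ) : ℤ) • jTorIncl N l k x = 0 :=
  Pic0.mem_torsion.mp x.2

theorem exists_jTorIncl_eq {y : JZero N} (hy : ((l ^ k : ℕ) : ℤ) • y = 0) :
    ∃ x, jTorIncl N l k x = y := ⟨⟨y, Pic0.mem_torsion.mpr hy⟩, rfl⟩

instance jTorAction : DistribMulAction GQ (JTor N l k) where
  smul σ x := ⟨σ • jTorIncl N l k x,
    SemilinearAut.smul_mem_torsion (arithmeticGalois (modularFunctionFieldFull N) σ) x.2⟩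
  one_smul x := jTorIncl_injective N l k (one_smul GQ (jTorIncl N l k x))
  mul_smul σ τ x := jTorIncl_injective N l k (mul_smul σ τ (jTorIncl N l k x))
  smul_zero σ := jTorIncl_injective N l k (smul_zero (A := JZero N) σ)
  smul_add σ x y := jTorIncl_injective N l k (smul_add σ (jTorIncl N l k x) (jTorIncl N l k y))

theorem jTorIncl_smul (σ : GQ) (x : JTor N l k) :
    jTorIncl N l k (σ • x) = σ • jTorIncl N l k x := rfl

theorem finite_jTor (hl : l.Prime) : Finite (JTor N l k) := by
  have := (MordellWeil.jZero_finite_torsion N (l ^ k) (pow_pos hl.pos k)).to_subtype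
  refine Finite.of_injective (β := {x : JZero N | (l ^ k) • x = 0})
    (fun x => ⟨jTorIncl N l k x, ?_⟩) fun x y h => jTorIncl_injective N l k (congrArg Subtype.val h)
  show (l ^ k) • jTorIncl N l k x = 0
  rw [← natCast_zsmul]
  exact jTorIncl_torsion N l k x

variable {N l} {A : ValuationSubring QBar}

/-- The Galois order on the torsion, congruent on classes with equal reduction. -/
theorem exists_galOrder_jTor (hA : A.LiesOverPrime l) (hl : l.Prime) (hlN : ¬ l ∣ N) :
    ∃ O : GalOrder l (JTor N l k), ∀ f ∈ O.H, ∀ x y : JTor N l k,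
      reductionModL A N (jTorIncl N l k x) = reductionModL A N (jTorIncl N l k y) →
        f x - f y ∈ A.nonunits := by
  have : IsAlgClosed (ResidueField A) := residueField_isAlgClosed A
  have := residueField_charP hA hl
  have hNA : (N : ResidueField A) ≠ 0 := fun e => hlN ((CharP.cast_eq_zero_iff _ l N).mp e)
  have := EichlerShimura.isFunctionField_bar (N := N)
  have := RedTorsion.isFunctionField_full (K := ResidueField A) (N := N)
    (F := modularFunctionFieldFullC (ResidueField A) N) rfl hNA
  have := finite_jTor N l k hl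
  have hn : l ^ k ≠ 0 := (pow_pos hl.pos k).ne'
  obtain ⟨T⟩ := exists_torsReps hA hl hNA (jTorIncl N l k) (jTorIncl_injective N l k) hn
    (jTorIncl_torsion N l k)
  obtain ⟨ν, hν, g, hint, hI, hsep, hcong, hop⟩ :=
    exists_coordinates hA hl hNA (jTorIncl_smul N l k) T
  refine exists_galOrder_of_gens hA hl (fun x => ?_) ((reductionModL A N).comp (jTorIncl N l k))
    (fun σ hσ x => ?_) (fun d hd x y hxy => ?_) g hint hI hsep hcong hop
  · have : NeZero (l ^ k) := ⟨hn⟩
    obtain ⟨L, hL, hfix⟩ := GaloisReps.exists_fixing_torsion (N := N) (m := l ^ k)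
      ⟨jTorIncl N l k x, x.2⟩
    exact ⟨L, hL, fun σ hσ => jTorIncl_injective N l k (hfix σ hσ)⟩
  · simp only [AddMonoidHom.comp_apply, jTorIncl_smul]
    exact EichlerShimura.reductionModL_inertia hNA hσ _
  · simp only [AddMonoidHom.comp_apply, jTorIncl_smul] at hxy ⊢
    let φ : ResidueField A ≃+* ResidueField A :=
      MulSemiringAction.toRingEquiv (A.decompositionSubgroup ℚ) (ResidueField A) ⟨d, hd⟩
    have hφ : ∀ x : A, residue A ⟨d x, map_mem_of_mem_decomposition hd x.2⟩ = φ (residue A x) :=
      fun x => (residue_smul hd x).symm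
    rw [EichlerShimura.reductionModL_smul hNA hd φ hφ, EichlerShimura.reductionModL_smul hNA hd φ hφ,
      hxy]

end Fermat.Agent.FiniteFlat
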